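/-
PROJECT T (S56), block (a1-II) = S56/Base, the TURNED COUNT (B) (chief helper8): the abstract spine.

Model-independent linear algebra: `lam : X → P`, `lam' : Y → P'` two "localisation maps",
`β : P × P' → F` a pairing with

* reciprocity           `β (lam x) (lam' y) = 0`,
* right non-degeneracy  `(∀ x, β x y = 0) → y = 0`,
* `dim P ≤ dim P'`      (a consequence of left non-degeneracy),

and `L ⊆ P` a subspace of local conditions.  Then

  `dim lam⁻¹(L) + dim Y ≤ dim ker lam + dim L + dim lam'⁻¹(L^⊥)`          (`finrank_selmer_add_le`)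

i.e. `#Sel_L · #H¹(M') ≤ #Ш¹(M) · #L · #Sel_{L^⊥}`: the Greenberg–Wiles inequality WITHOUT the hard
inclusion of the middle exactness of Poitou–Tate.  Cardinality forms for finite abelian groups
killed by `p` and for finite products `P = ∏ P i`, `β = ∑ u i * β i` follow.
-/
import Mathlib
import Fermat.Agent.S56.TW.Spine

set_option autoImplicit false

namespace Fermat.Agent.S56.Base.CountSpine

open Module Submodule Fermat.Agent.S56.TW.Spine

/-! ### The linear form -/

section Lin

variable {F : Type*} [Field F]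
variable {X Y P P' : Type*} [AddCommGroup X] [Module F X] [AddCommGroup Y] [Module F Y]
  [AddCommGroup P] [Module F P] [AddCommGroup P'] [Module F P']
  [FiniteDimensional F X] [FiniteDimensional F Y] [FiniteDimensional F P]

/-- If `A ⊆ P` is orthogonal to `W' ⊆ P'` and the pairing is right non-degenerate, then
`dim A + dim W' ≤ dim P`. -/
lemma finrank_add_le_of_orthogonal (β : P →ₗ[F] P' →ₗ[F] F)
    (hnd : ∀ y, (∀ x, β x y = 0) → y = 0) (A : Submodule F P) (W' : Submodule F P')
    (hA : ∀ x ∈ A, ∀ y ∈ W', β x y = 0) :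
    finrank F A + finrank F W' ≤ finrank F P := by
  let r : P' →ₗ[F] Module.Dual F P := β.flip
  have hr : Function.Injective r := by
    rw [← LinearMap.ker_eq_bot, LinearMap.ker_eq_bot']
    intro y hy
    exact hnd y fun x => by simpa [r] using congrArg (fun f => f x) hy
  have h1 : finrank F ↥(W'.map r) = finrank F W' :=
    (Submodule.equivMapOfInjective r hr W').finrank_eq.symm
  have h2 := Subspace.finrank_add_finrank_dualCoannihilator_eq (W'.map r)
  have h3 : A ≤ (W'.map r).dualCoannihilator := by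
    intro x hx
    rw [Submodule.mem_dualCoannihilator]
    rintro _ ⟨y, hy, rfl⟩
    simpa [r] using hA x hx y hy
  have h4 := Submodule.finrank_mono h3
  omega

variable [FiniteDimensional F P']

/-- **The turned count**, linear form. -/
theorem finrank_selmer_add_le (lam : X →ₗ[F] P) (lam' : Y →ₗ[F] P') (β : P →ₗ[F] P' →ₗ[F] F)
    (L : Submodule F P) (hrec : ∀ x y, β (lam x) (lam' y) = 0)
    (hnd : ∀ y, (∀ x, β x y = 0) → y = 0) (hdim : finrank F P ≤ finrank F P') :
    finrank F ↥(L.comap lam) + finrank F Y ≤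
      finrank F (LinearMap.ker lam) + finrank F L + finrank F ↥((annih β L).comap lam') := by
  have h1 := finrank_comap_eq lam L
  have h2 := finrank_comap_eq lam' (annih β L)
  have h3 := LinearMap.finrank_range_add_finrank_ker lam'
  have h4 := finrank_add_le_of_orthogonal β hnd (LinearMap.range lam ⊓ L)
    (LinearMap.range lam' ⊔ annih β L) (by
      rintro x ⟨⟨x0, rfl⟩, hxL⟩ y hy
      obtain ⟨a, ⟨y0, rfl⟩, b, hb, rfl⟩ := Submodule.mem_sup.1 hy
      rw [map_add, hrec x0 y0, hb _ hxL, add_zero])
  have h5 := Submodule.finrank_sup_add_finrank_inf_eq (LinearMap.range lam') (annih β L)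
  have h6 := finrank_annih_ge β L
  omega

end Lin

/-! ### The cardinality form -/

section Card

variable (p : ℕ) [Fact p.Prime] {X Y P P' : Type*} [AddCommGroup X] [AddCommGroup Y]
  [AddCommGroup P] [AddCommGroup P'] [Finite X] [Finite Y] [Finite P] [Finite P']

lemma card_eq_pow_finrank (V : Type*) [AddCommGroup V] [Module (ZMod p) V] [Finite V] :
    Nat.card V = p ^ finrank (ZMod p) V := by
  rw [Module.natCard_eq_pow_finrank (K := ZMod p), Nat.card_zmod]

/-- Auxiliary form with `ZMod p`-module structures as instances. -/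
theorem card_selmer_mul_le_aux [Module (ZMod p) X] [Module (ZMod p) Y] [Module (ZMod p) P]
    [Module (ZMod p) P'] (lam : X →+ P) (lam' : Y →+ P') (β : P →+ P' →+ ZMod p)
    (L : AddSubgroup P) (hrec : ∀ x y, β (lam x) (lam' y) = 0)
    (hnd : ∀ y, (∀ x, β x y = 0) → y = 0) (hcard : Nat.card P ≤ Nat.card P') :
    Nat.card {x : X // lam x ∈ L} * Nat.card Y ≤
      Nat.card lam.ker * Nat.card L * Nat.card {y : Y // ∀ x ∈ L, β x (lam' y) = 0} := by
  have hp : p.Prime := Fact.out
  let l : X →ₗ[ZMod p] P := lam.toZModLinearMap p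
  let l' : Y →ₗ[ZMod p] P' := lam'.toZModLinearMap p
  have hB1 : ∀ (w w' : P) (y : P'), β (w + w') y = β w y + β w' y := fun w w' y => by
    rw [map_add, AddMonoidHom.add_apply]
  have hB2 : ∀ (c : ZMod p) (w : P) (y : P'), β (c • w) y = c • β w y := fun c w y =>
    ZMod.map_smul (β.flip y) c w
  have hB3 : ∀ (w : P) (y y' : P'), β w (y + y') = β w y + β w y' := fun w y y' => map_add _ _ _
  have hB4 : ∀ (c : ZMod p) (w : P) (y : P'), β w (c • y) = c • β w y := fun c w y =>
    ZMod.map_smul (β w) c y
  let B : P →ₗ[ZMod p] P' →ₗ[ZMod p] ZMod p :=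
    LinearMap.mk₂ (ZMod p) (fun (w : P) (y : P') => (β w y : ZMod p)) hB1 hB2 hB3 hB4
  let L' : Submodule (ZMod p) P := AddSubgroup.toZModSubmodule p L
  have hL' : ∀ x, x ∈ L' ↔ x ∈ L := fun x => Iff.rfl
  have hdim : finrank (ZMod p) P ≤ finrank (ZMod p) P' := by
    rw [card_eq_pow_finrank p P, card_eq_pow_finrank p P'] at hcard
    exact (Nat.pow_le_pow_iff_right hp.one_lt).1 hcard
  have hmain := finrank_selmer_add_le l l' B L' (fun x y => hrec x y)
    (fun y hy => hnd y fun x => hy x) hdim
  have e1 : Nat.card {x : X // lam x ∈ L} = p ^ finrank (ZMod p) ↥(L'.comap l) := by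
    rw [← card_eq_pow_finrank p ↥(L'.comap l)]
    exact Nat.card_congr (Equiv.subtypeEquivRight fun x => Iff.rfl)
  have e2 : Nat.card lam.ker = p ^ finrank (ZMod p) (LinearMap.ker l) := by
    rw [← card_eq_pow_finrank p (LinearMap.ker l)]
    exact Nat.card_congr (Equiv.subtypeEquivRight fun x => Iff.rfl)
  have e3 : Nat.card L = p ^ finrank (ZMod p) L' := by
    rw [← card_eq_pow_finrank p L']
    exact Nat.card_congr (Equiv.subtypeEquivRight fun x => Iff.rfl)
  have e4 : Nat.card {y : Y // ∀ x ∈ L, β x (lam' y) = 0} =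
      p ^ finrank (ZMod p) ↥((annih B L').comap l') := by
    rw [← card_eq_pow_finrank p ↥((annih B L').comap l')]
    exact Nat.card_congr (Equiv.subtypeEquivRight fun y => Iff.rfl)
  rw [e1, e2, e3, e4, card_eq_pow_finrank p Y, ← pow_add, ← pow_add, ← pow_add]
  exact Nat.pow_le_pow_right hp.pos hmain

/-- **The turned count** for finite abelian groups killed by `p`, by cardinality. -/
theorem card_selmer_mul_le (hX : ∀ x : X, p • x = 0) (hY : ∀ x : Y, p • x = 0)
    (hP : ∀ x : P, p • x = 0) (hP' : ∀ x : P', p • x = 0)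
    (lam : X →+ P) (lam' : Y →+ P') (β : P →+ P' →+ ZMod p)
    (L : AddSubgroup P) (hrec : ∀ x y, β (lam x) (lam' y) = 0)
    (hnd : ∀ y, (∀ x, β x y = 0) → y = 0) (hcard : Nat.card P ≤ Nat.card P') :
    Nat.card {x : X // lam x ∈ L} * Nat.card Y ≤
      Nat.card lam.ker * Nat.card L * Nat.card {y : Y // ∀ x ∈ L, β x (lam' y) = 0} :=
  @card_selmer_mul_le_aux p _ X Y P P' _ _ _ _ _ _ _ _ (AddCommGroup.zmodModule hX)
    (AddCommGroup.zmodModule hY) (AddCommGroup.zmodModule hP) (AddCommGroup.zmodModule hP')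
    lam lam' β L hrec hnd hcard

/-- Auxiliary form of `card_le_of_left_nondegenerate`. -/
theorem card_le_of_left_nondegenerate_aux [Module (ZMod p) P] [Module (ZMod p) P']
    (β : P →+ P' →+ ZMod p) (hndL : ∀ x, (∀ y, β x y = 0) → x = 0) :
    Nat.card P ≤ Nat.card P' := by
  have hp : p.Prime := Fact.out
  let r : P →ₗ[ZMod p] Module.Dual (ZMod p) P' :=
    { toFun := fun x => (β x).toZModLinearMap p
      map_add' := fun x x' => by
        ext y
        rw [LinearMap.add_apply, AddMonoidHom.coe_toZModLinearMap,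
          AddMonoidHom.coe_toZModLinearMap, AddMonoidHom.coe_toZModLinearMap, map_add,
          AddMonoidHom.add_apply]
      map_smul' := fun c x => by
        ext y
        rw [RingHom.id_apply, LinearMap.smul_apply, AddMonoidHom.coe_toZModLinearMap,
          AddMonoidHom.coe_toZModLinearMap]
        exact ZMod.map_smul (β.flip y) c x }
  have hr : Function.Injective r := by
    rw [← LinearMap.ker_eq_bot, LinearMap.ker_eq_bot']
    intro x hx
    exact hndL x fun y => by simpa [r] using congrArg (fun f => f y) hx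
  have h1 := LinearMap.finrank_le_finrank_of_injective hr
  rw [Subspace.dual_finrank_eq] at h1
  rw [card_eq_pow_finrank p P, card_eq_pow_finrank p P']
  exact Nat.pow_le_pow_right hp.pos h1

/-- Left non-degeneracy gives `card P ≤ card P'`. -/
theorem card_le_of_left_nondegenerate (hP : ∀ x : P, p • x = 0) (hP' : ∀ x : P', p • x = 0)
    (β : P →+ P' →+ ZMod p) (hndL : ∀ x, (∀ y, β x y = 0) → x = 0) :
    Nat.card P ≤ Nat.card P' :=
  @card_le_of_left_nondegenerate_aux p _ P P' _ _ _ _ (AddCommGroup.zmodModule hP)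
    (AddCommGroup.zmodModule hP') β hndL

end Card

/-! ### Finite products of local terms -/

section Pi

variable (p : ℕ) [Fact p.Prime] {ι : Type*} [Fintype ι] [DecidableEq ι] {X Y : Type*}
  [AddCommGroup X] [AddCommGroup Y] [Finite X] [Finite Y]
  {P P' : ι → Type*} [∀ i, AddCommGroup (P i)] [∀ i, AddCommGroup (P' i)]

/-- the weighted sum of the local pairings -/
def sumPairing (β : ∀ i, P i →+ P' i →+ ZMod p) (u : ι → (ZMod p)ˣ) :
    (∀ i, P i) →+ (∀ i, P' i) →+ ZMod p :=
  AddMonoidHom.mk' (fun x => AddMonoidHom.mk' (fun y => ∑ i, (u i : ZMod p) * β i (x i) (y i))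
    (fun y y' => by
      simp only [Pi.add_apply, map_add, mul_add, Finset.sum_add_distrib]))
    (fun x x' => AddMonoidHom.ext fun y => by
      show ∑ i, (u i : ZMod p) * β i ((x + x') i) (y i) =
        ∑ i, (u i : ZMod p) * β i (x i) (y i) + ∑ i, (u i : ZMod p) * β i (x' i) (y i)
      simp only [Pi.add_apply, map_add, AddMonoidHom.add_apply, mul_add,
        Finset.sum_add_distrib])

omit [DecidableEq ι] in
lemma sumPairing_apply (β : ∀ i, P i →+ P' i →+ ZMod p) (u : ι → (ZMod p)ˣ) (x : ∀ i, P i)
    (y : ∀ i, P' i) : sumPairing p β u x y = ∑ i, (u i : ZMod p) * β i (x i) (y i) := rfl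

lemma sumPairing_single (β : ∀ i, P i →+ P' i →+ ZMod p) (u : ι → (ZMod p)ˣ) (i : ι) (a : P i)
    (y : ∀ i, P' i) : sumPairing p β u (Pi.single i a) y = (u i : ZMod p) * β i a (y i) := by
  rw [sumPairing_apply, Finset.sum_eq_single i]
  · rw [Pi.single_eq_same]
  · intro j _ hj
    rw [Pi.single_eq_of_ne hj, map_zero, AddMonoidHom.zero_apply, mul_zero]
  · intro h
    exact absurd (Finset.mem_univ i) h

variable [∀ i, Finite (P i)] [∀ i, Finite (P' i)]

/-- **The turned count for a finite family of local terms.** -/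
theorem card_selmer_mul_le_pi (hX : ∀ x : X, p • x = 0) (hY : ∀ x : Y, p • x = 0)
    (hP : ∀ i, ∀ x : P i, p • x = 0) (hP' : ∀ i, ∀ x : P' i, p • x = 0)
    (lam : ∀ i, X →+ P i) (lam' : ∀ i, Y →+ P' i) (β : ∀ i, P i →+ P' i →+ ZMod p)
    (u : ι → (ZMod p)ˣ) (L : ∀ i, AddSubgroup (P i))
    (hrec : ∀ x y, ∑ i, (u i : ZMod p) * β i (lam i x) (lam' i y) = 0)
    (hndR : ∀ i, ∀ y : P' i, (∀ x, β i x y = 0) → y = 0)
    (hcard : ∀ i, Nat.card (P i) ≤ Nat.card (P' i)) :
    Nat.card {x : X // ∀ i, lam i x ∈ L i} * Nat.card Y ≤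
      Nat.card {x : X // ∀ i, lam i x = 0} * (∏ i, Nat.card (L i)) *
        Nat.card {y : Y // ∀ i, ∀ a ∈ L i, β i a (lam' i y) = 0} := by
  classical
  have hmain := card_selmer_mul_le p hX hY
    (fun x : ∀ i, P i => funext fun i => by rw [Pi.smul_apply, hP i, Pi.zero_apply])
    (fun x : ∀ i, P' i => funext fun i => by rw [Pi.smul_apply, hP' i, Pi.zero_apply])
    (AddMonoidHom.pi lam) (AddMonoidHom.pi lam') (sumPairing p β u)
    (AddSubgroup.pi Set.univ L) (fun x y => hrec x y)
    (fun y hy => funext fun i => hndR i (y i) fun a => by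
      have h := hy (Pi.single i a)
      rw [sumPairing_single, Units.mul_right_eq_zero] at h
      exact h)
    (by
      rw [Nat.card_pi, Nat.card_pi]
      exact Finset.prod_le_prod' fun i _ => hcard i)
  have e1 : Nat.card {x : X // AddMonoidHom.pi lam x ∈ AddSubgroup.pi Set.univ L} =
      Nat.card {x : X // ∀ i, lam i x ∈ L i} :=
    Nat.card_congr (Equiv.subtypeEquivRight fun x => by
      rw [AddSubgroup.mem_pi]
      exact ⟨fun h i => h i (Set.mem_univ i), fun h i _ => h i⟩)
  have e2 : Nat.card (AddMonoidHom.pi lam).ker = Nat.card {x : X // ∀ i, lam i x = 0} :=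
    Nat.card_congr (Equiv.subtypeEquivRight fun x => by
      rw [AddMonoidHom.mem_ker]
      exact ⟨fun h i => congrFun h i, fun h => funext h⟩)
  have e3 : Nat.card (AddSubgroup.pi Set.univ L) = ∏ i, Nat.card (L i) := by
    rw [← Nat.card_pi]
    refine Nat.card_congr
      { toFun := fun x i => ⟨x.1 i, (AddSubgroup.mem_pi Set.univ).1 x.2 i (Set.mem_univ i)⟩
        invFun := fun y => ⟨fun i => (y i).1,
          (AddSubgroup.mem_pi Set.univ).2 fun i _ => (y i).2⟩
        left_inv := fun x => rfl
        right_inv := fun y => rfl }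
  have e4 : Nat.card {y : Y // ∀ x ∈ AddSubgroup.pi Set.univ L,
        sumPairing p β u x (AddMonoidHom.pi lam' y) = 0} =
      Nat.card {y : Y // ∀ i, ∀ a ∈ L i, β i a (lam' i y) = 0} :=
    Nat.card_congr (Equiv.subtypeEquivRight fun y => by
      constructor
      · intro h i a ha
        have hmem : Pi.single i a ∈ AddSubgroup.pi Set.univ L := by
          rw [AddSubgroup.mem_pi]
          intro j _
          by_cases hj : j = i
          · subst hj
            rw [Pi.single_eq_same]
            exact ha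
          · rw [Pi.single_eq_of_ne hj]
            exact (L j).zero_mem
        have h1 := h _ hmem
        rw [sumPairing_single, Units.mul_right_eq_zero] at h1
        exact h1
      · intro h x hx
        rw [sumPairing_apply]
        refine Finset.sum_eq_zero fun i _ => ?_
        have hxi : x i ∈ L i := (AddSubgroup.mem_pi Set.univ).1 hx i (Set.mem_univ i)
        have h2 : β i (x i) (AddMonoidHom.pi lam' y i) = 0 := h i (x i) hxi
        rw [h2, mul_zero])
  rw [e1, e2, e3, e4] at hmain
  exact hmain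

end Pi

end Fermat.Agent.S56.Base.CountSpine
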