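/-
PROJECT T (S56), block (a1-II) `S56/Base` (chief helper8): THE TURNED COUNT, at the level of the
cocycle model `S56/Coh`.

From a local pairing `LP : LocPairing p M M'` (reciprocity over `Smin`, right and left
non-degeneracy at the primes of `Smin`) the abstract spine `S56/Base/CountSpine` gives

  `card Sel(Smin, L) * card Sel(Smin, full') ≤
      card Sel(Smin, strict) * (∏ q ∈ Smin, c q) * card Sel(Smin, L^⊥)`              (`card_turned`)

for every family `B1 ≤ L_q` and every bound `card (L_q / B1) ≤ c q` (`q ∈ Smin`), where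

* `full'`  = no condition at `Smin` on `M'` (the group `H¹(G_S, M')`),
* `strict` = locally trivial at `Smin` on `M` (the group `Ш¹_S(M)`).

With the Euler characteristic / Poitou–Tate input of `S56/Base/EC`, in the shape

  `card Sel(Smin, strict) * ∏ q ∈ Smin, c q ≤ card Sel(Smin, full')`                       (`hEC`)

this is the base inequality `card Sel(Smin, L) ≤ card Sel(Smin, L^⊥)` (`card_sel_le_perp`), the
hypothesis `hbase` of `S56/Count/Concrete.exists_count`.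
-/
import Fermat.Agent.S56.Base.CountSpine
import Fermat.Agent.S56.Coh.LocPairing
import Fermat.Agent.S56.Count.Main

set_option autoImplicit false

namespace Fermat.Agent.S56.Base.Count

open CategoryTheory groupCohomology
open Fermat.Agent.CFT.LC Fermat.Agent.CFT.Bridge Fermat.Agent.S56.Coh
open Fermat.Agent.S56.Count.Main Fermat.Agent.S56.Base.CountSpine

variable {k : Type} [Field k] {p : ℕ} {M M' : Rep.{0} k GQ}

/-! ### Families -/

/-- no condition -/
noncomputable def fullFam (A : Rep.{0} k GQ) : LocFam A := fun q _ => Z1 (Dq q) A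

/-- locally trivial -/
noncomputable def strictFam (A : Rep.{0} k GQ) : LocFam A := fun q _ => B1 (Dq q) A

/-- `p • x = 0` in a module over a field of characteristic `p`. -/
lemma nsmul_eq_zero (k : Type) [Field k] (p : ℕ) [CharP k p] {V : Type*} [AddCommGroup V]
    [Module k V] (x : V) : p • x = 0 := by
  rw [← Nat.cast_smul_eq_nsmul k p x, CharP.cast_eq_zero, zero_smul]

/-! ### The pairing on local classes -/

section PairH

variable (LP : LocPairing p M M') (q : ℕ) [Fact q.Prime]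

/-- the pairing with the left variable passed to classes -/
noncomputable def pairL : H1loc q M →+ ↥(Z1 (Dq q) M') →+ ZMod p :=
  QuotientAddGroup.lift ((B1 (Dq q) M).comap (Z1 (Dq q) M).subtype).toAddSubgroup (LP.pair q)
    (by
      intro x hx
      rw [AddMonoidHom.mem_ker]
      ext y
      exact LP.left_B1 q x y hx)

lemma pairL_mk (x : ↥(Z1 (Dq q) M)) (y : ↥(Z1 (Dq q) M')) :
    pairL LP q (Submodule.Quotient.mk x) y = LP.pair q x y := rfl

/-- **the local pairing on classes** -/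
noncomputable def pairH : H1loc q M →+ H1loc q M' →+ ZMod p :=
  (QuotientAddGroup.lift ((B1 (Dq q) M').comap (Z1 (Dq q) M').subtype).toAddSubgroup
    (pairL LP q).flip
    (by
      intro y hy
      rw [AddMonoidHom.mem_ker]
      ext x
      obtain ⟨x, rfl⟩ := Submodule.Quotient.mk_surjective _ x
      exact LP.right_B1 q x y hy)).flip

lemma pairH_mk (x : ↥(Z1 (Dq q) M)) (y : ↥(Z1 (Dq q) M')) :
    pairH LP q (Submodule.Quotient.mk x) (Submodule.Quotient.mk y) = LP.pair q x y := rfl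

lemma pairH_right_nd (y : H1loc q M') (h : ∀ x, pairH LP q x y = 0) : y = 0 := by
  obtain ⟨y, rfl⟩ := Submodule.Quotient.mk_surjective _ y
  rw [Submodule.Quotient.mk_eq_zero, Submodule.mem_comap]
  exact LP.nd q y fun x => by rw [← pairH_mk]; exact h _

lemma pairH_left_nd (x : H1loc q M) (h : ∀ y, pairH LP q x y = 0) : x = 0 := by
  obtain ⟨x, rfl⟩ := Submodule.Quotient.mk_surjective _ x
  rw [Submodule.Quotient.mk_eq_zero, Submodule.mem_comap]
  exact LP.ndL q x fun y => by rw [← pairH_mk]; exact h _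

end PairH

/-! ### Classes of a local condition -/

/-- the classes of a local condition, as an additive subgroup of the local `H¹` -/
noncomputable def clsSub (q : ℕ) [Fact q.Prime] (L : Submodule k (↥(Dq q) → resRep (Dq q) M)) :
    AddSubgroup (H1loc q M) :=
  AddSubgroup.map (Submodule.mkQ ((B1 (Dq q) M).comap (Z1 (Dq q) M).subtype)).toAddMonoidHom
    (L.comap (Z1 (Dq q) M).subtype).toAddSubgroup

lemma mem_clsSub_iff (q : ℕ) [Fact q.Prime] (L : Submodule k (↥(Dq q) → resRep (Dq q) M))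
    (a : H1loc q M) :
    a ∈ clsSub q L ↔ ∃ x : ↥(Z1 (Dq q) M), x.1 ∈ L ∧ Submodule.Quotient.mk x = a := Iff.rfl

/-- a cocycle whose class lies in `clsSub q L` lies in `L`, when `B1 ≤ L` -/
lemma mem_of_mk_mem_clsSub (q : ℕ) [Fact q.Prime]
    (L : Submodule k (↥(Dq q) → resRep (Dq q) M)) (hB : B1 (Dq q) M ≤ L) (x : ↥(Z1 (Dq q) M))
    (h : (Submodule.Quotient.mk x : H1loc q M) ∈ clsSub q L) : x.1 ∈ L := by
  obtain ⟨x', hx', hxx'⟩ := h
  have h1 : x' - x ∈ (B1 (Dq q) M).comap (Z1 (Dq q) M).subtype :=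
    (Submodule.Quotient.eq _).1 hxx'
  rw [Submodule.mem_comap] at h1
  have h2 : x.1 = x'.1 - (x' - x).1 := by
    rw [Submodule.coe_sub]; abel
  rw [h2]
  exact Submodule.sub_mem _ hx' (hB h1)

/-- the classes of a local condition are at most as many as the quotient `L / (B1 ∩ L)` in which
the local bounds (a2) (a3) (a4) are stated -/
lemma card_clsSub_le (q : ℕ) [Fact q.Prime] (L : Submodule k (↥(Dq q) → resRep (Dq q) M))
    (hL : L ≤ Z1 (Dq q) M) [Finite (↥L ⧸ (B1 (Dq q) M).comap L.subtype)] :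
    Nat.card (clsSub q L) ≤ Nat.card (↥L ⧸ (B1 (Dq q) M).comap L.subtype) := by
  let g : (↥L ⧸ (B1 (Dq q) M).comap L.subtype) →ₗ[k] H1loc q M :=
    Submodule.mapQ _ _ (Submodule.inclusion hL) (by
      intro x hx
      rw [Submodule.mem_comap] at hx ⊢
      exact hx)
  have hg : ∀ a : clsSub q L, ∃ z, g z = a.1 := by
    rintro ⟨a, x, hx, rfl⟩
    exact ⟨Submodule.Quotient.mk ⟨x.1, hx⟩, rfl⟩
  choose φ hφ using hg
  refine Nat.card_le_card_of_injective φ fun a b hab => ?_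
  apply Subtype.ext
  rw [← hφ a, ← hφ b, hab]

/-- cardinality of a subtype of a submodule cut out by membership in a smaller submodule -/
lemma card_subtype_eq {V : Type*} [AddCommGroup V] [Module k V] (A B : Submodule k V)
    (P : ↥A → Prop) (hBA : B ≤ A) (h : ∀ (c : V) (hc : c ∈ A), P ⟨c, hc⟩ ↔ c ∈ B) :
    Nat.card {x : ↥A // P x} = Nat.card ↥B :=
  Nat.card_congr
    { toFun := fun x => ⟨x.1.1, (h _ x.1.2).1 x.2⟩
      invFun := fun y => ⟨⟨y.1, hBA y.2⟩, (h _ _).2 y.2⟩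
      left_inv := fun _ => rfl
      right_inv := fun _ => rfl }

/-- membership in a Selmer space defined by a local family, when `Sg` consists of primes -/
lemma mem_SelZ_ofLocal_iff {A : Rep.{0} k GQ} {Sg : Finset ℕ} (hSg : ∀ q ∈ Sg, q.Prime)
    (L : LocFam A) (c : GQ → A) :
    c ∈ SelZ Sg (LocCond.ofLocal L) ↔ c ∈ Z1g A ∧
      (∀ (q : ℕ) [Fact q.Prime], q ∉ Sg → IsUnramAt q c) ∧
      ∀ (q : ℕ) [Fact q.Prime], q ∈ Sg → resFun (Dq q) c ∈ L q := by
  rw [mem_SelZ_iff]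
  refine and_congr_right fun _ => and_congr_right fun _ => ?_
  constructor
  · intro h q _ hq
    exact (mem_ofLocal_iff L q c).1 (h q hq)
  · intro h q hq
    haveI : Fact q.Prime := ⟨hSg q hq⟩
    exact (mem_ofLocal_iff L q c).2 (h q hq)

/-! ### The turned count -/

section Turned

variable [Fact p.Prime] [CharP k p] [Finite M] [Finite M']

/-- **The turned count at the level of Selmer classes.** -/
theorem card_turned (LP : LocPairing p M M') (Smin : Finset ℕ) (hSmin : ∀ q ∈ Smin, q.Prime)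
    (hpS : p ∈ Smin)
    (hunr : ∀ (q : ℕ) [Fact q.Prime], q ∉ Smin →
      ∀ s ∈ Iq q, (∀ m : M, M.ρ s m = m) ∧ ∀ m : M', M'.ρ s m = m)
    (Lq : LocFam M) (hB : ∀ (q : ℕ) [Fact q.Prime], q ∈ Smin → B1 (Dq q) M ≤ Lq q)
    (hfin : Finite (Sel Smin (LocCond.ofLocal (fullFam M))))
    (hfin' : Finite (Sel Smin (LocCond.ofLocal (fullFam M'))))
    (hloc : ∀ (q : ℕ) [Fact q.Prime], q ∈ Smin → Finite (H1loc q M))
    (hloc' : ∀ (q : ℕ) [Fact q.Prime], q ∈ Smin → Finite (H1loc q M'))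
    (c : ℕ → ℕ)
    (hc : ∀ (q : ℕ) [Fact q.Prime], q ∈ Smin → Nat.card (clsSub q (Lq q)) ≤ c q) :
    Nat.card (Sel Smin (LocCond.ofLocal Lq)) *
        Nat.card (Sel Smin (LocCond.ofLocal (fullFam M'))) ≤
      Nat.card (Sel Smin (LocCond.ofLocal (strictFam M))) * (∏ q ∈ Smin, c q) *
        Nat.card (Sel Smin (LocCond.ofLocal (LP.perp Lq))) := by
  classical
  haveI hF : ∀ i : ↥Smin, Fact ((i : ℕ).Prime) := fun i => ⟨hSmin i i.2⟩
  haveI : ∀ i : ↥Smin, Finite (H1loc (i : ℕ) M) := fun i => hloc i i.2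
  haveI : ∀ i : ↥Smin, Finite (H1loc (i : ℕ) M') := fun i => hloc' i i.2
  haveI hX : Finite ↥(SelZ Smin (LocCond.ofLocal (fullFam M))) := finite_of_finite_quot _
  haveI hY : Finite ↥(SelZ Smin (LocCond.ofLocal (fullFam M'))) := finite_of_finite_quot _
  -- the localisation maps
  let lam : ∀ i : ↥Smin, ↥(SelZ Smin (LocCond.ofLocal (fullFam M))) →+ H1loc (i : ℕ) M :=
    fun i => ((Submodule.mkQ _).comp (locZ (i : ℕ) Smin _)).toAddMonoidHom
  let lam' : ∀ i : ↥Smin, ↥(SelZ Smin (LocCond.ofLocal (fullFam M'))) →+ H1loc (i : ℕ) M' :=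
    fun i => ((Submodule.mkQ _).comp (locZ (i : ℕ) Smin _)).toAddMonoidHom
  have hlam : ∀ (i : ↥Smin) x, lam i x = Submodule.Quotient.mk (locZ (i : ℕ) Smin _ x) :=
    fun _ _ => rfl
  have hlam' : ∀ (i : ↥Smin) y, lam' i y = Submodule.Quotient.mk (locZ (i : ℕ) Smin _ y) :=
    fun _ _ => rfl
  -- reciprocity
  obtain ⟨u, hu⟩ := LP.recip Smin hSmin hpS hunr
  have hrec : ∀ (x : ↥(SelZ Smin (LocCond.ofLocal (fullFam M))))
      (y : ↥(SelZ Smin (LocCond.ofLocal (fullFam M')))),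
      ∑ i : ↥Smin, (u i : ZMod p) * pairH LP (i : ℕ) (lam i x) (lam' i y) = 0 := by
    intro x y
    have h := hu ⟨x.1, x.2.1⟩ ⟨y.1, y.2.1⟩ (fun q _ hq => ⟨x.2.2.1 q hq, y.2.2.1 q hq⟩)
    rw [← Finset.sum_coe_sort] at h
    rw [← h]
    refine Finset.sum_congr rfl fun i _ => ?_
    rw [dif_pos (hSmin i i.2)]
    rfl
  have hmain := card_selmer_mul_le_pi p
    (fun x : ↥(SelZ Smin (LocCond.ofLocal (fullFam M))) => nsmul_eq_zero k p x)
    (fun y : ↥(SelZ Smin (LocCond.ofLocal (fullFam M'))) => nsmul_eq_zero k p y)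
    (fun (i : ↥Smin) (x : H1loc (i : ℕ) M) => nsmul_eq_zero k p x)
    (fun (i : ↥Smin) (x : H1loc (i : ℕ) M') => nsmul_eq_zero k p x)
    lam lam' (fun i => pairH LP (i : ℕ)) (fun i => u i) (fun i => clsSub (i : ℕ) (Lq (i : ℕ)))
    hrec (fun i y hy => pairH_right_nd LP (i : ℕ) y hy)
    (fun i => card_le_of_left_nondegenerate p
      (fun x : H1loc (i : ℕ) M => nsmul_eq_zero k p x)
      (fun x : H1loc (i : ℕ) M' => nsmul_eq_zero k p x) (pairH LP (i : ℕ))
      (fun x hx => pairH_left_nd LP (i : ℕ) x hx))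
  -- the three subtypes are Selmer cocycle spaces
  have e1 : Nat.card {x : ↥(SelZ Smin (LocCond.ofLocal (fullFam M))) //
      ∀ i : ↥Smin, lam i x ∈ clsSub (i : ℕ) (Lq (i : ℕ))} =
      Nat.card ↥(SelZ Smin (LocCond.ofLocal Lq)) := by
    refine card_subtype_eq _ _ _ ?_ ?_
    · intro c hc
      rw [mem_SelZ_ofLocal_iff hSmin] at hc ⊢
      exact ⟨hc.1, hc.2.1, fun q _ _ => resFun_mem_Z1 _ hc.1⟩
    · intro c hc
      rw [mem_SelZ_ofLocal_iff hSmin]
      have hc' := (mem_SelZ_ofLocal_iff hSmin _ c).1 hc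
      constructor
      · intro h
        refine ⟨hc'.1, hc'.2.1, fun q _ hq => ?_⟩
        exact mem_of_mk_mem_clsSub q (Lq q) (hB q hq) (locZ q Smin _ ⟨c, hc⟩) (h ⟨q, hq⟩)
      · intro h i
        exact ⟨locZ (i : ℕ) Smin _ ⟨c, hc⟩, h.2.2 i i.2, rfl⟩
  have e2 : Nat.card {x : ↥(SelZ Smin (LocCond.ofLocal (fullFam M))) //
      ∀ i : ↥Smin, lam i x = 0} = Nat.card ↥(SelZ Smin (LocCond.ofLocal (strictFam M))) := by
    refine card_subtype_eq _ _ _ ?_ ?_
    · intro c hc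
      rw [mem_SelZ_ofLocal_iff hSmin] at hc ⊢
      exact ⟨hc.1, hc.2.1, fun q _ _ => resFun_mem_Z1 _ hc.1⟩
    · intro c hc
      rw [mem_SelZ_ofLocal_iff hSmin]
      have hc' := (mem_SelZ_ofLocal_iff hSmin _ c).1 hc
      constructor
      · intro h
        refine ⟨hc'.1, hc'.2.1, fun q _ hq => ?_⟩
        have h0 := h ⟨q, hq⟩
        rw [hlam, Submodule.Quotient.mk_eq_zero, Submodule.mem_comap] at h0
        exact h0
      · intro h i
        rw [hlam, Submodule.Quotient.mk_eq_zero, Submodule.mem_comap]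
        exact h.2.2 i i.2
  have e3 : Nat.card {y : ↥(SelZ Smin (LocCond.ofLocal (fullFam M'))) //
      ∀ i : ↥Smin, ∀ a ∈ clsSub (i : ℕ) (Lq (i : ℕ)), pairH LP (i : ℕ) a (lam' i y) = 0} =
      Nat.card ↥(SelZ Smin (LocCond.ofLocal (LP.perp Lq))) := by
    refine card_subtype_eq _ _ _ ?_ ?_
    · intro c hc
      rw [mem_SelZ_ofLocal_iff hSmin] at hc ⊢
      exact ⟨hc.1, hc.2.1, fun q _ _ => resFun_mem_Z1 _ hc.1⟩
    · intro c hc
      rw [mem_SelZ_ofLocal_iff hSmin]
      have hc' := (mem_SelZ_ofLocal_iff hSmin _ c).1 hc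
      constructor
      · intro h
        refine ⟨hc'.1, hc'.2.1, fun q _ hq => ?_⟩
        rw [LocPairing.mem_perp_iff]
        refine ⟨resFun_mem_Z1 _ hc'.1, fun x hx => ?_⟩
        exact h ⟨q, hq⟩ (Submodule.Quotient.mk x) ⟨x, hx, rfl⟩
      · intro h i a ha
        obtain ⟨x, hx, rfl⟩ := ha
        obtain ⟨hy, hy'⟩ := (LocPairing.mem_perp_iff LP Lq (i : ℕ) _).1 (h.2.2 i i.2)
        exact hy' x hx
  rw [e1, e2, e3] at hmain
  -- cocycles versus classes
  have hb1 : B1g M ≤ SelZ Smin (LocCond.ofLocal Lq) := B1g_le_SelZ Smin Lq hB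
  have hb2 : B1g M' ≤ SelZ Smin (LocCond.ofLocal (fullFam M')) :=
    B1g_le_SelZ Smin (fullFam M') fun q _ _ => B1_le_Z1 _
  have hb3 : B1g M ≤ SelZ Smin (LocCond.ofLocal (strictFam M)) :=
    B1g_le_SelZ Smin (strictFam M) fun q _ _ => le_rfl
  have hb4 : B1g M' ≤ SelZ Smin (LocCond.ofLocal (LP.perp Lq)) :=
    B1g_le_SelZ Smin (LP.perp Lq) fun q _ _ => LP.B1_le_perp Lq q
  rw [card_eq_of_B1g_le _ hb1, card_eq_of_B1g_le _ hb2, card_eq_of_B1g_le _ hb3,
    card_eq_of_B1g_le _ hb4] at hmain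
  haveI := finite_B1g (A := M)
  haveI := finite_B1g (A := M')
  have hbpos : 0 < Nat.card ↥(B1g M) := Nat.card_pos
  have hbpos' : 0 < Nat.card ↥(B1g M') := Nat.card_pos
  have hprod : ∏ i : ↥Smin, Nat.card (clsSub (i : ℕ) (Lq (i : ℕ))) ≤ ∏ q ∈ Smin, c q := by
    rw [← Finset.prod_coe_sort Smin c]
    exact Finset.prod_le_prod' fun i _ => hc i i.2
  have h2 : (Nat.card ↥(B1g M) * Nat.card ↥(B1g M')) *
      (Nat.card (Sel Smin (LocCond.ofLocal Lq)) *
        Nat.card (Sel Smin (LocCond.ofLocal (fullFam M')))) ≤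
      (Nat.card ↥(B1g M) * Nat.card ↥(B1g M')) *
      (Nat.card (Sel Smin (LocCond.ofLocal (strictFam M))) * (∏ q ∈ Smin, c q) *
        Nat.card (Sel Smin (LocCond.ofLocal (LP.perp Lq)))) := by
    calc _ = Nat.card ↥(B1g M) * Nat.card (Sel Smin (LocCond.ofLocal Lq)) *
          (Nat.card ↥(B1g M') * Nat.card (Sel Smin (LocCond.ofLocal (fullFam M')))) := by ring
      _ ≤ Nat.card ↥(B1g M) * Nat.card (Sel Smin (LocCond.ofLocal (strictFam M))) *
          (∏ i : ↥Smin, Nat.card (clsSub (i : ℕ) (Lq (i : ℕ)))) *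
          (Nat.card ↥(B1g M') * Nat.card (Sel Smin (LocCond.ofLocal (LP.perp Lq)))) := hmain
      _ ≤ Nat.card ↥(B1g M) * Nat.card (Sel Smin (LocCond.ofLocal (strictFam M))) *
          (∏ q ∈ Smin, c q) *
          (Nat.card ↥(B1g M') * Nat.card (Sel Smin (LocCond.ofLocal (LP.perp Lq)))) :=
        Nat.mul_le_mul_right _ (Nat.mul_le_mul_left _ hprod)
      _ = _ := by ring
  exact Nat.le_of_mul_le_mul_left h2 (Nat.mul_pos hbpos hbpos')

/-- **The base inequality** `card Sel(Smin, L) ≤ card Sel(Smin, L^⊥)`, from the turned count and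
the Euler characteristic input `hEC`. -/
theorem card_sel_le_perp (LP : LocPairing p M M') (Smin : Finset ℕ)
    (hSmin : ∀ q ∈ Smin, q.Prime) (hpS : p ∈ Smin)
    (hunr : ∀ (q : ℕ) [Fact q.Prime], q ∉ Smin →
      ∀ s ∈ Iq q, (∀ m : M, M.ρ s m = m) ∧ ∀ m : M', M'.ρ s m = m)
    (Lq : LocFam M) (hB : ∀ (q : ℕ) [Fact q.Prime], q ∈ Smin → B1 (Dq q) M ≤ Lq q)
    (hfin : Finite (Sel Smin (LocCond.ofLocal (fullFam M))))
    (hfin' : Finite (Sel Smin (LocCond.ofLocal (fullFam M'))))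
    (hloc : ∀ (q : ℕ) [Fact q.Prime], q ∈ Smin → Finite (H1loc q M))
    (hloc' : ∀ (q : ℕ) [Fact q.Prime], q ∈ Smin → Finite (H1loc q M'))
    (c : ℕ → ℕ)
    (hc : ∀ (q : ℕ) [Fact q.Prime], q ∈ Smin → Nat.card (clsSub q (Lq q)) ≤ c q)
    (hEC : Nat.card (Sel Smin (LocCond.ofLocal (strictFam M))) * (∏ q ∈ Smin, c q) ≤
      Nat.card (Sel Smin (LocCond.ofLocal (fullFam M')))) :
    Nat.card (Sel Smin (LocCond.ofLocal Lq)) ≤
      Nat.card (Sel Smin (LocCond.ofLocal (LP.perp Lq))) := by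
  have h := card_turned LP Smin hSmin hpS hunr Lq hB hfin hfin' hloc hloc' c hc
  have hpos : 0 < Nat.card (Sel Smin (LocCond.ofLocal (fullFam M'))) := Nat.card_pos
  have h2 : Nat.card (Sel Smin (LocCond.ofLocal (fullFam M'))) *
      Nat.card (Sel Smin (LocCond.ofLocal Lq)) ≤
      Nat.card (Sel Smin (LocCond.ofLocal (fullFam M'))) *
        Nat.card (Sel Smin (LocCond.ofLocal (LP.perp Lq))) := by
    calc _ = Nat.card (Sel Smin (LocCond.ofLocal Lq)) *
          Nat.card (Sel Smin (LocCond.ofLocal (fullFam M'))) := Nat.mul_comm _ _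
      _ ≤ _ := h
      _ ≤ _ := Nat.mul_le_mul_right _ hEC
  exact Nat.le_of_mul_le_mul_left h2 hpos

end Turned

end Fermat.Agent.S56.Base.Count
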