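/-
PROJECT T (S56), block (a1-II) `S56/Base` (chief helper8): THE EXPORT `BaseExport` OF THE BASE BLOCK.

`Count/Halves.BaseExport p Smin rbar Pp` (a local pairing `LP` together with the base inequality
`card Sel(Smin, L) ≤ card Sel(Smin, L^⊥)` for `L = LcFam rbar p Smin Pp`) from

* the turned count `Base/Count.card_sel_le_perp`,
* the local bounds: (a4) `Unip/Main.card_LcOf_unip_le_of_isEquiv` at `q ∈ Smin`, `q ≠ p`, and the
  bound `card (L_p / B1) ≤ card k * card H⁰(D_p, ad⁰)` at `p` as a hypothesis `hlocp` (it is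
  (a2) `Ord/Main.card_LcOf_so_le` for `Pso p` and the export of (a3) `Flat` for `Pfl p`),
* the Euler characteristic input in the cocycle model (`hEC`), which `ecInput_of_dict` derives from
  `Base/ECMain.card_H1_Tw_ge` and the dictionary `S56/Base/Dict` (three cardinalities).
-/
import Fermat.Agent.S56.Base.Count
import Fermat.Agent.S56.Unip.Main
import Fermat.Agent.S56.TW.OfResidual
import Fermat.Agent.S56.Tan.Cocycle

set_option autoImplicit false

namespace Fermat.Agent.S56.Base.Main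

open Fermat.Agent.CFT.LC Fermat.Agent.CFT.Bridge
open Fermat.Agent.S56.Coh Fermat.Agent.S56.Coh.CocDefs
open Fermat.Agent.S56.Count.Main Fermat.Agent.S56.Base.Count

variable {k : Type} [Field k]

/-- `card H⁰(D_q, M)` as a function of the natural number `q` (`1` if `q` is not prime) -/
noncomputable def fixCard (M : Rep.{0} k GQ) (q : ℕ) : ℕ := by
  classical
  exact if h : q.Prime then
    haveI : Fact q.Prime := ⟨h⟩
    Nat.card (Fix q M)
  else 1

lemma fixCard_of_prime (M : Rep.{0} k GQ) (q : ℕ) [hq : Fact q.Prime] :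
    fixCard M q = Nat.card (Fix q M) := by
  unfold fixCard
  simp only [dif_pos hq.out]

/-- the local bound at `q`: `card k * card H⁰` at `p`, `card H⁰` elsewhere -/
noncomputable def locBound (p : ℕ) (M : Rep.{0} k GQ) (q : ℕ) : ℕ := by
  classical
  exact (if q = p then Nat.card k else 1) * fixCard M q

lemma prod_locBound (p : ℕ) (M : Rep.{0} k GQ) (Smin : Finset ℕ) (hpS : p ∈ Smin) :
    ∏ q ∈ Smin, locBound p M q = Nat.card k * ∏ q ∈ Smin, fixCard M q := by
  classical
  unfold locBound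
  rw [Finset.prod_mul_distrib, Finset.prod_ite_eq' Smin p, if_pos hpS]

/-- `L / (B1 ∩ L)` for a generic module (the same abbreviation as `Ord.Main.LocQuot` and
`Unip.Main.LocQuot`; all three unfold to the same term) -/
abbrev LocQ (q : ℕ) [Fact q.Prime] (A : Rep.{0} k GQ)
    (Lc : Submodule k (↥(Dq q) → resRep (Dq q) A)) : Type :=
  ↥Lc ⧸ (B1 (Dq q) A).comap Lc.subtype

section Export

variable [Finite k] (p : ℕ) [Fact p.Prime] [CharP k p]

/-- **The base inequality for `L = LcFam rbar p Smin Pp`**, from the Euler characteristic input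
`hEC` in the cocycle model and the local bound at `p`. -/
theorem card_sel_LcFam_le (hp2 : p ≠ 2) (ρbar : ResidualGaloisRep k)
    (b : Module.Basis (Fin 2) k ρbar.V) (rbar : GQ →* GL (Fin 2) k)
    (hb : ∀ g, (rbar g : Matrix (Fin 2) (Fin 2) k) = LinearMap.toMatrix b b (ρbar.ρ g))
    (hrbar : GaloisFactorsThroughFiniteLevel (Fermat.Agent.S56.Tan.Cocycle.rbarM rbar))
    (e0 : ρbar.IsEquiv (Fermat.Agent.S53.Dictionary.resOfMat
      (Fermat.Agent.S56.Tan.Cocycle.rbarM rbar) hrbar))
    (Smin : Finset ℕ) (hSmin : ∀ q ∈ Smin, q.Prime) (hpS : p ∈ Smin)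
    (hmin : ∀ q : ℕ, q.Prime → q ≠ p → (q ∈ Smin ↔ ¬ ρbar.IsUnramifiedAt q))
    (Pp : GaloisRepAdic (DualNumber k) → Prop)
    (LP : LocPairing p (Mrep rbar) (MrepTw rbar))
    (hlocp : Finite (LocQ p (Mrep rbar) (LcOf rbar Pp p)) ∧
      Nat.card (LocQ p (Mrep rbar) (LcOf rbar Pp p)) ≤
        Nat.card k * Nat.card (Fix p (Mrep rbar)))
    (hfin : Finite (Sel Smin (LocCond.ofLocal (fullFam (Mrep rbar)))))
    (hfin' : Finite (Sel Smin (LocCond.ofLocal (fullFam (MrepTw rbar)))))
    (hloc : ∀ (q : ℕ) [Fact q.Prime], q ∈ Smin → Finite (H1loc q (Mrep rbar)))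
    (hloc' : ∀ (q : ℕ) [Fact q.Prime], q ∈ Smin → Finite (H1loc q (MrepTw rbar)))
    (hEC : Nat.card (Sel Smin (LocCond.ofLocal (strictFam (Mrep rbar)))) *
        (Nat.card k * ∏ q ∈ Smin, fixCard (Mrep rbar) q) ≤
      Nat.card (Sel Smin (LocCond.ofLocal (fullFam (MrepTw rbar))))) :
    Nat.card (Sel Smin (LocCond.ofLocal (LcFam rbar p Smin Pp))) ≤
      Nat.card (Sel Smin (LocCond.ofLocal (LP.perp (LcFam rbar p Smin Pp)))) := by
  classical
  have h2 : (2 : k) ≠ 0 := by
    intro h
    have h1 : ((2 : ℕ) : k) = 0 := by exact_mod_cast h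
    rw [CharP.cast_eq_zero_iff k p] at h1
    exact hp2 ((Nat.prime_dvd_prime_iff_eq (Fact.out : p.Prime) Nat.prime_two).1 h1)
  haveI : Finite (Mrep rbar) := inferInstanceAs (Finite ↥(sl2 k))
  haveI : Finite (MrepTw rbar) := inferInstanceAs (Finite ↥(sl2 k))
  have hunr := Fermat.Agent.S56.TW.OfResidual.rbar_unr_of_hmin ρbar b rbar hb hpS hmin
  refine card_sel_le_perp LP Smin hSmin hpS
    (fun q _ hq s hs => Fermat.Agent.S56.TW.TWPrime.unr_of_rbar_eq_one rbar (hunr q hq s hs))
    (LcFam rbar p Smin Pp) (fun q _ _ => B1_le_LcFam p Smin Pp q) hfin hfin' hloc hloc'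
    (locBound p (Mrep rbar)) ?_ ?_
  · -- the local bounds
    intro q _ hq
    by_cases hqp : q = p
    · subst hqp
      rw [LcFam_self]
      haveI := hlocp.1
      refine (card_clsSub_le q (LcOf rbar Pp q) (LcOf_le_Z1 Pp q)).trans ?_
      unfold locBound
      rw [if_pos rfl, fixCard_of_prime]
      exact hlocp.2
    · rw [LcFam_of_mem p Smin Pp q hqp hq]
      have hram : ¬ ρbar.IsUnramifiedAt q := (hmin q (hSmin q hq) hqp).1 hq
      obtain ⟨hf, hle⟩ := Fermat.Agent.S56.Unip.Main.card_LcOf_unip_le_of_isEquiv (rbar := rbar)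
        h2 (Fact.out : p.Prime) q (fun h => hqp h.symm) ρbar hrbar e0 hram
      haveI := hf
      refine (card_clsSub_le q (LcOf rbar (Punip p q) q) (LcOf_le_Z1 _ q)).trans ?_
      unfold locBound
      rw [if_neg hqp, one_mul, fixCard_of_prime]
      exact hle
  · rw [prod_locBound p (Mrep rbar) Smin hpS]
    exact hEC

end Export

end Fermat.Agent.S56.Base.Main
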