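/-
PROJECT T (S56), block (a1-II) = S56/Base (helper23): THE SEAM OF THE EULER CHARACTERISTIC PART.

Definitions only (plus trivial lemmas): the dimensions `h S i N` of the level-constant cohomology
of `G_{ℚ,S}` with coefficients in an `𝔽_p`-representation `N`, the truncated Euler characteristic
`chi S N = h⁰ - h¹ + h²`, the archimedean term `chiInf N = dim N^{c} - dim N` (with the prelude's
`complexConjugation`) and the defect `defect S N = chi S N - chiInf N`.

The statement consumed by `S56/Base/Count` is `defect S (ad⁰ρ̄(1)) ≤ 0`; it is proved in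
`S56/Base/EC/Reduce` from `S56/Base/TI` (Sylow subgroups of subgroups of `GL₂(k)` are TI),
`S56/Base/EC/Shapiro` and the equivariant Kummer count of `S56/Base/EC/*`.
-/
import Fermat.Agent.CFT.D.Main
import Fermat.Prelude.Def_GaloisRep_ComplexConjugation

set_option autoImplicit false

noncomputable section

namespace Fermat.Agent.S56.Base.EC

open Fermat.Agent.CFT.LC Fermat.Agent.CFT.Bridge

variable {p : ℕ} [Fact p.Prime] (S : Finset Nat.Primes)

/-- `hⁱ_S(N) = dim_{𝔽_p} Hⁱ(G_{ℚ,S}, N)` (level-constant cohomology along `levelsS S`). -/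
def h (i : ℕ) (N : Rep.{0} (ZMod p) GQ) : ℤ :=
  (Module.finrank (ZMod p) (H (levelsS S) N i) : ℤ)

/-- The truncated Euler characteristic `h⁰ - h¹ + h²`. -/
def chi (N : Rep.{0} (ZMod p) GQ) : ℤ := h S 0 N - h S 1 N + h S 2 N

/-- The fixed space of complex conjugation. -/
def fixConj (N : Rep.{0} (ZMod p) GQ) : Submodule (ZMod p) N.V :=
  LinearMap.ker (N.ρ complexConjugation - 1)

/-- The archimedean term `dim N^{c} - dim N`. -/
def chiInf (N : Rep.{0} (ZMod p) GQ) : ℤ :=
  (Module.finrank (ZMod p) (fixConj N) : ℤ) - (Module.finrank (ZMod p) N.V : ℤ)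

/-- The defect `χ_S(N) - χ_∞(N)`; Tate's theorem is `defect S N = 0`, only `≤ 0` is consumed. -/
def defect (N : Rep.{0} (ZMod p) GQ) : ℤ := chi S N - chiInf N

lemma mem_fixConj {N : Rep.{0} (ZMod p) GQ} (x : N.V) :
    x ∈ fixConj N ↔ N.ρ complexConjugation x = x := by
  unfold fixConj
  rw [LinearMap.mem_ker, LinearMap.sub_apply, Module.End.one_apply, sub_eq_zero]

lemma chi_def (N : Rep.{0} (ZMod p) GQ) : chi S N = h S 0 N - h S 1 N + h S 2 N := rfl

lemma defect_def (N : Rep.{0} (ZMod p) GQ) : defect S N = chi S N - chiInf N := rfl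

end Fermat.Agent.S56.Base.EC
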