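import Mathlib

/-!
# PROJECT T (S56), block (a1-II), leaf of `TwistDict`: the trace form on trace-zero `2 × 2` matrices

Mathlib only.

* `trace_mul_symm`, `trace_conj_mul` : symmetry and `Ad`-invariance of `(X, Y) ↦ tr (X Y)`;
* `eq_zero_of_forall_trace_mul` : the trace form is non-degenerate on trace-zero matrices
  (characteristic `≠ 2`);
* `eq_zero_of_forall_algebraTrace` : for a finite separable extension `k / F`, the `F`-valued form
  `(X, Y) ↦ Tr_{k/F} (tr (X Y))` is non-degenerate on trace-zero matrices.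
-/

set_option autoImplicit false

open Matrix

namespace Fermat.Agent.S56.Base.TraceForm

variable {k : Type*} [Field k]

theorem trace_mul_symm (X Y : Matrix (Fin 2) (Fin 2) k) : (X * Y).trace = (Y * X).trace :=
  Matrix.trace_mul_comm X Y

/-- `tr (g X g⁻¹ · Y) = tr (X · g⁻¹ Y g)` -/
theorem trace_conj_mul (g : GL (Fin 2) k) (X Y : Matrix (Fin 2) (Fin 2) k) :
    ((g : Matrix (Fin 2) (Fin 2) k) * X * ((g⁻¹ : GL (Fin 2) k) : Matrix (Fin 2) (Fin 2) k)
        * Y).trace =
      (X * (((g⁻¹ : GL (Fin 2) k) : Matrix (Fin 2) (Fin 2) k) * Y *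
        (g : Matrix (Fin 2) (Fin 2) k))).trace := by
  rw [Matrix.mul_assoc, Matrix.mul_assoc, Matrix.trace_mul_comm, Matrix.mul_assoc,
    Matrix.mul_assoc]

/-- the trace form is non-degenerate on trace-zero `2 × 2` matrices in characteristic `≠ 2` -/
theorem eq_zero_of_forall_trace_mul (h2 : (2 : k) ≠ 0) (X : Matrix (Fin 2) (Fin 2) k)
    (hX : X.trace = 0)
    (h : ∀ Y : Matrix (Fin 2) (Fin 2) k, Y.trace = 0 → (X * Y).trace = 0) : X = 0 := by
  rw [Matrix.trace_fin_two] at hX
  have h01 := h !![0, 1; 0, 0] (by rw [Matrix.trace_fin_two]; simp)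
  have h10 := h !![0, 0; 1, 0] (by rw [Matrix.trace_fin_two]; simp)
  have hd := h !![1, 0; 0, -1] (by rw [Matrix.trace_fin_two]; simp)
  rw [Matrix.trace_fin_two] at h01 h10 hd
  simp only [Matrix.mul_apply, Fin.sum_univ_two, Matrix.of_apply, Matrix.cons_val_zero,
    Matrix.cons_val_one, Matrix.cons_val', Matrix.empty_val', Matrix.cons_val_fin_one,
    mul_zero, mul_one, add_zero, zero_add, mul_neg] at h01 h10 hd
  have h00 : X 0 0 = 0 := by
    have : (2 : k) * X 0 0 = 0 := by linear_combination hd + hX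
    exact (mul_eq_zero.1 this).resolve_left h2
  have h11 : X 1 1 = 0 := by linear_combination hX - h00
  ext i j
  fin_cases i <;> fin_cases j
  · exact h00
  · exact h10
  · exact h01
  · exact h11

/-- for a finite separable extension `k / F`, the `F`-valued form `Tr_{k/F} (tr (X Y))` is
non-degenerate on trace-zero matrices -/
theorem eq_zero_of_forall_algebraTrace {F : Type*} [Field F] [Algebra F k] [FiniteDimensional F k]
    [Algebra.IsSeparable F k] (h2 : (2 : k) ≠ 0) (X : Matrix (Fin 2) (Fin 2) k)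
    (hX : X.trace = 0)
    (h : ∀ Y : Matrix (Fin 2) (Fin 2) k, Y.trace = 0 → Algebra.trace F k (X * Y).trace = 0) :
    X = 0 := by
  refine eq_zero_of_forall_trace_mul h2 X hX fun Y hY => ?_
  have hnd := traceForm_nondegenerate F k
  refine hnd.1 _ fun a => ?_
  rw [Algebra.traceForm_apply]
  have := h (a • Y) (by rw [Matrix.trace_smul, hY, smul_zero])
  rw [Matrix.mul_smul, Matrix.trace_smul, smul_eq_mul, mul_comm] at this
  exact this

end Fermat.Agent.S56.Base.TraceForm
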