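import Mathlib
import Fermat.Prelude.Def_GroupCohomology_Selmer
import Fermat.Prelude.Def_ExtCitation_KummerBridge
import Fermat.Agent.CFT.D.CoeffChange
import Fermat.Agent.CFT.D.DualTwist
import Fermat.Agent.S56.Coh.CocDefs
import Fermat.Agent.CFT.Bridge.Cyclo
import Fermat.Agent.S56.Base.TraceForm

/-!
# PROJECT T (S56), block (a1-II): `TwistDict` — `M(1)` is the twisted `𝔽_p`-dual of `M = ad⁰ ρbar`

`k` a finite field of characteristic `p` (given as `[Algebra (ZMod p) k]`), `2 ≠ 0` in `k`,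
`rbar : GQ →* GL₂(k)` with `det rbar = ` the mod `p` cyclotomic character (`DetCyclo p rbar`).
With helper18's `Mrep rbar`, `MrepTw rbar` (`Coh/CocDefs`), main's restriction of scalars
`CoeffChange.resScalars (algebraMap (ZMod p) k)` and the Prelude's `Rep.dualTwist`:

* `trPair p X Y = Tr_{k/𝔽_p} (tr (X Y))` on `sl2 k`: biadditive, symmetric, `k`-balanced
  (`trPair_smul_left`), non-degenerate (`eq_zero_of_trPair_eq_zero`), and
  `⟨σ X, Y⟩ = ⟨X, σ⁻¹ Y⟩` (`trPair_adRep`), `⟨σ •_{M(1)} X, Y⟩ = χ(σ) ⟨X, σ⁻¹ •_M Y⟩`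
  (`trPair_MrepTw`, `trPair_Mrep`);
* `twistIso  : resScalars φ (MrepTw rbar) ≅ (resScalars φ (Mrep rbar)).dualTwist (cycloChar p)`;
* `twistIso' : resScalars φ (Mrep rbar) ≅ (resScalars φ (MrepTw rbar)).dualTwist (cycloChar p)`;
  both are `X ↦ (Y ↦ trPair p X Y)` (`twistIso_hom_apply`, `twistIso'_hom_apply`);
* `detCyclo_of_forall`, `detCyclo_of_detIsCyclotomic` : `DetCyclo` from the Prelude's
  `DetIsCyclotomic`;
* **`eTw`** (the form consumed by the D-layer, helper23 #4028 (4)): for `φ₀ : k₀ →+* ZMod p`,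
  `E : Rep k₀ GQ` and `ι : resScalars φ₀ (chiRep (cycloChar p)) ⟶ E` injective onto the `p`-torsion
  of `E`: `resScalars (phiK k p φ₀) (MrepTw rbar) ≅ homRep (resScalars (phiK k p φ₀) (Mrep rbar)) E`
  with `toLin (eTw.hom x) y = ι (Tr_{k/𝔽_p} (tr (x y)))` (`toLin_eTw_hom`), `k`-balanced
  (`toLin_eTw_hom_smul`); `phiK k p φ₀ = (algebraMap (ZMod p) k).comp φ₀`.
-/

set_option autoImplicit false

noncomputable section

namespace Fermat.Agent.S56.Base.TwistDict

open Fermat.Agent.S56.Coh.CocDefs Fermat.Agent.CFT.D.CoeffChange Fermat.Agent.CFT.Bridge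
open Fermat.Agent.S56.Base.TraceForm
open Matrix

variable {k : Type} [Field k] (p : ℕ) [Fact p.Prime] [Algebra (ZMod p) k]

/-- the `𝔽_p`-valued trace pairing on trace-zero matrices: `Tr_{k/𝔽_p} (tr (X Y))` -/
def trPair (X Y : sl2 k) : ZMod p := Algebra.trace (ZMod p) k (Matrix.trace (X.1 * Y.1))

theorem trPair_add_left (X X' Y : sl2 k) : trPair p (X + X') Y = trPair p X Y + trPair p X' Y := by
  unfold trPair
  rw [Submodule.coe_add, Matrix.add_mul, Matrix.trace_add, map_add]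

theorem trPair_add_right (X Y Y' : sl2 k) : trPair p X (Y + Y') = trPair p X Y + trPair p X Y' := by
  unfold trPair
  rw [Submodule.coe_add, Matrix.mul_add, Matrix.trace_add, map_add]

theorem trPair_symm (X Y : sl2 k) : trPair p X Y = trPair p Y X := by
  unfold trPair
  rw [Matrix.trace_mul_comm]

/-- `k`-balanced -/
theorem trPair_smul_left (a : k) (X Y : sl2 k) : trPair p (a • X) Y = trPair p X (a • Y) := by
  unfold trPair
  rw [Submodule.coe_smul, Submodule.coe_smul, Matrix.smul_mul, Matrix.mul_smul]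

theorem trPair_algebraMap_smul_left (c : ZMod p) (X Y : sl2 k) :
    trPair p (algebraMap (ZMod p) k c • X) Y = c * trPair p X Y := by
  unfold trPair
  rw [Submodule.coe_smul, Matrix.smul_mul, Matrix.trace_smul, smul_eq_mul, ← Algebra.smul_def,
    map_smul, smul_eq_mul]

theorem trPair_algebraMap_smul_right (c : ZMod p) (X Y : sl2 k) :
    trPair p X (algebraMap (ZMod p) k c • Y) = c * trPair p X Y := by
  rw [← trPair_smul_left, trPair_algebraMap_smul_left]

variable (k) in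
/-- the structure map `𝔽_p → k` -/
abbrev phi : ZMod p →+* k := algebraMap (ZMod p) k

/-- `Y ↦ Tr (tr (X Y))` as an `𝔽_p`-linear form on `sl2 k` with restricted scalars -/
def trLin (X : sl2 k) : Module.Dual (ZMod p) (RS (phi k p) (sl2 k)) where
  toFun Y := trPair p X ((toRS (phi k p) (sl2 k)).symm Y)
  map_add' Y Y' := by rw [map_add, trPair_add_right]
  map_smul' c Y := by
    rw [smul_RS, AddEquiv.symm_apply_apply, trPair_algebraMap_smul_right, RingHom.id_apply,
      smul_eq_mul]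

theorem trLin_apply (X Y : sl2 k) : trLin p X (toRS (phi k p) (sl2 k) Y) = trPair p X Y := rfl

/-- `X ↦ (Y ↦ Tr (tr (X Y)))` as an `𝔽_p`-linear map -/
def trHom : RS (phi k p) (sl2 k) →ₗ[ZMod p] Module.Dual (ZMod p) (RS (phi k p) (sl2 k)) where
  toFun X := trLin p ((toRS (phi k p) (sl2 k)).symm X)
  map_add' X X' := by
    refine LinearMap.ext fun Y => ?_
    obtain ⟨Y, rfl⟩ := (toRS (phi k p) (sl2 k)).surjective Y
    rw [LinearMap.add_apply, trLin_apply, trLin_apply, trLin_apply, map_add, trPair_add_left]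
  map_smul' c X := by
    refine LinearMap.ext fun Y => ?_
    obtain ⟨Y, rfl⟩ := (toRS (phi k p) (sl2 k)).surjective Y
    rw [LinearMap.smul_apply, trLin_apply, trLin_apply, smul_RS, AddEquiv.symm_apply_apply,
      trPair_algebraMap_smul_left, RingHom.id_apply, smul_eq_mul]

theorem trHom_apply (X Y : sl2 k) :
    trHom p (toRS (phi k p) (sl2 k) X) (toRS (phi k p) (sl2 k) Y) = trPair p X Y := rfl

section Bijective

variable [Finite k]

theorem finite_RS : Finite (RS (phi k p) (sl2 k)) := inferInstanceAs (Finite (sl2 k))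

/-- the `𝔽_p`-valued trace form is non-degenerate (`char k ≠ 2`) -/
theorem eq_zero_of_trPair_eq_zero (h2 : (2 : k) ≠ 0) (X : sl2 k)
    (h : ∀ Y : sl2 k, trPair p X Y = 0) : X = 0 := by
  apply Subtype.ext
  refine eq_zero_of_forall_algebraTrace (F := ZMod p) h2 X.1 (mem_sl2.1 X.2) fun Y hY => ?_
  exact h ⟨Y, mem_sl2.2 hY⟩

theorem trHom_injective (h2 : (2 : k) ≠ 0) : Function.Injective (trHom (k := k) p) := by
  rw [← LinearMap.ker_eq_bot, LinearMap.ker_eq_bot']
  intro X hX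
  obtain ⟨X, rfl⟩ := (toRS (phi k p) (sl2 k)).surjective X
  have : X = 0 := eq_zero_of_trPair_eq_zero p h2 X fun Y => by
    rw [← trHom_apply, hX, LinearMap.zero_apply]
  rw [this, map_zero]

theorem trHom_bijective (h2 : (2 : k) ≠ 0) : Function.Bijective (trHom (k := k) p) := by
  have := finite_RS (k := k) p
  refine ⟨trHom_injective p h2, ?_⟩
  exact (LinearMap.injective_iff_surjective_of_finrank_eq_finrank
    Subspace.dual_finrank_eq.symm).1 (trHom_injective p h2)

variable (rbar : GQ →* GL (Fin 2) k)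

theorem finite_resScalars_Mrep : Finite (resScalars (phi k p) (Mrep rbar)).V :=
  finite_RS (k := k) p

theorem finite_resScalars_MrepTw : Finite (resScalars (phi k p) (MrepTw rbar)).V :=
  finite_RS (k := k) p

end Bijective

/-! ### equivariance -/

section Equivariance

variable (rbar : GQ →* GL (Fin 2) k)

/-- `⟨σ X, Y⟩ = ⟨X, σ⁻¹ Y⟩` for the adjoint action -/
theorem trPair_adRep (σ : GQ) (X Y : sl2 k) :
    trPair p (adRep rbar σ X) Y = trPair p X (adRep rbar σ⁻¹ Y) := by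
  unfold trPair
  rw [adRep_apply_coe, adRep_apply_coe, map_inv, inv_inv, trace_conj_mul]

/-- `det rbar` is the mod `p` cyclotomic character (as a hypothesis) -/
def DetCyclo : Prop :=
  ∀ σ : GQ, (rbar σ : Matrix (Fin 2) (Fin 2) k).det =
    algebraMap (ZMod p) k ((ExtCitation.cycloChar p σ : (ZMod p)ˣ) : ZMod p)

variable {rbar}

theorem trPair_MrepTw (hdet : DetCyclo p rbar) (σ : GQ) (X Y : sl2 k) :
    trPair p ((MrepTw rbar).ρ σ X) Y =
      ((ExtCitation.cycloChar p σ : (ZMod p)ˣ) : ZMod p) * trPair p X ((Mrep rbar).ρ σ⁻¹ Y) := by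
  have h1 : (MrepTw rbar).ρ σ X = (rbar σ : Matrix (Fin 2) (Fin 2) k).det • adRep rbar σ X := rfl
  have h2 : (Mrep rbar).ρ σ⁻¹ Y = adRep rbar σ⁻¹ Y := rfl
  rw [h1, h2, hdet σ, trPair_algebraMap_smul_left, trPair_adRep]

theorem trPair_Mrep (hdet : DetCyclo p rbar) (σ : GQ) (X Y : sl2 k) :
    trPair p ((Mrep rbar).ρ σ X) Y =
      ((ExtCitation.cycloChar p σ : (ZMod p)ˣ) : ZMod p) * trPair p X ((MrepTw rbar).ρ σ⁻¹ Y) := by
  rw [trPair_symm p X, trPair_MrepTw p hdet σ⁻¹ Y X, inv_inv, ← mul_assoc, ← Units.val_mul,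
    ← map_mul, mul_inv_cancel, map_one, Units.val_one, one_mul, trPair_symm]

variable (rbar) in
/-- `trHom` typed between `MrepTw rbar` and the dual of `Mrep rbar` (scalars restricted) -/
def trHomTw : (resScalars (phi k p) (MrepTw rbar)).V →ₗ[ZMod p]
    Module.Dual (ZMod p) (resScalars (phi k p) (Mrep rbar)).V := trHom p

variable (rbar) in
/-- `trHom` typed between `Mrep rbar` and the dual of `MrepTw rbar` (scalars restricted) -/
def trHomM : (resScalars (phi k p) (Mrep rbar)).V →ₗ[ZMod p]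
    Module.Dual (ZMod p) (resScalars (phi k p) (MrepTw rbar)).V := trHom p

theorem trHomTw_apply (X Y : sl2 k) :
    trHomTw p rbar (toRes (phi k p) (MrepTw rbar) X) (toRes (phi k p) (Mrep rbar) Y) =
      trPair p X Y := rfl

theorem trHomM_apply (X Y : sl2 k) :
    trHomM p rbar (toRes (phi k p) (Mrep rbar) X) (toRes (phi k p) (MrepTw rbar) Y) =
      trPair p X Y := rfl

theorem trHomTw_ρ (hdet : DetCyclo p rbar) (σ : GQ) (X : (resScalars (phi k p) (MrepTw rbar)).V) :
    trHomTw p rbar ((resScalars (phi k p) (MrepTw rbar)).ρ σ X) =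
      ((resScalars (phi k p) (Mrep rbar)).dualTwist (ExtCitation.cycloChar p)).ρ σ
        (trHomTw p rbar X) := by
  refine LinearMap.ext fun Y => ?_
  obtain ⟨X, rfl⟩ := (toRes (phi k p) (MrepTw rbar)).surjective X
  obtain ⟨Y, rfl⟩ := (toRes (phi k p) (Mrep rbar)).surjective Y
  rw [Rep.dualTwist_ρ_apply]
  exact trPair_MrepTw p hdet σ X Y

theorem trHomM_ρ (hdet : DetCyclo p rbar) (σ : GQ) (X : (resScalars (phi k p) (Mrep rbar)).V) :
    trHomM p rbar ((resScalars (phi k p) (Mrep rbar)).ρ σ X) =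
      ((resScalars (phi k p) (MrepTw rbar)).dualTwist (ExtCitation.cycloChar p)).ρ σ
        (trHomM p rbar X) := by
  refine LinearMap.ext fun Y => ?_
  obtain ⟨X, rfl⟩ := (toRes (phi k p) (Mrep rbar)).surjective X
  obtain ⟨Y, rfl⟩ := (toRes (phi k p) (MrepTw rbar)).surjective Y
  rw [Rep.dualTwist_ρ_apply]
  exact trPair_Mrep p hdet σ X Y

end Equivariance

/-! ### `det rbar` is cyclotomic: bridges from the Prelude's shape -/

section Det

variable {rbar : GQ →* GL (Fin 2) k}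

/-- `DetCyclo` from the level-one clause of the Prelude's `DetIsCyclotomic` -/
theorem detCyclo_of_forall
    (h : ∀ (σ : GQ) (a : ℕ), (∀ μ : AlgebraicClosure ℚ, μ ^ p = 1 → σ μ = μ ^ a) →
      (rbar σ : Matrix (Fin 2) (Fin 2) k).det = (a : k)) : DetCyclo p rbar := by
  intro σ
  have hp : NeZero p := ⟨(Fact.out : p.Prime).ne_zero⟩
  obtain ⟨ζ, hζ⟩ := exists_isPrimitiveRoot_Qbar p
  have hσ := apply_eq_pow_cycloChar p hζ σ
  rw [h σ ((ExtCitation.cycloChar p σ : ZMod p)).val ?_]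
  · rw [← map_natCast (algebraMap (ZMod p) k), ZMod.natCast_zmod_val]
  · intro μ hμ
    obtain ⟨i, -, rfl⟩ := hζ.eq_pow_of_pow_eq_one hμ
    rw [map_pow, hσ, ← pow_mul, ← pow_mul, mul_comm]

open Fermat.Agent.S53.Dictionary hiding GQ in
/-- `DetCyclo` from the Prelude's `DetIsCyclotomic` of the attached `GaloisRepAdic k` -/
theorem detCyclo_of_detIsCyclotomic
    (hc : IsContMat k ((Units.coeHom (Matrix (Fin 2) (Fin 2) k)).comp rbar))
    (h : (ofMat ((Units.coeHom (Matrix (Fin 2) (Fin 2) k)).comp rbar) hc).DetIsCyclotomic p) :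
    DetCyclo p rbar := by
  refine detCyclo_of_forall p fun σ a ha => ?_
  obtain ⟨hp, h1⟩ := h
  have hp0 : (p : k) = 0 := by
    rw [IsLocalRing.maximalIdeal_eq_bot] at hp
    exact hp
  have h2 := h1 1 σ a (fun μ hμ => ha μ (by rwa [pow_one] at hμ))
  rw [pow_one, hp0, Ideal.span_singleton_eq_bot.2 rfl, Ideal.mem_bot, sub_eq_zero] at h2
  rw [← h2]
  change _ = LinearMap.det (Matrix.toLin' (rbar σ : Matrix (Fin 2) (Fin 2) k))
  rw [LinearMap.det_toLin']

end Det

/-! ### the isomorphisms -/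

section Iso

variable [Finite k] {rbar : GQ →* GL (Fin 2) k}

theorem trHomTw_bijective (h2 : (2 : k) ≠ 0) : Function.Bijective (trHomTw p rbar) :=
  trHom_bijective p h2

theorem trHomM_bijective (h2 : (2 : k) ≠ 0) : Function.Bijective (trHomM p rbar) :=
  trHom_bijective p h2

/-- **`M(1) ≅ M^∨(χ)`** over `𝔽_p`: `MrepTw rbar` is the twisted `𝔽_p`-dual of `Mrep rbar`, by the
trace form `Tr_{k/𝔽_p} (tr (X Y))`. -/
def twistIso (h2 : (2 : k) ≠ 0) (hdet : DetCyclo p rbar) :
    resScalars (phi k p) (MrepTw rbar) ≅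
      (resScalars (phi k p) (Mrep rbar)).dualTwist (ExtCitation.cycloChar p) :=
  Rep.mkIso (ρ := resRho (phi k p) (MrepTw rbar).ρ)
    (σ := ((resScalars (phi k p) (Mrep rbar)).ρ.dual.twist (ExtCitation.cycloChar p)))
    (Representation.Equiv.mk
      (LinearEquiv.ofBijective (trHomTw p rbar) (trHomTw_bijective p h2))
      (fun σ => LinearMap.ext fun X => trHomTw_ρ p hdet σ X))

/-- the mirror isomorphism: `Mrep rbar` is the twisted `𝔽_p`-dual of `MrepTw rbar` -/
def twistIso' (h2 : (2 : k) ≠ 0) (hdet : DetCyclo p rbar) :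
    resScalars (phi k p) (Mrep rbar) ≅
      (resScalars (phi k p) (MrepTw rbar)).dualTwist (ExtCitation.cycloChar p) :=
  Rep.mkIso (ρ := resRho (phi k p) (Mrep rbar).ρ)
    (σ := ((resScalars (phi k p) (MrepTw rbar)).ρ.dual.twist (ExtCitation.cycloChar p)))
    (Representation.Equiv.mk
      (LinearEquiv.ofBijective (trHomM p rbar) (trHomM_bijective p h2))
      (fun σ => LinearMap.ext fun X => trHomM_ρ p hdet σ X))

theorem twistIso_hom_apply (h2 : (2 : k) ≠ 0) (hdet : DetCyclo p rbar) (X Y : sl2 k) :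
    (twistIso p h2 hdet).hom.hom (toRes (phi k p) (MrepTw rbar) X)
        (toRes (phi k p) (Mrep rbar) Y) = trPair p X Y := rfl

theorem twistIso'_hom_apply (h2 : (2 : k) ≠ 0) (hdet : DetCyclo p rbar) (X Y : sl2 k) :
    (twistIso' p h2 hdet).hom.hom (toRes (phi k p) (Mrep rbar) X)
        (toRes (phi k p) (MrepTw rbar) Y) = trPair p X Y := rfl

end Iso

/-! ### the `Hom(-, E)` form consumed by the D-layer -/

section HomForm

open Fermat.Agent.CFT.D.DualTwist Fermat.Agent.CFT.A7.HomRep CategoryTheory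

variable {k₀ : Type} [CommRing k₀] (φ₀ : k₀ →+* ZMod p) {E : Rep.{0} k₀ GQ}
  (ι : resScalars φ₀ (chiRep (ExtCitation.cycloChar p)) ⟶ E)
  [Finite k] {rbar : GQ →* GL (Fin 2) k}

variable (k) in
/-- the composite structure map `k₀ → 𝔽_p → k` -/
abbrev phiK : k₀ →+* k := (phi k p).comp φ₀

/-- contravariant functoriality of `Hom(-, E)` on isomorphisms -/
def homResIso {P₁ P₀ : Rep.{0} k₀ GQ} (e : P₁ ≅ P₀) (X : Rep.{0} k₀ GQ) :
    homRep P₀ X ≅ homRep P₁ X where
  hom := homRes e.hom X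
  inv := homRes e.inv X
  hom_inv_id := by rw [← homRes_comp, e.inv_hom_id, homRes_id]
  inv_hom_id := by rw [← homRes_comp, e.hom_inv_id, homRes_id]

/-- restriction of scalars of an isomorphism -/
def resScalarsIso {M N : Rep.{0} (ZMod p) GQ} (e : M ≅ N) :
    resScalars φ₀ M ≅ resScalars φ₀ N where
  hom := resScalarsMap φ₀ e.hom
  inv := resScalarsMap φ₀ e.inv
  hom_inv_id := by rw [← resScalarsMap_comp, e.hom_inv_id, resScalarsMap_id]
  inv_hom_id := by rw [← resScalarsMap_comp, e.inv_hom_id, resScalarsMap_id]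

/-- **`TwistDict`**: `M(1) ≅ Hom(M, E)` over `k₀`, where `μ_p ⊂ E` through `ι`; the map is
`x ↦ (y ↦ ι (Tr_{k/𝔽_p} (tr (x y))))`. -/
def eTw (h2 : (2 : k) ≠ 0) (hdet : DetCyclo p rbar) (hinj : Function.Injective ι.hom)
    (hrange : ∀ e : E.V, (p : k₀) • e = 0 → ∃ c, ι.hom c = e) :
    resScalars (phiK k p φ₀) (MrepTw rbar) ≅
      homRep (resScalars (phiK k p φ₀) (Mrep rbar)) E :=
  haveI : Finite (resScalars (phi k p) (MrepTw rbar)).V := finite_resScalars_MrepTw p rbar
  (dualTwistIso φ₀ (resScalars (phi k p) (MrepTw rbar)) (ExtCitation.cycloChar p) ι hinj hrange)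
    ≪≫ homResIso (resScalarsIso p φ₀ (twistIso' p h2 hdet)) E

theorem toLin_eTw_hom (h2 : (2 : k) ≠ 0) (hdet : DetCyclo p rbar)
    (hinj : Function.Injective ι.hom)
    (hrange : ∀ e : E.V, (p : k₀) • e = 0 → ∃ c, ι.hom c = e) (x y : sl2 k) :
    toLin ((eTw p φ₀ ι h2 hdet hinj hrange).hom.hom (toRes (phiK k p φ₀) (MrepTw rbar) x))
        (toRes (phiK k p φ₀) (Mrep rbar) y) =
      ι.hom (toRes φ₀ (chiRep (ExtCitation.cycloChar p)) (trPair p x y)) := by
  rw [trPair_symm]
  rfl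

/-- `k`-balancedness of `eTw`: `⟨a x, y⟩ = ⟨x, a y⟩` for `a : k` -/
theorem toLin_eTw_hom_smul (h2 : (2 : k) ≠ 0) (hdet : DetCyclo p rbar)
    (hinj : Function.Injective ι.hom)
    (hrange : ∀ e : E.V, (p : k₀) • e = 0 → ∃ c, ι.hom c = e) (a : k) (x y : sl2 k) :
    toLin ((eTw p φ₀ ι h2 hdet hinj hrange).hom.hom
        (toRes (phiK k p φ₀) (MrepTw rbar) (a • x))) (toRes (phiK k p φ₀) (Mrep rbar) y) =
      toLin ((eTw p φ₀ ι h2 hdet hinj hrange).hom.hom
        (toRes (phiK k p φ₀) (MrepTw rbar) x)) (toRes (phiK k p φ₀) (Mrep rbar) (a • y)) := by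
  rw [toLin_eTw_hom, toLin_eTw_hom, trPair_smul_left]

end HomForm

end Fermat.Agent.S56.Base.TwistDict
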