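/-
PROJECT T (S56), block (a1-II) = S56/Base, leaf (E-b) (helper10; chief helper8): THE ARCHIMEDEAN
TERM OF THE EULER CHARACTERISTIC OF `ad⁰ρ̄(1)`.

`k` a finite field of characteristic `p ≠ 2` (`[Algebra (ZMod p) k]`), `rbar : GQ →* GL₂(k)` with
`det rbar =` the mod `p` cyclotomic character (`TwistDict.DetCyclo p rbar`), `c` the prelude's
complex conjugation.  Then `g := rbar c` is an involution of determinant `ω(c) = -1`, hence of trace
zero, and on `M' = ad⁰ρ̄(1) = MrepTw rbar` the element `c` acts by `X ↦ -(g X g⁻¹)`.  For trace-zero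
`2 × 2` matrices `g X + X g = tr (g X) • 1`, so the fixed space of `c` on `M'` is the kernel of the
non-zero linear form `X ↦ tr (g X)` on `sl2 k`:

* `cycloChar_complexConjugation` : `ω(c) = -1`;
* `mem_fixConj_iff`              : `X ∈ (M')^{c} ↔ tr (rbar c * X) = 0`;
* `card_fixConj_MrepTw`          : `#(M')^{c} * #k = #sl2 k`;
* `finrank_fixConj_MrepTw`       : `dim_{𝔽_p} (M')^{c} + [k : 𝔽_p] = dim_{𝔽_p} M'`;
* `chiInf_MrepTw`                : `χ_∞(M') = dim (M')^{c} - dim M' = -[k : 𝔽_p]`.
-/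
import Fermat.Agent.S56.Base.EC
import Fermat.Agent.S56.Base.TwistDict
import Fermat.Prelude.Def_GaloisRep_ComplexConjugation

set_option autoImplicit false

noncomputable section

namespace Fermat.Agent.S56.Base.Arch

open Fermat.Agent.CFT.Bridge Fermat.Agent.CFT.D.CoeffChange Fermat.Agent.S56.Coh.CocDefs
open Fermat.Agent.S56.Base
open Matrix

/-! ### Complex conjugation and the cyclotomic character -/

/-- Complex conjugation inverts roots of unity. -/
theorem complexConjugation_apply_of_pow_eq_one {t : Qbar} {m : ℕ} (hm : m ≠ 0) (ht : t ^ m = 1) :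
    complexConjugation t = t⁻¹ := by
  apply complexEmbedding.toRingHom.injective
  change complexEmbedding (complexConjugation t) = complexEmbedding t⁻¹
  rw [complexEmbedding_complexConjugation, map_inv₀]
  have hz : (complexEmbedding t) ^ m = 1 := by rw [← map_pow, ht, map_one]
  exact (Complex.inv_eq_conj (Complex.norm_eq_one_of_pow_eq_one hz hm)).symm

/-- `ω(c) = -1` in `(ZMod p)ˣ` (no hypothesis on `p`). -/
theorem cycloChar_complexConjugation_units (p : ℕ) [Fact p.Prime] :
    ExtCitation.cycloChar p complexConjugation = -1 := by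
  have hp : p.Prime := Fact.out
  have hp1 : 1 < p := hp.one_lt
  have : Fact (1 < p) := ⟨hp1⟩
  obtain ⟨ζ, hζ⟩ := exists_isPrimitiveRoot_Qbar p
  have h1 := apply_eq_pow_cycloChar p hζ complexConjugation
  rw [complexConjugation_apply_of_pow_eq_one hp.ne_zero hζ.pow_eq_one] at h1
  have hval : ((-1 : (ZMod p)ˣ) : ZMod p).val = p - 1 := by
    rw [Units.val_neg, Units.val_one, ZMod.neg_val, if_neg one_ne_zero, ZMod.val_one]
  have hinv : ζ⁻¹ = ζ ^ (p - 1) := by
    symm
    apply eq_inv_of_mul_eq_one_left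
    rw [← pow_succ, Nat.sub_add_cancel hp1.le, hζ.pow_eq_one]
  rw [hinv] at h1
  have h2 := hζ.pow_inj (Nat.sub_lt hp.pos one_pos) (ZMod.val_lt _) h1
  ext
  apply ZMod.val_injective p
  rw [hval, h2]

set_option linter.unusedVariables false in
/-- **`ω(c) = -1`**: the mod `p` cyclotomic character of complex conjugation. -/
theorem cycloChar_complexConjugation {p : ℕ} [Fact p.Prime] (hp2 : p ≠ 2) :
    ((ExtCitation.cycloChar p complexConjugation : (ZMod p)ˣ) : ZMod p) = -1 := by
  rw [cycloChar_complexConjugation_units, Units.val_neg, Units.val_one]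

/-! ### Trace-zero `2 × 2` matrices -/

section Mat

variable {k : Type} [Field k]

/-- For trace-zero `2 × 2` matrices the anticommutator is the scalar `tr (A B)`. -/
theorem mul_add_mul_eq_trace_smul (A B : Matrix (Fin 2) (Fin 2) k) (hA : A.trace = 0)
    (hB : B.trace = 0) : A * B + B * A = (A * B).trace • (1 : Matrix (Fin 2) (Fin 2) k) := by
  have hA' : A 1 1 = -A 0 0 := by
    rw [Matrix.trace_fin_two] at hA
    linear_combination hA
  have hB' : B 1 1 = -B 0 0 := by
    rw [Matrix.trace_fin_two] at hB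
    linear_combination hB
  ext i j
  fin_cases i <;> fin_cases j <;>
    simp [Matrix.mul_apply, Fin.sum_univ_two, Matrix.trace_fin_two, hA', hB'] <;> ring

/-- An involution of determinant `-1` in `M₂(k)` has trace zero. -/
theorem trace_eq_zero_of_mul_self (g : Matrix (Fin 2) (Fin 2) k) (hg : g * g = 1)
    (hdet : g.det = -1) : g.trace = 0 := by
  have h00 := congrFun (congrFun hg 0) 0
  have h11 := congrFun (congrFun hg 1) 1
  rw [Matrix.mul_apply, Fin.sum_univ_two, Matrix.one_apply_eq] at h00 h11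
  rw [Matrix.det_fin_two] at hdet
  have h : (g 0 0 + g 1 1) ^ 2 = 0 := by linear_combination h00 + h11 + 2 * hdet
  rw [Matrix.trace_fin_two]
  exact pow_eq_zero_iff two_ne_zero |>.1 h

end Mat

/-! ### The fixed space of complex conjugation on `ad⁰ρ̄(1)` -/

variable {k : Type} [Field k] {p : ℕ} [Fact p.Prime] [Algebra (ZMod p) k]
  (rbar : GQ →* GL (Fin 2) k)

/-- `2 ≠ 0` in `k` for `p ≠ 2`. -/
theorem two_ne_zero_of_ne (hp2 : p ≠ 2) : (2 : k) ≠ 0 := by
  have hchar : CharP k p := charP_of_injective_algebraMap (algebraMap (ZMod p) k).injective p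
  intro h
  have h' : ((2 : ℕ) : k) = 0 := by exact_mod_cast h
  rw [CharP.cast_eq_zero_iff k p] at h'
  exact hp2 ((Nat.prime_dvd_prime_iff_eq (Fact.out : p.Prime) Nat.prime_two).1 h')

/-- `rbar c` is an involution. -/
theorem rbar_conj_mul_self :
    (rbar complexConjugation : Matrix (Fin 2) (Fin 2) k) *
      (rbar complexConjugation : Matrix (Fin 2) (Fin 2) k) = 1 := by
  rw [← Units.val_mul, ← map_mul, complexConjugation_mul_self, map_one, Units.val_one]

/-- `(rbar c)⁻¹ = rbar c`. -/
theorem rbar_conj_inv : (rbar complexConjugation)⁻¹ = rbar complexConjugation := by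
  rw [← map_inv, complexConjugation_inv]

variable {rbar}

/-- `det (rbar c) = -1`. -/
theorem det_rbar_conj (hdet : TwistDict.DetCyclo p rbar) :
    (rbar complexConjugation : Matrix (Fin 2) (Fin 2) k).det = -1 := by
  rw [hdet complexConjugation, cycloChar_complexConjugation_units, Units.val_neg, Units.val_one,
    map_neg, map_one]

/-- `tr (rbar c) = 0`. -/
theorem trace_rbar_conj (hdet : TwistDict.DetCyclo p rbar) :
    (rbar complexConjugation : Matrix (Fin 2) (Fin 2) k).trace = 0 :=
  trace_eq_zero_of_mul_self _ (rbar_conj_mul_self rbar) (det_rbar_conj hdet)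

/-- Complex conjugation fixes `X ∈ ad⁰ρ̄(1)` iff `tr (rbar c * X) = 0`. -/
theorem MrepTw_conj_eq_iff (hdet : TwistDict.DetCyclo p rbar) (X : sl2 k) :
    (MrepTw rbar).ρ complexConjugation X = X ↔
      ((rbar complexConjugation : Matrix (Fin 2) (Fin 2) k) * X.1).trace = 0 := by
  set g : Matrix (Fin 2) (Fin 2) k := (rbar complexConjugation : Matrix (Fin 2) (Fin 2) k) with hg
  have hgg : g * g = 1 := rbar_conj_mul_self rbar
  have hanti : g * X.1 + X.1 * g = (g * X.1).trace • (1 : Matrix (Fin 2) (Fin 2) k) :=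
    mul_add_mul_eq_trace_smul g X.1 (trace_rbar_conj hdet) (mem_sl2.1 X.2)
  have hcoe : (((MrepTw rbar).ρ complexConjugation X : sl2 k) : Matrix (Fin 2) (Fin 2) k) =
      -(g * X.1 * g) := by
    rw [MrepTw_ρ_coe, rbar_conj_inv, det_rbar_conj hdet, neg_smul, one_smul]
  constructor
  · intro h
    have h1 : -(g * X.1 * g) = X.1 := by rw [← hcoe, h]
    have h2 : g * X.1 + X.1 * g = 0 := by
      have h3 : X.1 * g = -(g * X.1) := by
        calc X.1 * g = -(g * X.1 * g) * g := by rw [h1]
          _ = -(g * X.1 * (g * g)) := by rw [Matrix.neg_mul, Matrix.mul_assoc (g * X.1) g g]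
          _ = -(g * X.1) := by rw [hgg, Matrix.mul_one]
      rw [h3, add_neg_cancel]
    rw [h2] at hanti
    have h4 := congrFun (congrFun hanti 0) 0
    rw [Matrix.zero_apply, Matrix.smul_apply, Matrix.one_apply_eq, smul_eq_mul, mul_one] at h4
    exact h4.symm
  · intro h
    rw [h, zero_smul] at hanti
    apply Subtype.ext
    rw [hcoe]
    have h3 : g * X.1 = -(X.1 * g) := eq_neg_of_add_eq_zero_left hanti
    rw [h3, Matrix.neg_mul, Matrix.mul_assoc, hgg, Matrix.mul_one, neg_neg]

variable (rbar) in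
/-- The linear form `X ↦ tr (rbar c * X)` on `sl2 k`. -/
def conjForm : sl2 k →ₗ[k] k :=
  (Matrix.traceLinearMap (Fin 2) k k) ∘ₗ
    (LinearMap.mulLeft k (rbar complexConjugation : Matrix (Fin 2) (Fin 2) k)) ∘ₗ (sl2 k).subtype

theorem conjForm_apply (X : sl2 k) :
    conjForm rbar X = ((rbar complexConjugation : Matrix (Fin 2) (Fin 2) k) * X.1).trace := rfl

/-- The form `X ↦ tr (rbar c * X)` is onto (`p ≠ 2`): its value at `rbar c` is `2`. -/
theorem conjForm_surjective (hp2 : p ≠ 2) (hdet : TwistDict.DetCyclo p rbar) :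
    Function.Surjective (conjForm rbar) := by
  have h2 : (2 : k) ≠ 0 := two_ne_zero_of_ne hp2
  intro y
  refine ⟨(y / 2) • ⟨(rbar complexConjugation : Matrix (Fin 2) (Fin 2) k),
    mem_sl2.2 (trace_rbar_conj hdet)⟩, ?_⟩
  rw [map_smul, conjForm_apply, rbar_conj_mul_self, Matrix.trace_one, Fintype.card_fin,
    smul_eq_mul]
  rw [Nat.cast_ofNat]
  exact div_mul_cancel₀ y h2

/-- Membership in the fixed space of complex conjugation on `ad⁰ρ̄(1)` (scalars restricted to
`𝔽_p`). -/
theorem mem_fixConj_iff (hdet : TwistDict.DetCyclo p rbar)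
    (X : (resScalars (TwistDict.phi k p) (MrepTw rbar)).V) :
    X ∈ EC.fixConj (resScalars (TwistDict.phi k p) (MrepTw rbar)) ↔
      (toRes (TwistDict.phi k p) (MrepTw rbar)).symm X ∈ LinearMap.ker (conjForm rbar) := by
  obtain ⟨X, rfl⟩ := (toRes (TwistDict.phi k p) (MrepTw rbar)).surjective X
  rw [EC.mem_fixConj, AddEquiv.symm_apply_apply, LinearMap.mem_ker, conjForm_apply,
    ← MrepTw_conj_eq_iff hdet X, ← toRes_ρ]
  exact (toRes (TwistDict.phi k p) (MrepTw rbar)).injective.eq_iff

variable (rbar)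

/-- **`#(M')^{c} * #k = #sl2 k`** (the CARD form of the archimedean term). -/
theorem card_fixConj_MrepTw (hp2 : p ≠ 2) (hdet : TwistDict.DetCyclo p rbar) :
    Nat.card (EC.fixConj (resScalars (TwistDict.phi k p) (MrepTw rbar))) * Nat.card k =
      Nat.card (sl2 k) := by
  have e1 : ↥(EC.fixConj (resScalars (TwistDict.phi k p) (MrepTw rbar))) ≃
      ↥(LinearMap.ker (conjForm rbar)) :=
    Equiv.subtypeEquiv (toRes (TwistDict.phi k p) (MrepTw rbar)).symm.toEquiv
      (fun X => mem_fixConj_iff hdet X)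
  have e2 : (sl2 k ⧸ LinearMap.ker (conjForm rbar)) ≃ k :=
    ((conjForm rbar).quotKerEquivOfSurjective (conjForm_surjective hp2 hdet)).toEquiv
  rw [Nat.card_congr e1, ← Nat.card_congr e2, mul_comm]
  exact ((LinearMap.ker (conjForm rbar)).toAddSubgroup.card_eq_card_quotient_mul_card_addSubgroup).symm

variable [Finite k]

/-- `dim_{𝔽_p} (M')^{c} + [k : 𝔽_p] = dim_{𝔽_p} M'`. -/
theorem finrank_fixConj_MrepTw (hp2 : p ≠ 2) (hdet : TwistDict.DetCyclo p rbar) :
    Module.finrank (ZMod p) (EC.fixConj (resScalars (TwistDict.phi k p) (MrepTw rbar))) +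
        Module.finrank (ZMod p) k =
      Module.finrank (ZMod p) (resScalars (TwistDict.phi k p) (MrepTw rbar)).V := by
  have hfin : Finite (resScalars (TwistDict.phi k p) (MrepTw rbar)).V :=
    TwistDict.finite_resScalars_MrepTw p rbar
  have hp1 : 1 < p := (Fact.out : p.Prime).one_lt
  have hcard := card_fixConj_MrepTw rbar hp2 hdet
  have hV : Nat.card (sl2 k) = Nat.card (resScalars (TwistDict.phi k p) (MrepTw rbar)).V :=
    Nat.card_congr (toRes (TwistDict.phi k p) (MrepTw rbar)).toEquiv
  rw [hV, Module.natCard_eq_pow_finrank (K := ZMod p)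
      (V := EC.fixConj (resScalars (TwistDict.phi k p) (MrepTw rbar))),
    Module.natCard_eq_pow_finrank (K := ZMod p) (V := k),
    Module.natCard_eq_pow_finrank (K := ZMod p)
      (V := (resScalars (TwistDict.phi k p) (MrepTw rbar)).V), Nat.card_zmod, ← pow_add] at hcard
  exact Nat.pow_right_injective hp1 hcard

/-- **The archimedean term of `ad⁰ρ̄(1)`**: `χ_∞(M') = dim (M')^{c} - dim M' = -[k : 𝔽_p]`. -/
theorem chiInf_MrepTw (hp2 : p ≠ 2) (hdet : TwistDict.DetCyclo p rbar) :
    EC.chiInf (resScalars (TwistDict.phi k p) (MrepTw rbar)) =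
      -(Module.finrank (ZMod p) k : ℤ) := by
  have h := finrank_fixConj_MrepTw rbar hp2 hdet
  unfold EC.chiInf
  rw [← h]
  push_cast
  ring

end Fermat.Agent.S56.Base.Arch
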