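/-
PROJECT T (S56), block (a1-II) = S56/Base (owner helper23), TN side (helper10):
TATE-NAKAYAMA (TN-20) for `H²(G, Hom(B, C))` IN THE LEVEL-CONSTANT MODEL of a class formation.

`cf : ClassFormation 𝒰 C` over a PID `k` of characteristic zero with `AddHomsLinear` (`k = ℤ_(p)`),
`B` a `k`-lattice on which a level acts trivially.  The evaluation map
`evMap : H²_LC(G, Hom(B, C)) → Hom(B^G, H²_LC(G, C))`, `x ↦ (b ↦ (ev_b)_* x)`, satisfies:

* `layerHomIso`             : `Hom(B^U, C^U) ≅ Hom(B, C)^U` as representations of `G ⧸ U`;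
* `exists_layer_class`, `layer_class_eq_zero` : finite-level (TN-20) (`A7/TN20`, `A7/NTK`) transported
                              to the layer `Hom(B, C)^U`;
* `tnc20_injective`         : `evMap` is injective;
* `tnc20_surjective_level`  : an additive `f : B^G → H²(G ⧸ U, C^U)` killing the norms is realized;
* `tnc20_surjective_torsion`: every `f : B^G → H²_LC(G, C)` with `m • f = 0` is realized by a class
                              inflated from any level `V ≤ U₀` with `m ∣ [U₀ : V]`;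
* `inflSurj`                : every class killed by `m` is inflated from such a level `V`;
* `exists_infl_eq_of_torsion`, `exists_class_of_functional` : the two exports in the literal shapes of
                              their consumers (`Tail/LocSurj`, `LocalH2`, `Pairing/RealizeLoc`).
-/
import Fermat.Agent.CFT.D.NTGlue

set_option autoImplicit false

noncomputable section

namespace Fermat.Agent.S56.Base.TNLC

open CategoryTheory groupCohomology
open Fermat.Agent.CFT.LC Fermat.Agent.CFT.LC.El Fermat.Agent.CFT.A7 Fermat.Agent.CFT.A5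
  Fermat.Agent.CFT.A7.HomRep Fermat.Agent.CFT.D.Realize Fermat.Agent.CFT.D.NTGlue

variable {k G : Type} [CommRing k] [Group G]

section Layer

variable (B C : Rep.{0} k G) (U : Subgroup G) [U.Normal]

/-- The linear map `B → C` underlying a linear map `B^U → C^U`, when `U` acts trivially on `B`. -/
def liftLin (hB : ∀ u ∈ U, ∀ b : B.V, B.ρ u b = b)
    (l : (B.quotientToInvariants U).V →ₗ[k] (C.quotientToInvariants U).V) : B.V →ₗ[k] C.V :=
  (Submodule.subtype _) ∘ₗ l ∘ₗ (layerEquiv U hB).symm.toLinearMap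

lemma liftLin_apply (hB : ∀ u ∈ U, ∀ b : B.V, B.ρ u b = b)
    (l : (B.quotientToInvariants U).V →ₗ[k] (C.quotientToInvariants U).V) (b : B.V) :
    liftLin B C U hB l b = ((l ⟨b, fun u => hB u.1 u.2 b⟩).1 : C.V) := rfl

lemma liftLin_invariant (hB : ∀ u ∈ U, ∀ b : B.V, B.ρ u b = b)
    (l : (B.quotientToInvariants U).V →ₗ[k] (C.quotientToInvariants U).V) (u : U) :
    (homRep B C).ρ (u : G) (toLin.symm (liftLin B C U hB l)) = toLin.symm (liftLin B C U hB l) := by
  rw [ρ_eq_self_iff]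
  intro v
  rw [hB u.1 u.2 v]
  exact ((l ⟨v, fun u => hB u.1 u.2 v⟩).2 u).symm

/-- **`Hom(B^U, C^U) ⟶ Hom(B, C)^U`** as a morphism of representations of `G ⧸ U`, when `U` acts
trivially on `B`. -/
def layerHom (hB : ∀ u ∈ U, ∀ b : B.V, B.ρ u b = b) :
    homRep (B.quotientToInvariants U) (C.quotientToInvariants U) ⟶
      (homRep B C).quotientToInvariants U :=
  Rep.ofHom
    ⟨{  toFun := fun l => ⟨toLin.symm (liftLin B C U hB (toLin l)), liftLin_invariant B C U hB _⟩
        map_add' := fun _ _ => rfl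
        map_smul' := fun _ _ => rfl },
      fun c => QuotientGroup.induction_on c fun g => by
        ext l
        rfl⟩

lemma layerHom_apply (hB : ∀ u ∈ U, ∀ b : B.V, B.ρ u b = b)
    (l : (homRep (B.quotientToInvariants U) (C.quotientToInvariants U)).V) (b : B.V) :
    toLin ((layerHom B C U hB).hom l).1 b = ((toLin l ⟨b, fun u => hB u.1 u.2 b⟩).1 : C.V) := rfl

/-- The values of a `U`-invariant homomorphism `B → C` are `U`-invariant, when `U` acts trivially
on `B`. -/
lemma apply_invariant (hB : ∀ u ∈ U, ∀ b : B.V, B.ρ u b = b)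
    (φ : ((homRep B C).quotientToInvariants U).V) (b : B.V) (u : U) :
    C.ρ (u : G) (toLin φ.1 b) = toLin φ.1 b := by
  have h1 := (ρ_eq_self_iff B C (u : G) φ.1).1 (φ.2 u) b
  rw [hB u.1 u.2 b] at h1
  exact h1.symm

/-- **`Hom(B, C)^U ⟶ Hom(B^U, C^U)`**, the inverse of `layerHom`. -/
def layerHomInv (hB : ∀ u ∈ U, ∀ b : B.V, B.ρ u b = b) :
    (homRep B C).quotientToInvariants U ⟶
      homRep (B.quotientToInvariants U) (C.quotientToInvariants U) :=
  Rep.ofHom
    ⟨{  toFun := fun φ => toLin.symm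
          { toFun := fun x => ⟨toLin φ.1 x.1, fun u => apply_invariant B C U hB φ x.1 u⟩
            map_add' := fun x y => Subtype.ext (map_add (toLin φ.1) x.1 y.1)
            map_smul' := fun c x => Subtype.ext (map_smul (toLin φ.1) c x.1) }
        map_add' := fun _ _ => rfl
        map_smul' := fun _ _ => rfl },
      fun c => QuotientGroup.induction_on c fun g => by
        ext φ
        rfl⟩

lemma layerHomInv_apply (hB : ∀ u ∈ U, ∀ b : B.V, B.ρ u b = b)
    (φ : ((homRep B C).quotientToInvariants U).V) (x : (B.quotientToInvariants U).V) :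
    ((toLin ((layerHomInv B C U hB).hom φ) x).1 : C.V) = toLin φ.1 x.1 := rfl

/-- `Hom(B^U, C^U) ≅ Hom(B, C)^U` when `U` acts trivially on `B`. -/
def layerHomIso (hB : ∀ u ∈ U, ∀ b : B.V, B.ρ u b = b) :
    homRep (B.quotientToInvariants U) (C.quotientToInvariants U) ≅
      (homRep B C).quotientToInvariants U where
  hom := layerHom B C U hB
  inv := layerHomInv B C U hB
  hom_inv_id := by
    ext l
    rfl
  inv_hom_id := by
    ext φ
    rfl

/-- Evaluation at an invariant element commutes with the layer comparison. -/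
lemma layerHom_evHom (hB : ∀ u ∈ U, ∀ b : B.V, B.ρ u b = b) (b : B.V)
    (hb : ∀ g : G, B.ρ g b = b)
    (hb' : ∀ c : G ⧸ U, (B.quotientToInvariants U).ρ c ⟨b, fun u => hB u.1 u.2 b⟩ =
      ⟨b, fun u => hB u.1 u.2 b⟩) :
    layerHom B C U hB ≫ layerMap (HomSplit.evHom B C b hb) U =
      HomSplit.evHom (B.quotientToInvariants U) (C.quotientToInvariants U)
        ⟨b, fun u => hB u.1 u.2 b⟩ hb' := by
  ext l
  rfl

/-- An invariant element of `B` is an invariant element of the layer `B^U`. -/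
lemma layer_invariant (hB : ∀ u ∈ U, ∀ b : B.V, B.ρ u b = b) (b : B.V)
    (hb : ∀ g : G, B.ρ g b = b) (c : G ⧸ U) :
    (B.quotientToInvariants U).ρ c ⟨b, fun u => hB u.1 u.2 b⟩ = ⟨b, fun u => hB u.1 u.2 b⟩ :=
  QuotientGroup.induction_on c fun g => Subtype.ext (hb g)

/-- An invariant element of the layer `B^U` is an invariant element of `B`. -/
lemma invariant_of_layer (x : (B.quotientToInvariants U).V)
    (hx : ∀ c : G ⧸ U, (B.quotientToInvariants U).ρ c x = x) (g : G) : B.ρ g x.1 = x.1 :=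
  congrArg Subtype.val (hx (g : G ⧸ U))

/-- Evaluation at an invariant element, read on `Hom(B, C)^U` through `layerHomInv`. -/
lemma layerHomInv_evHom (hB : ∀ u ∈ U, ∀ b : B.V, B.ρ u b = b)
    (r : (B.quotientToInvariants U).V)
    (hr : ∀ c : G ⧸ U, (B.quotientToInvariants U).ρ c r = r) :
    layerHomInv B C U hB ≫ HomSplit.evHom (B.quotientToInvariants U)
        (C.quotientToInvariants U) r hr =
      layerMap (HomSplit.evHom B C r.1 (invariant_of_layer B U r hr)) U := by
  ext φ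
  rfl

end Layer


section Surj

variable [IsDomain k] [IsPrincipalIdealRing k] [CharZero k] {𝒰 : Levels G} {C : Rep.{0} k G}
  (hR : AddHomsLinear k) (cf : ClassFormation 𝒰 C)
  (B : Rep.{0} k G) [Module.Free k B.V] [Module.Finite k B.V]

/-- The invariants of the layer `B^U` under `G ⧸ U`, as invariants of `B` under `G`. -/
def layerInvHom (U : Subgroup G) [U.Normal] :
    (B.quotientToInvariants U).ρ.invariants →+ B.ρ.invariants where
  toFun x := ⟨x.1.1, invariant_of_layer B U x.1 x.2⟩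
  map_zero' := rfl
  map_add' _ _ := rfl

include hR cf in
/-- **(TN-20) surjectivity on a layer**, transported to `Hom(B, C)^U`: an additive map
`f : B^G → H²(G ⧸ U, C^U)` killing the norms `N_{G/U} B` is the evaluation map of a class of
`H²(G ⧸ U, Hom(B, C)^U)`. -/
theorem exists_layer_class (U : Subgroup G) [U.Normal] (hU : U ∈ 𝒰.sets) [Fintype (G ⧸ U)]
    (hB : ∀ u ∈ U, ∀ b : B.V, B.ρ u b = b)
    (f : B.ρ.invariants →+ groupCohomology (C.quotientToInvariants U) 2)
    (hf : ∀ (v : (B.quotientToInvariants U).V) (n : B.V) (hn : ∀ g : G, B.ρ g n = n),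
      n = ((B.quotientToInvariants U).ρ.norm v).1 → f ⟨n, hn⟩ = 0) :
    ∃ y : groupCohomology ((homRep B C).quotientToInvariants U) 2,
      ∀ (b : B.V) (hb : ∀ g : G, B.ρ g b = b),
        (layerCohMap (HomSplit.evHom B C b hb) U 2).hom y = f ⟨b, hb⟩ := by
  have := free_layer U B hB
  have := finite_layer U B hB
  have h : NT.NTHyp (B.quotientToInvariants U) (C.quotientToInvariants U) (cf.φ U hU) :=
    ntSupply_of_pid hR (G ⧸ U) _ _ (cf.isClassModule U hU) _ inferInstance inferInstance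
  obtain ⟨x, hx⟩ := TN20.tn20_surjective (B.quotientToInvariants U) (C.quotientToInvariants U)
    (cf.φ U hU) (f.comp (layerInvHom B U))
    (h.LD2 (f.comp (layerInvHom B U)) (fun v => hf v _ _ rfl))
  refine ⟨(groupCohomology.map (MonoidHom.id (G ⧸ U)) (layerHom B C U hB) 2).hom x, fun b hb => ?_⟩
  have h1 := hx ⟨b, fun u => hB u.1 u.2 b⟩ (layer_invariant B U hB b hb)
  rw [← layerHom_evHom B C U hB b hb (layer_invariant B U hB b hb),
    groupCohomology.map_id_comp] at h1
  exact h1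

end Surj


section Norm

/-- **Transitivity of the norm**: if the subgroup `H` acts trivially on `P`, the norm of `v` is
`|H|` times an invariant element. -/
lemma exists_norm_eq_card_smul {Γ : Type} [Group Γ] [Fintype Γ] (P : Rep.{0} k Γ) (H : Subgroup Γ)
    (hP : ∀ h ∈ H, ∀ v : P.V, P.ρ h v = v) (v : P.V) :
    ∃ s : P.V, (∀ γ : Γ, P.ρ γ s = s) ∧ P.ρ.norm v = (Nat.card H) • s := by
  classical
  have : Fintype H := Fintype.ofFinite _
  have : Fintype (Γ ⧸ H) := Fintype.ofFinite _
  refine ⟨∑ q : Γ ⧸ H, P.ρ q.out v, fun γ => ?_, ?_⟩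
  · rw [map_sum]
    have h1 : ∀ q : Γ ⧸ H, P.ρ γ (P.ρ q.out v) = P.ρ (γ • q).out v := by
      intro q
      obtain ⟨h, hh⟩ := QuotientGroup.mk_out_eq_mul H (γ * q.out)
      have hq : ((γ * q.out : Γ) : Γ ⧸ H) = γ • q := by
        conv_rhs => rw [← QuotientGroup.out_eq' q]
        rfl
      rw [← hq, hh, map_mul, map_mul, Module.End.mul_apply, Module.End.mul_apply, hP h.1 h.2]
    rw [Finset.sum_congr rfl (fun q _ => h1 q)]
    exact Equiv.sum_comp (MulAction.toPerm γ : Γ ⧸ H ≃ Γ ⧸ H) (fun q => P.ρ q.out v)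
  · unfold Representation.norm
    rw [LinearMap.sum_apply, ← Equiv.sum_comp (outMulEquiv H) (fun g => P.ρ g v),
      Fintype.sum_prod_type, Finset.smul_sum]
    refine Finset.sum_congr rfl fun q _ => ?_
    have h2 : ∀ h : H, P.ρ (outMulEquiv H (q, h)) v = P.ρ q.out v := by
      intro h
      rw [outMulEquiv_apply, map_mul, Module.End.mul_apply, hP h.1 h.2]
    rw [Finset.sum_congr rfl (fun h _ => h2 h), Finset.sum_const, Finset.card_univ,
      Nat.card_eq_fintype_card]

/-- `|U₀ / V| = [U₀ : V]`. -/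
lemma card_layerSub (U₀ V : Subgroup G) [V.Normal] :
    Nat.card (layerSub U₀ V) = V.relIndex U₀ := by
  have h1 : V = (⊥ : Subgroup (G ⧸ V)).comap (QuotientGroup.mk' V) := by
    rw [MonoidHom.comap_bot, QuotientGroup.ker_mk']
  conv_rhs => rw [h1, Subgroup.relIndex_comap, Subgroup.relIndex_bot_left]

end Norm

section Inj

variable [IsDomain k] [IsPrincipalIdealRing k] [CharZero k] {𝒰 : Levels G} {C : Rep.{0} k G}
  (hR : AddHomsLinear k) (cf : ClassFormation 𝒰 C)
  (B : Rep.{0} k G) [Module.Free k B.V] [Module.Finite k B.V]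

include hR cf in
/-- **(TN-20) injectivity on a layer**, transported to `Hom(B, C)^U`: a class of
`H²(G ⧸ U, Hom(B, C)^U)` all of whose evaluations at the invariant elements of `B` vanish is
zero. -/
theorem layer_class_eq_zero (U : Subgroup G) [U.Normal] (hU : U ∈ 𝒰.sets) [Fintype (G ⧸ U)]
    (hB : ∀ u ∈ U, ∀ b : B.V, B.ρ u b = b)
    (y : groupCohomology ((homRep B C).quotientToInvariants U) 2)
    (hy : ∀ (b : B.V) (hb : ∀ g : G, B.ρ g b = b),
      (layerCohMap (HomSplit.evHom B C b hb) U 2).hom y = 0) : y = 0 := by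
  have := free_layer U B hB
  have := finite_layer U B hB
  have h : NT.NTHyp (B.quotientToInvariants U) (C.quotientToInvariants U) (cf.φ U hU) :=
    ntSupply_of_pid hR (G ⧸ U) _ _ (cf.isClassModule U hU) _ inferInstance inferInstance
  have hz : (groupCohomology.map (MonoidHom.id (G ⧸ U)) (layerHomInv B C U hB) 2).hom y = 0 := by
    refine TN20.tn20_injective (B.quotientToInvariants U) (C.quotientToInvariants U) (cf.φ U hU)
      h.hR1 h.hE2 h.hord h.LD1 _ (fun r hr => ?_)
    rw [← LinearMap.comp_apply, ← ModuleCat.hom_comp, ← groupCohomology.map_id_comp,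
      layerHomInv_evHom B C U hB r hr]
    exact hy r.1 (invariant_of_layer B U r hr)
  have h2 := congrArg (groupCohomology.map (MonoidHom.id (G ⧸ U)) (layerHom B C U hB) 2).hom hz
  rw [map_zero, ← LinearMap.comp_apply, ← ModuleCat.hom_comp, ← groupCohomology.map_id_comp] at h2
  have h3 : layerHomInv B C U hB ≫ layerHom B C U hB = 𝟙 _ := (layerHomIso B C U hB).inv_hom_id
  rw [h3, groupCohomology.map_id] at h2
  exact h2

include hR cf in
/-- **(TN-20) injectivity in the limit** (`tnc20_injective`): for a lattice `B` on which a level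
acts trivially, a class of `H²_LC(G, Hom(B, C))` all of whose evaluations at the invariant elements
of `B` vanish is zero. -/
theorem tnc20_injective (U₀ : Subgroup G) (hU₀ : U₀ ∈ 𝒰.sets)
    (hB : ∀ u ∈ U₀, ∀ b : B.V, B.ρ u b = b) (x : H 𝒰 (homRep B C) 2)
    (hx : ∀ (b : B.V) (hb : ∀ g : G, B.ρ g b = b),
      mapId (𝒰 := 𝒰) (HomSplit.evHom B C b hb) 2 x = 0) : x = 0 := by
  obtain ⟨U₁, hU₁n, hU₁, y₁, rfl⟩ := exists_infl_eq 𝒰 (homRep B C) x
  obtain ⟨W, hW, hWle⟩ := 𝒰.directed U₁ hU₁ U₀ hU₀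
  have hWn := 𝒰.normal W hW
  have hWU₁ : W ≤ U₁ := hWle.trans inf_le_left
  have hWU₀ : W ≤ U₀ := hWle.trans inf_le_right
  have hfi : W.FiniteIndex := cf.finiteIndex W hW
  have : Finite (G ⧸ W) := Subgroup.finite_quotient_of_finiteIndex
  let _ : Fintype (G ⧸ W) := Fintype.ofFinite _
  rw [← inflFin_infl_apply (homRep B C) 𝒰 U₁ W hWU₁ hU₁ hW 2 y₁] at hx ⊢
  set y := (inflFin (homRep B C) U₁ W hWU₁ 2).hom y₁ with hy
  have hy0 : y = 0 := by
    refine layer_class_eq_zero hR cf B W hW (fun u hu b => hB u (hWU₀ hu) b) y (fun b hb => ?_)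
    apply cf.infl_two_injective W hW
    rw [map_zero]
    have h1 := infl_mapId 𝒰 (HomSplit.evHom B C b hb) W hW 2 y
    exact h1.symm.trans (hx b hb)
  rw [hy0, map_zero]

end Inj

section Eval

variable (𝒰 : Levels G) (B C : Rep.{0} k G)

/-- Evaluation at the invariant elements of `B`, additively in the element. -/
def evAdd : B.ρ.invariants →+ (homRep B C ⟶ C) where
  toFun b := HomSplit.evHom B C b.1 b.2
  map_zero' := by
    ext f
    exact map_zero (toLin f)
  map_add' a b := by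
    ext f
    exact map_add (toLin f) a.1 b.1

lemma evAdd_apply (b : B.ρ.invariants) : evAdd B C b = HomSplit.evHom B C b.1 b.2 := rfl

/-- **The (TN-20) evaluation map** `H²(G, Hom(B, C)) → Hom(B^G, H²(G, C))`,
`x ↦ (b ↦ (ev_b)_* x)`. -/
def evMap : H 𝒰 (homRep B C) 2 →+ (B.ρ.invariants →+ H 𝒰 C 2) :=
  ((Fermat.Agent.CFT.D.push 𝒰 (homRep B C) C 2).comp (evAdd B C)).flip

lemma evMap_apply (x : H 𝒰 (homRep B C) 2) (b : B.ρ.invariants) :
    evMap 𝒰 B C x b = mapId (𝒰 := 𝒰) (HomSplit.evHom B C b.1 b.2) 2 x := rfl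

end Eval

section Torsion

variable [IsDomain k] [IsPrincipalIdealRing k] [CharZero k] {𝒰 : Levels G} {C : Rep.{0} k G}
  (hR : AddHomsLinear k) (cf : ClassFormation 𝒰 C)
  (B : Rep.{0} k G) [Module.Free k B.V] [Module.Finite k B.V]

include hR cf in
/-- **(TN-20) surjectivity at a level**, in the limit: an additive map
`f : B^G → H²(G ⧸ U, C^U)` killing the norms `N_{G/U} B` is realized, after inflation, by a class of
`H²_LC(G, Hom(B, C))`. -/
theorem tnc20_surjective_level (U : Subgroup G) [U.Normal] (hU : U ∈ 𝒰.sets) [Fintype (G ⧸ U)]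
    (hB : ∀ u ∈ U, ∀ b : B.V, B.ρ u b = b)
    (f : B.ρ.invariants →+ groupCohomology (C.quotientToInvariants U) 2)
    (hf : ∀ (v : (B.quotientToInvariants U).V) (n : B.V) (hn : ∀ g : G, B.ρ g n = n),
      n = ((B.quotientToInvariants U).ρ.norm v).1 → f ⟨n, hn⟩ = 0) :
    ∃ x : H 𝒰 (homRep B C) 2, ∀ (b : B.V) (hb : ∀ g : G, B.ρ g b = b),
      mapId (𝒰 := 𝒰) (HomSplit.evHom B C b hb) 2 x = infl 𝒰 C U hU 2 (f ⟨b, hb⟩) := by
  obtain ⟨y, hy⟩ := exists_layer_class hR cf B U hU hB f hf
  refine ⟨infl 𝒰 (homRep B C) U hU 2 y, fun b hb => ?_⟩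
  have h1 := infl_mapId 𝒰 (HomSplit.evHom B C b hb) U hU 2 y
  rw [hy b hb] at h1
  exact h1

include hR cf in
/-- **(TN-20) surjectivity on torsion**: if `U₀` acts trivially on the lattice `B` and `V ≤ U₀` is
a level with `m ∣ [U₀ : V]`, every additive map `f : B^G → H²_LC(G, C)` with `m • f = 0` is the
evaluation map of a class inflated from the level `V`. -/
theorem tnc20_surjective_torsion (m : ℕ) (hm0 : m ≠ 0) (U₀ : Subgroup G)
    (hB : ∀ u ∈ U₀, ∀ b : B.V, B.ρ u b = b)
    (V : Subgroup G) [V.Normal] (hV : V ∈ 𝒰.sets) (hle : V ≤ U₀) (hdvd : m ∣ V.relIndex U₀)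
    (f : B.ρ.invariants →+ H 𝒰 C 2) (hf : ∀ b, m • f b = 0) :
    ∃ y : groupCohomology ((homRep B C).quotientToInvariants V) 2,
      ∀ (b : B.V) (hb : ∀ g : G, B.ρ g b = b),
        mapId (𝒰 := 𝒰) (HomSplit.evHom B C b hb) 2 (infl 𝒰 (homRep B C) V hV 2 y) =
          f ⟨b, hb⟩ := by
  classical
  have hfi : V.FiniteIndex := cf.finiteIndex V hV
  have : Finite (G ⧸ V) := Subgroup.finite_quotient_of_finiteIndex
  let _ : Fintype (G ⧸ V) := Fintype.ofFinite _
  have hBV : ∀ u ∈ V, ∀ b : B.V, B.ρ u b = b := fun u hu b => hB u (hle hu) b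
  have hmk : (m : k) ≠ 0 := by exact_mod_cast hm0
  obtain ⟨c, hc⟩ := hdvd
  have hdvdk : (m : k) ∣ ((Nat.card (G ⧸ V) : ℕ) : k) := by
    have h1 : Nat.card (G ⧸ V) = V.relIndex U₀ * U₀.index := by
      rw [← Subgroup.index_eq_card]
      exact (Subgroup.relIndex_mul_index hle).symm
    rw [h1, hc]
    push_cast
    exact ⟨(c : k) * (U₀.index : k), by ring⟩
  -- descend `f` to the level `V`
  have hex : ∀ b : B.ρ.invariants, ∃ y' : groupCohomology (C.quotientToInvariants V) 2,
      (infl 𝒰 C V hV 2).hom y' = f b := fun b =>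
    exists_infl_eq_of_smul_eq_zero cf (m : k) hmk V hV hdvdk (f b) (by
      rw [Nat.cast_smul_eq_nsmul]
      exact hf b)
  choose f₀ hf₀ using hex
  have hinj := cf.infl_two_injective V hV
  let f' : B.ρ.invariants →+ groupCohomology (C.quotientToInvariants V) 2 :=
    { toFun := f₀
      map_zero' := hinj (by rw [hf₀, map_zero, map_zero])
      map_add' := fun a b => hinj (by simp only [hf₀, map_add]) }
  have hf'₀ : ∀ b, f' b = f₀ b := fun _ => rfl
  -- `f'` kills the norms
  have hf' : ∀ (v : (B.quotientToInvariants V).V) (n : B.V) (hn : ∀ g : G, B.ρ g n = n),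
      n = ((B.quotientToInvariants V).ρ.norm v).1 → f' ⟨n, hn⟩ = 0 := by
    intro v n hn hnv
    apply hinj
    rw [hf'₀, hf₀, map_zero]
    obtain ⟨s, hs, hnorm⟩ := exists_norm_eq_card_smul (B.quotientToInvariants V)
      (layerSub U₀ V) (by
        rintro h ⟨u, hu, rfl⟩ x
        exact Subtype.ext (hB u hu x.1)) v
    have hs' : ∀ g : G, B.ρ g s.1 = s.1 := invariant_of_layer B V s hs
    have e : (⟨n, hn⟩ : B.ρ.invariants) = (Nat.card (layerSub U₀ V)) • ⟨s.1, hs'⟩ := by
      apply Subtype.ext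
      have h2 : ((B.quotientToInvariants V).ρ.norm v).1 = Nat.card (layerSub U₀ V) • s.1 := by
        rw [hnorm]
        rfl
      exact hnv.trans h2
    rw [e, map_nsmul, card_layerSub, hc, mul_comm, mul_smul, hf, smul_zero]
  obtain ⟨y, hy⟩ := exists_layer_class hR cf B V hV hBV f' hf'
  refine ⟨y, fun b hb => ?_⟩
  have h1 := infl_mapId 𝒰 (HomSplit.evHom B C b hb) V hV 2 y
  rw [hy b hb, hf'₀, hf₀] at h1
  exact h1

include hR cf in
/-- **(InflSurj)**: if `U₀` acts trivially on the lattice `B` and `V ≤ U₀` is a level with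
`m ∣ [U₀ : V]`, every class `x ∈ H²_LC(G, Hom(B, C))` with `m • x = 0` is inflated from the level
`V`. -/
theorem inflSurj (m : ℕ) (hm0 : m ≠ 0) (U₀ : Subgroup G)
    (hB : ∀ u ∈ U₀, ∀ b : B.V, B.ρ u b = b)
    (V : Subgroup G) [V.Normal] (hV : V ∈ 𝒰.sets) (hle : V ≤ U₀) (hdvd : m ∣ V.relIndex U₀)
    (x : H 𝒰 (homRep B C) 2) (hx : m • x = 0) :
    ∃ y : groupCohomology ((homRep B C).quotientToInvariants V) 2,
      infl 𝒰 (homRep B C) V hV 2 y = x := by
  obtain ⟨y, hy⟩ := tnc20_surjective_torsion hR cf B m hm0 U₀ hB V hV hle hdvd (evMap 𝒰 B C x)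
    (fun b => by
      rw [← AddMonoidHom.nsmul_apply, ← map_nsmul, hx, map_zero]
      rfl)
  refine ⟨y, sub_eq_zero.1 (tnc20_injective hR cf B V hV (fun u hu b => hB u (hle hu) b) _
    fun b hb => ?_)⟩
  rw [map_sub, hy b hb]
  exact sub_self _

/-! ### The exports, in the literal shapes of their consumers -/

include hR cf in
/-- **(InflSurj)**, literal shape of `Tail/LocSurj` (helper4): `p`-torsion classes of
`H²_LC(G, Hom(B, C))` are inflated from every level `V ≤ V₀` with `p ∣ [V₀ : V]`. -/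
theorem exists_infl_eq_of_torsion (p : ℕ) [Fact p.Prime] (V₀ V : Subgroup G) [V₀.Normal]
    [V.Normal] (_hV₀ : V₀ ∈ 𝒰.sets) (hV : V ∈ 𝒰.sets) (hle : V ≤ V₀)
    (hB : ∀ v ∈ V₀, ∀ b : B.V, B.ρ v b = b) (hp : p ∣ V.relIndex V₀)
    (y : H 𝒰 (homRep B C) 2) (hy : (p : k) • y = 0) :
    ∃ z : groupCohomology ((homRep B C).quotientToInvariants V) 2,
      (infl 𝒰 (homRep B C) V hV 2).hom z = y :=
  inflSurj hR cf B p (Fact.out : p.Prime).ne_zero V₀ hB V hV hle hp y (by
    rw [← Nat.cast_smul_eq_nsmul k]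
    exact hy)

include hR cf in
/-- **(TN-20) existence in the limit**, literal shape of `LocalH2` / `Pairing/RealizeLoc`
(helper23): if `p` divides relative indices cofinally, every additive `f : B^G → H²_LC(G, C)`
with `p • f = 0` is the evaluation map of a class of `H²_LC(G, Hom(B, C))`. -/
theorem exists_class_of_functional (p : ℕ) [Fact p.Prime] (V₀ : Subgroup G) (hV₀ : V₀ ∈ 𝒰.sets)
    (hB : ∀ v ∈ V₀, ∀ b : B.V, B.ρ v b = b)
    (hdiv : ∀ V₀ ∈ 𝒰.sets, ∃ V ∈ 𝒰.sets, V ≤ V₀ ∧ p ∣ V.relIndex V₀)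
    (f : B.ρ.invariants →+ H 𝒰 C 2) (hf : ∀ b, p • f b = 0) :
    ∃ x : H 𝒰 (homRep B C) 2, ∀ (b : B.V) (hb : ∀ g : G, B.ρ g b = b),
      (mapId (𝒰 := 𝒰) (HomSplit.evHom B C b hb) 2).hom x = f ⟨b, hb⟩ := by
  obtain ⟨V, hV, hle, hp⟩ := hdiv V₀ hV₀
  have hVn := 𝒰.normal V hV
  obtain ⟨y, hy⟩ := tnc20_surjective_torsion hR cf B p (Fact.out : p.Prime).ne_zero V₀ hB V hV hle
    hp f hf
  exact ⟨infl 𝒰 (homRep B C) V hV 2 y, hy⟩

end Torsion

end Fermat.Agent.S56.Base.TNLC
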