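/-
PROJECT T (S56), block (a1-II) Base (chief helper8): THE TERM `g : GlobalInputs p S`.

`CFT/D/Datum/Build.GlobalInputs p S` has three fields; all three are theorems of PROJECT C for
`p ≠ 2`, `p ∈ S`:

* `cf`   : `C7/GlobalClassFormation.globalCF`,
* `supp` : `D/SuppClassK.supp`,
* `n3`   : `C7/F2Final.n3_Zp_of_cf`.

`globalInputs p S hp2 hpS` packs them, so that every consumer of `theDatum hpS g` in `S56/Base`
uses the SAME term.
-/
import Fermat.Agent.CFT.D.Datum.Build
import Fermat.Agent.CFT.C7.GlobalClassFormation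
import Fermat.Agent.CFT.C7.F2Final
import Fermat.Agent.CFT.D.SuppClassK

set_option autoImplicit false

namespace Fermat.Agent.S56.Base.GlobalIn

open ExtCitation Fermat.Agent.CFT.D.DatumBuild Fermat.Agent.CFT.D.ZpModel

/-- **the global inputs of Poitou–Tate duality for `G_{ℚ,S}`**, `p ≠ 2`, `p ∈ S` -/
noncomputable def globalInputs (p : ℕ) [Fact p.Prime] (S : Finset Nat.Primes) (hp2 : p ≠ 2)
    (hpS : pPrime p ∈ S) : GlobalInputs p S where
  cf := Fermat.Agent.CFT.C7.GlobalClassFormation.globalCF p S hp2 ⟨_, hpS⟩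
  supp := Fermat.Agent.CFT.D.SuppClassK.supp S p hp2 hpS
    (Fermat.Agent.CFT.C7.GlobalClassFormation.globalCF p S hp2 ⟨_, hpS⟩)
  n3 := Fermat.Agent.CFT.C7.F2Final.n3_Zp_of_cf p S hp2 hpS
    (Fermat.Agent.CFT.C7.GlobalClassFormation.globalCF p S hp2 ⟨_, hpS⟩)

end Fermat.Agent.S56.Base.GlobalIn
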