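/-
PROJECT T (S56), block (a1-II) `S56/Base` (chief helper8): THE POITOU–TATE COUNT `|Ш¹(A)| = |Ш²(Hom(A, E))|`
FROM THE ARITHMETIC DATUM, in cardinalities.

`D/Assemble.card_sha1_eq_card_sha2loc` with all its hypotheses discharged from a `D.Main.Datum`
exactly as in `D/Main.result_of_datum`; the finiteness of `Hom_G(R, C) ⧸ W` comes from
`D/RealizeFinite.finite_quotient_subW_of_classFormation`, for a coefficient ring whose quotients
by non-zero integers are finite (`finite_quotient_span_natCast` for `ℤ_(p)`).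

* `finite_quotient_span_natCast` : `ℤ_(p) ⧸ (n)` is finite for `n ≠ 0`;
* `card_sha1_eq_card_sha2loc_of_datum` : `Ш¹(A)` is finite and `|Ш¹(A)| = |Ш²_loc(Hom(A, E))|`.
-/
import Fermat.Agent.CFT.D.Main
import Fermat.Agent.CFT.D.RealizeFinite
import Fermat.Agent.CFT.D.NTGlueA
import Fermat.Agent.CFT.D.ZpModel

set_option autoImplicit false

namespace Fermat.Agent.S56.Base.ShaCount

open CategoryTheory groupCohomology ExtCitation
open Fermat.Agent.CFT.LC Fermat.Agent.CFT.LC.El Fermat.Agent.CFT.Bridge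
open Fermat.Agent.CFT.D Fermat.Agent.CFT.D.Main
open Fermat.Agent.CFT.D.CoeffChange Fermat.Agent.CFT.D.DualTwist Fermat.Agent.CFT.A7.HomRep
open Fermat.Agent.CFT.D.Reduce Fermat.Agent.CFT.D.Realize Fermat.Agent.CFT.A7
open Fermat.Agent.CFT.A5 Fermat.Agent.CFT.D.ZpModel

/-! ### `ℤ_(p) ⧸ (n)` is finite -/

section ZpFinite

variable (p : ℕ) [hp : Fact p.Prime]

/-- every element of `ℤ_(p)` is congruent to an integer modulo `p ^ v` -/
theorem exists_int_sub_mem (v : ℕ) (x : Zp p) :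
    ∃ a : ℤ, x - algebraMap ℤ (Zp p) a ∈ Ideal.span {((p : Zp p)) ^ v} := by
  obtain ⟨m, s, hs, hxs⟩ := exists_int_mul_unit p x
  have hcop : IsCoprime s ((p : ℤ) ^ v) := (isCoprime_of_mem_primeTo p s hs).pow_right
  obtain ⟨t, u, htu⟩ := hcop
  refine ⟨m * t, ?_⟩
  rw [Ideal.mem_span_singleton]
  refine ⟨algebraMap ℤ (Zp p) u * x, ?_⟩
  have h1 : (algebraMap ℤ (Zp p) t) * (algebraMap ℤ (Zp p) s) +
      (algebraMap ℤ (Zp p) u) * ((p : Zp p)) ^ v = 1 := by
    have := congrArg (algebraMap ℤ (Zp p)) htu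
    rw [map_add, map_mul, map_mul, map_pow, map_natCast, map_one] at this
    exact this
  rw [map_mul, ← hxs]
  calc x - x * algebraMap ℤ (Zp p) s * algebraMap ℤ (Zp p) t
      = x * (1 - algebraMap ℤ (Zp p) t * algebraMap ℤ (Zp p) s) := by ring
    _ = x * (algebraMap ℤ (Zp p) u * (p : Zp p) ^ v) := by rw [← h1]; ring
    _ = (p : Zp p) ^ v * (algebraMap ℤ (Zp p) u * x) := by ring

/-- `ℤ_(p) ⧸ (n)` is finite for a non-zero natural number `n`. -/
theorem finite_quotient_span_natCast (n : ℕ) (hn : n ≠ 0) :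
    Finite (Zp p ⧸ Ideal.span {(n : Zp p)}) := by
  -- `n = p ^ v * m` with `m` prime to `p`
  obtain ⟨v, m, hm, rfl⟩ := Nat.exists_eq_pow_mul_and_not_dvd hn p hp.out.ne_one
  have hmu : IsUnit (m : Zp p) :=
    isUnit_natCast_of_coprime p m ((Nat.Prime.coprime_iff_not_dvd hp.out).2 hm).symm
  have hI : Ideal.span {((p ^ v * m : ℕ) : Zp p)} = Ideal.span {((p : Zp p)) ^ v} := by
    rw [Nat.cast_mul, Nat.cast_pow]
    exact Ideal.span_singleton_mul_right_unit hmu _
  rw [hI]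
  have hpv : 0 < p ^ v := Nat.pos_of_ne_zero (pow_ne_zero v hp.out.ne_zero)
  haveI : NeZero (p ^ v) := ⟨hpv.ne'⟩
  let f : Fin (p ^ v) → Zp p ⧸ Ideal.span {((p : Zp p)) ^ v} :=
    fun i => Ideal.Quotient.mk _ (algebraMap ℤ (Zp p) (i.1 : ℤ))
  refine Finite.of_surjective f fun y => ?_
  obtain ⟨x, rfl⟩ := Ideal.Quotient.mk_surjective y
  obtain ⟨a, ha⟩ := exists_int_sub_mem p v x
  have hmod : (0 : ℤ) ≤ a % ((p ^ v : ℕ) : ℤ) := Int.emod_nonneg _ (by exact_mod_cast hpv.ne')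
  have hlt : a % ((p ^ v : ℕ) : ℤ) < ((p ^ v : ℕ) : ℤ) := Int.emod_lt_of_pos _ (by exact_mod_cast hpv)
  refine ⟨⟨(a % ((p ^ v : ℕ) : ℤ)).toNat, ?_⟩, ?_⟩
  · have := (Int.toNat_lt hmod).2 hlt
    exact this
  · show Ideal.Quotient.mk _ (algebraMap ℤ (Zp p) (((a % ((p ^ v : ℕ) : ℤ)).toNat : ℕ) : ℤ)) =
      Ideal.Quotient.mk _ x
    rw [Int.toNat_of_nonneg hmod, Ideal.Quotient.eq]
    have h2 : algebraMap ℤ (Zp p) (a % ((p ^ v : ℕ) : ℤ)) - x =
        -(x - algebraMap ℤ (Zp p) a) -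
          algebraMap ℤ (Zp p) (((p ^ v : ℕ) : ℤ) * (a / ((p ^ v : ℕ) : ℤ))) := by
      have h3 : a % ((p ^ v : ℕ) : ℤ) = a - ((p ^ v : ℕ) : ℤ) * (a / ((p ^ v : ℕ) : ℤ)) := by
        rw [Int.emod_def]
      rw [h3, map_sub]
      ring
    rw [h2]
    refine Ideal.sub_mem _ (neg_mem ha) ?_
    rw [map_mul, Ideal.mem_span_singleton]
    refine ⟨algebraMap ℤ (Zp p) (a / ((p ^ v : ℕ) : ℤ)), ?_⟩
    rw [map_natCast, Nat.cast_pow]

end ZpFinite

/-! ### The count from the datum -/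

section Main

variable {p : ℕ} [Fact p.Prime] (S : Finset Nat.Primes) {k : Type} [CommRing k] [IsDomain k]
  [IsPrincipalIdealRing k] [CharZero k] (φ : k →+* ZMod p)

/-- **`|Ш¹(A)| = |Ш²_loc(Hom(A, E))|`, both finite**, for a finite smooth module `A` killed by
`p`, from the arithmetic datum. -/
theorem card_sha1_eq_card_sha2loc_of_datum (hR : AddHomsLinear k) (dat : Datum S φ)
    (hfink : ∀ n : ℕ, n ≠ 0 → Finite (k ⧸ Ideal.span {(n : k)}))
    (A : Rep.{0} k GQ) [Finite A.V] (smA : IsSmooth (levelsS S) A)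
    (hpA : ∀ a : A.V, ((p : ℕ) : k) • a = 0) :
    Finite (sha1 (rv S) (hrv S) A) ∧
      Nat.card (sha1 (rv S) (hrv S) A) =
        Nat.card (sha2loc (SA := Resolution.SA A) (rv S) (hrv S) dat.π) := by
  classical
  have hp : p.Prime := Fact.out
  -- the resolution
  have hprojR : Module.Projective k (Resolution.RA A).V := Resolution.projective_RA A
  have hfreeR : Module.Free k (Resolution.RA A).V := Resolution.free_RA A
  have hfinR : Module.Finite k (Resolution.RA A).V := Resolution.finite_RA A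
  have hprojR' : Module.Projective k (Resolution.SA A).X₁.V := hprojR
  have hfreeR' : Module.Free k (Resolution.SA A).X₁.V := hfreeR
  have hfinR' : Module.Finite k (Resolution.SA A).X₁.V := hfinR
  have hfinF' : Module.Finite k (Resolution.SA A).X₂.V :=
    inferInstanceAs (Module.Finite k (Resolution.FA A).V)
  have hfreeF' : Module.Free k (Resolution.SA A).X₂.V :=
    inferInstanceAs (Module.Free k (Resolution.FA A).V)
  have smF : IsSmooth (levelsS S) (Resolution.SA A).X₂ := Resolution.isSmooth_FA A smA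
  have smR : IsSmooth (levelsS S) (Resolution.SA A).X₁ := Resolution.isSmooth_RA A smA
  have hSA : (Resolution.SA A).ShortExact := Resolution.SA_shortExact A
  have hpF : ∀ v : (Resolution.SA A).X₂.V, ∃ w : (Resolution.SA A).X₁.V,
      (Resolution.SA A).f.hom w = ((p : ℕ) : k) • v :=
    Resolution.exists_incl_eq_smul A ((p : ℕ) : k) hpA
  have hpF' : ∀ v : (Resolution.SA A).X₂.V, ∃ w : (Resolution.SA A).X₁.V,
      (Resolution.SA A).f.hom w = p • v := fun v => by
    obtain ⟨w, hw⟩ := hpF v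
    exact ⟨w, by rw [hw, Nat.cast_smul_eq_nsmul]⟩
  -- a level acting trivially on `F` and `R`
  obtain ⟨U₀, hU₀, hFtriv⟩ := PermH1.exists_level_trivial (Resolution.basisFA A)
    (Resolution.FA_ρ_basis A) (levelsS S) (Resolution.isOpen_stabilizer A smA)
  have hRtriv : ∀ u ∈ U₀, ∀ b : (Resolution.RA A).V, (Resolution.RA A).ρ u b = b :=
    fun u hu b => Subtype.ext (hFtriv u hu b.1)
  -- the rows and columns
  have hSF : (SFof (Resolution.SA A) dat.SES).ShortExact := Resolution.SF_shortExact dat.exact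
  have hSR : (SRof (Resolution.SA A) dat.SES).ShortExact := Resolution.SR_shortExact dat.exact
  have hSE : (homSC (Resolution.SA A) dat.SES.X₁).ShortExact :=
    homSC_shortExact_of_divisible (S := Resolution.SA A) hSA ((p : ℕ) : k) hpF dat.SES.X₁
      dat.divE
  have smFJ : IsSmooth (levelsS S) (homRep (Resolution.SA A).X₂ dat.SES.X₂) :=
    isSmooth_homRep smF dat.smJ
  have smRJ : IsSmooth (levelsS S) (homRep (Resolution.SA A).X₁ dat.SES.X₂) :=
    isSmooth_homRep smR dat.smJ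
  have smFE : IsSmooth (levelsS S) (homRep (Resolution.SA A).X₂ dat.SES.X₁) :=
    isSmooth_homRep smF dat.smE
  -- the local rows
  have hSv : ∀ q, (Svof (Resolution.SA A) (rv S) dat.Dloc q).ShortExact := fun q =>
    LocalRow.Sv_shortExact (rv S q) (dat.Dloc q) hSA ((p : ℕ) : k) hpA (dat.divD q)
  have smv : ∀ q, IsSmooth (Uv S q)
      (homRep (Rep.res (rv S q) (Resolution.SA A).X₂) (dat.Dloc q)) := fun q => by
    have : Module.Finite k (Rep.res (rv S q) (Resolution.SA A).X₂).V :=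
      inferInstanceAs (Module.Finite k (Resolution.FA A).V)
    exact isSmooth_homRep (IsSmooth.res_of_continuous (hrv S q) smF) (dat.smD q)
  -- vanishing of `H¹`
  have h1 : ∀ x : H (levelsS S) (homRep (Resolution.SA A).X₂ dat.SES.X₃) 1, x = 0 := fun x =>
    eq_zero_of_isZero (Resolution.isZero_H_homRep_FA' A smA dat.SES.X₃ dat.smC 1
      (fun V hV => dat.cf.isZero_H1_restrict V hV)) x
  have h3 : ∀ q, ∀ x : H (Uv S q)
      (homRep (Rep.res (rv S q) (Resolution.SA A).X₂) (dat.Dloc q)) 1, x = 0 := fun q x =>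
    eq_zero_of_isZero (Resolution.isZero_H_homRep_res_FA A (rv S q) (hrv S q) smA (dat.Dloc q)
      (dat.smD q) 1 (fun V hV => (dat.cfD q).isZero_H1_restrict V hV)) x
  have h2 : ∀ x : H (levelsS S) (homRep (Resolution.SA A).X₂ dat.SES.X₂) 1, x = 0 := fun x =>
    dat.h4_one (Resolution.FA A) ⟨U₀, hU₀, hFtriv⟩ x (fun q => h3 q _)
  have h4a := dat.h4_two (Resolution.FA A) ⟨U₀, hU₀, hFtriv⟩
  have h4b := dat.h4_one (Resolution.RA A) ⟨U₀, hU₀, hRtriv⟩
  -- THEOREM II inputs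
  have hF1 : ∀ x : H (levelsS S) (Resolution.SA A).X₂ 1, x = 0 := fun x =>
    Resolution.eq_zero_of_H1_FA A smA x
  have hF1v : ∀ q, ∀ x : H (Uv S q) (Rep.res (rv S q) (Resolution.SA A).X₂) 1, x = 0 :=
    fun q x => Resolution.eq_zero_of_H1_res_FA A (rv S q) (hrv S q) smA x
  have hc : ∀ y : H (levelsS S) (Resolution.SA A).X₂ 2,
      (∀ ψ : (Resolution.SA A).X₂ ⟶ dat.SES.X₃, mapId ψ 2 y = 0) → y = 0 := fun y hy =>
    dat.cf.eq_zero_of_forall_mapId_eq_zero U₀ hU₀ hFtriv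
      (NTGlue.ntb_of_pid hR dat.cf U₀ (Resolution.FA A) hFtriv) y hy
  have hf : ∀ x : H (levelsS S) (Resolution.SA A).X₁ 2,
      (∀ ψ : (Resolution.SA A).X₁ ⟶ dat.SES.X₃, mapId ψ 2 x = 0) → x = 0 := fun x hx =>
    dat.cf.eq_zero_of_forall_mapId_eq_zero U₀ hU₀ hRtriv
      (NTGlue.ntb_of_pid hR dat.cf U₀ (Resolution.RA A) hRtriv) x hx
  have hLG : LocalGlobal (SA := Resolution.SA A) (rv S) (hrv S) dat.SES.g dat.π :=
    { supp := dat.supp
      inj := dat.inj
      frob := fun q χ => dat.frob (Resolution.RA A) smR q χ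
      locNondeg := fun q z hz => by
        have hfree : Module.Free k (Rep.res (rv S q) (Resolution.RA A)).V := hfreeR
        have hfin : Module.Finite k (Rep.res (rv S q) (Resolution.RA A)).V := hfinR
        have hmem : U₀.comap (rv S q) ∈ (Uv S q).sets :=
          Levels.mem_comap_sets (mem_levelsAll_of_mem_levelsS S hU₀)
        have htriv : ∀ u ∈ U₀.comap (rv S q), ∀ b : (Rep.res (rv S q) (Resolution.RA A)).V,
            (Rep.res (rv S q) (Resolution.RA A)).ρ u b = b := fun u hu b => hRtriv _ hu b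
        exact (dat.cfD q).eq_zero_of_forall_mapId_eq_zero _ hmem htriv
          (NTGlue.ntb_of_pid hR (dat.cfD q) _ (Rep.res (rv S q) (Resolution.RA A)) htriv)
          z hz }
  -- realisability
  obtain ⟨U', hU'n, hU', hle, hdvd, hN3⟩ := dat.n3 U₀ hU₀
  have hfi : U'.FiniteIndex := dat.cf.finiteIndex U' hU'
  have hfq : Finite (GQ ⧸ U') := Subgroup.finite_quotient_of_finiteIndex
  let _ : Fintype (GQ ⧸ U') := Fintype.ofFinite _
  let _ : Fintype (layerSub U₀ U') := Fintype.ofFinite _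
  have hRtriv' : ∀ u ∈ U', ∀ b : (Resolution.RA A).V, (Resolution.RA A).ρ u b = b :=
    fun u hu b => hRtriv u (hle hu) b
  have hg := hg_of_N3_of_NTc hSA dat.SES.g dat.cf p hp.ne_zero hpF U₀ U' hU' hle hRtriv hdvd hN3
    (NTGlue.ntc_of_pid hR dat.cf U' hU' (Resolution.RA A) hRtriv')
  -- finiteness of `Hom_G(R, C) ⧸ W`
  have hfinq : Finite (k ⧸ Ideal.span {((Nat.card (GQ ⧸ U') : ℕ) : k)}) :=
    hfink _ Nat.card_pos.ne'
  have hQ : Finite (((Resolution.SA A).X₁ ⟶ dat.SES.X₃) ⧸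
      subW (Preadditive.leftComp dat.SES.X₃ (Resolution.SA A).f)
        (Preadditive.rightComp (Resolution.SA A).X₁ dat.SES.g)) :=
    finite_quotient_subW_of_classFormation dat.cf hSA dat.SES.g ((p : ℕ) : k) hpF U₀ U' hU' hle
      hRtriv hN3 (NTGlue.nta_of_pid hR dat.cf U' hU' (Resolution.RA A) hRtriv')
  have hcard := card_sha1_eq_card_sha2loc hSA smF hSF hSR hSE smFJ smRJ smFE (rv S) (hrv S) dat.π
    hSv smv h1 h2 h3 h4a h4b hF1 hF1v hc hf hLG hg p hpF' dat.hT
  have hfin1 := finite_sha1 hSA smF (rv S) (hrv S) dat.π hF1 hF1v hc hf hLG hg p hpF' dat.hT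
  exact ⟨hfin1, hcard⟩

end Main

end Fermat.Agent.S56.Base.ShaCount
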