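/-
PROJECT T (S56), block (a1-II) `S56/Base` (chief helper8): THE COUNT OF `H²(G_S, Hom(A, E))`.

If the localisation `H²(G_S, Hom(A, E)) → ∏_q H²(G_q, Hom(A, D_q))` is onto (the export
`tail0` of `S56/Base/Tail`), then, its kernel being `Ш²_loc(Hom(A, E))`, of the same cardinality
as `Ш¹(A)` (`S56/Base/ShaCount`),

  `card H²(G_S, Hom(A, E)) = card Ш¹(A) * ∏_q card H²(G_q, Hom(A, D_q))`.
-/
import Fermat.Agent.S56.Base.ShaCount

set_option autoImplicit false

namespace Fermat.Agent.S56.Base.H2Count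

open CategoryTheory groupCohomology ExtCitation
open Fermat.Agent.CFT.LC Fermat.Agent.CFT.LC.El Fermat.Agent.CFT.Bridge
open Fermat.Agent.CFT.D Fermat.Agent.CFT.D.Main
open Fermat.Agent.CFT.A7.HomRep Fermat.Agent.CFT.D.Reduce Fermat.Agent.CFT.A7
open Fermat.Agent.CFT.A5 Fermat.Agent.S56.Base.ShaCount

variable {p : ℕ} [Fact p.Prime] (S : Finset Nat.Primes) {k : Type} [CommRing k] [IsDomain k]
  [IsPrincipalIdealRing k] [CharZero k] (φ : k →+* ZMod p)

/-- the joint localisation on `H²(G_S, Hom(A, E))` -/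
noncomputable def locAll (dat : Datum S φ) (A : Rep.{0} k GQ) :
    H (levelsS S) (homRep A dat.SES.X₁) 2 →+
      (∀ q : ↥S, H (Uv S q) (Svof (Resolution.SA A) (rv S) dat.Dloc q).X₁ 2) :=
  AddMonoidHom.pi fun q =>
    (map (A := homRep A dat.SES.X₁) (B := (Svof (Resolution.SA A) (rv S) dat.Dloc q).X₁)
      (hrv S q) (locM (Resolution.SA A) (rv S) dat.π q) 2).hom.toAddMonoidHom

lemma locAll_apply (dat : Datum S φ) (A : Rep.{0} k GQ)
    (x : H (levelsS S) (homRep A dat.SES.X₁) 2) (q : ↥S) :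
    locAll S φ dat A x q =
      map (A := homRep A dat.SES.X₁) (B := (Svof (Resolution.SA A) (rv S) dat.Dloc q).X₁)
        (hrv S q) (locM (Resolution.SA A) (rv S) dat.π q) 2 x := rfl

lemma ker_locAll (dat : Datum S φ) (A : Rep.{0} k GQ) :
    (locAll S φ dat A).ker = sha2loc (SA := Resolution.SA A) (rv S) (hrv S) dat.π := by
  ext x
  rw [AddMonoidHom.mem_ker]
  constructor
  · intro h q
    exact congrFun h q
  · intro h
    funext q
    exact h q

/-- **The count of `H²(G_S, Hom(A, E))`.** -/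
theorem card_H2_eq (hR : AddHomsLinear k) (dat : Datum S φ)
    (hfink : ∀ n : ℕ, n ≠ 0 → Finite (k ⧸ Ideal.span {(n : k)}))
    (A : Rep.{0} k GQ) [Finite A.V] (smA : IsSmooth (levelsS S) A)
    (hpA : ∀ a : A.V, ((p : ℕ) : k) • a = 0)
    (hsurj : ∀ z : (∀ q : ↥S, H (Uv S q) (Svof (Resolution.SA A) (rv S) dat.Dloc q).X₁ 2),
      ∃ m : H (levelsS S) (homRep A dat.SES.X₁) 2,
        ∀ q, map (A := homRep A dat.SES.X₁)
          (B := (Svof (Resolution.SA A) (rv S) dat.Dloc q).X₁) (hrv S q)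
          (locM (Resolution.SA A) (rv S) dat.π q) 2 m = z q) :
    Nat.card (H (levelsS S) (homRep A dat.SES.X₁) 2) =
      Nat.card (sha1 (rv S) (hrv S) A) *
        ∏ q : ↥S, Nat.card (H (Uv S q) (Svof (Resolution.SA A) (rv S) dat.Dloc q).X₁ 2) := by
  classical
  have hF : Function.Surjective (locAll S φ dat A) := fun z => by
    obtain ⟨m, hm⟩ := hsurj z
    exact ⟨m, funext fun q => hm q⟩
  have h1 := AddSubgroup.card_eq_card_quotient_mul_card_addSubgroup (locAll S φ dat A).ker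
  rw [Nat.card_congr (QuotientAddGroup.quotientKerEquivOfSurjective _ hF).toEquiv,
    Nat.card_pi, ker_locAll] at h1
  rw [h1, (card_sha1_eq_card_sha2loc_of_datum S φ hR dat hfink A smA hpA).2, Nat.mul_comm]
  congr 1

end Fermat.Agent.S56.Base.H2Count
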