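/-
PROJECT T (S56), block (a1-II) = S56/Base (owner helper23), TN side (helper10):
LOCAL DUALITY IN DEGREE `(2, 0)` for a class formation: `#H²(G, Hom(A, C)) = #H⁰(G, A)`.

`cf : ClassFormation 𝒰 C` over a PID `k` of characteristic zero with `AddHomsLinear` (`k = ℤ_(p)`),
`C` smooth and `p`-divisible, `p` dividing relative indices of levels cofinally (`hdiv`), `A` a
finite smooth representation killed by `p`, `RA → FA → A` its canonical permutation resolution
(`D/Resolution`).  Then the (TN-20) evaluation map of `S56/Base/TNLC`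

  `evMap 𝒰 A C : H²_LC(G, Hom(A, C)) → Hom(A^G, H²_LC(G, C))`,  `x ↦ (a ↦ (ev_a)_* x)`

is bijective:

* `eq_zero_of_mapId_homRes_piA` : `H²(Hom(A, C)) → H²(Hom(FA, C))` is injective
                                  (`H¹(Hom(RA, C)) = 0` by (TN-11), `Tail/TNC.tnc11_zero`);
* `evMap_injective`             : + (TN-20) injectivity for the lattice `FA`;
* `evMap_surjective`            : (TN-20) existence for `FA` (`TNLC.exists_class_of_functional`), the
                                  class dies in `H²(Hom(RA, C))` by (TN-20) injectivity for `RA`;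
* `evEquiv`, `card_H2_homRep_eq`: the count (`#Hom(A^G, H²(C)) = #A^G` since `H²(C)[p]` has `p`
                                  elements, `A7/TorsionP`, `D/Count`);
* `card_H2_hom_Dloc_eq`, `card_H2_hom_eq` : the local Galois groups (`D_q = Q̄_q^× ⊗ ℤ_(p)`,
                                  `D/Datum/Local`), `hdiv` as a hypothesis.
-/
import Fermat.Agent.S56.Base.TNLC
import Fermat.Agent.S56.Base.Tail.TNC
import Fermat.Agent.S56.Base.Tail.H1Res
import Fermat.Agent.CFT.A7.TorsionP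
import Fermat.Agent.CFT.D.Datum.Local

set_option autoImplicit false
set_option linter.unusedSectionVars false

noncomputable section

namespace Fermat.Agent.S56.Base.LocalH2

open CategoryTheory groupCohomology
open Fermat.Agent.CFT.LC Fermat.Agent.CFT.LC.El Fermat.Agent.CFT.A7 Fermat.Agent.CFT.A5
  Fermat.Agent.CFT.A7.HomRep Fermat.Agent.CFT.D Fermat.Agent.S56.Base.TNLC

variable {k G : Type} [CommRing k] [Group G]

section Eval

variable (A C : Rep.{0} k G)

/-- Evaluation at `b ∈ FA^G` after restriction along `FA → A` is evaluation at the image of `b`. -/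
lemma homRes_piA_evHom (b : (Resolution.FA A).V) (hb : ∀ g : G, (Resolution.FA A).ρ g b = b)
    (hb' : ∀ g : G, A.ρ g ((Resolution.piA A).hom b) = (Resolution.piA A).hom b) :
    homRes (Resolution.piA A) C ≫ HomSplit.evHom (Resolution.FA A) C b hb =
      HomSplit.evHom A C ((Resolution.piA A).hom b) hb' := by
  ext φ
  rfl

/-- Evaluation at `r ∈ RA^G` after restriction along `RA → FA` is evaluation at the image of `r`. -/
lemma homRes_incl_evHom (r : (Resolution.RA A).V) (hr : ∀ g : G, (Resolution.RA A).ρ g r = r)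
    (hr' : ∀ g : G, (Resolution.FA A).ρ g ((Resolution.incl A).hom r) = (Resolution.incl A).hom r) :
    homRes (Resolution.incl A) C ≫ HomSplit.evHom (Resolution.RA A) C r hr =
      HomSplit.evHom (Resolution.FA A) C ((Resolution.incl A).hom r) hr' := by
  ext φ
  rfl

/-- The image of an invariant vector under a morphism is invariant. -/
lemma hom_invariant {X Y : Rep.{0} k G} (f : X ⟶ Y) (x : X.V) (hx : ∀ g : G, X.ρ g x = x) (g : G) :
    Y.ρ g (f.hom x) = f.hom x := by
  rw [← Rep.hom_comm_apply, hx]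

end Eval


section Main

variable [IsDomain k] [IsPrincipalIdealRing k] [CharZero k] {𝒰 : Levels G} [𝒰.IsFin]
  {C : Rep.{0} k G} (hR : AddHomsLinear k) (cf : ClassFormation 𝒰 C) (smC : IsSmooth 𝒰 C)
  (p : ℕ) [Fact p.Prime] (hdivC : ∀ x : C.V, ∃ y : C.V, (p : k) • y = x)
  (A : Rep.{0} k G) [Finite A.V] (smA : IsSmooth 𝒰 A) (hpA : ∀ a : A.V, (p : k) • a = 0)

include hdivC hpA in
/-- The row `Hom(A, C) → Hom(FA, C) → Hom(RA, C)` is short exact (`C` is `p`-divisible). -/
lemma row_shortExact : (homSC (Resolution.SA A) C).ShortExact := by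
  have : Module.Projective k (Resolution.SA A).X₁.V := Resolution.projective_RA A
  exact homSC_shortExact_of_divisible (Resolution.SA_shortExact A) (p : k)
    (Resolution.exists_incl_eq_smul A (p : k) hpA) C hdivC

include smC smA in
lemma isSmooth_row : IsSmooth 𝒰 (homSC (Resolution.SA A) C).X₂ := by
  change IsSmooth 𝒰 (homRep (Resolution.FA A) C)
  exact isSmooth_homRep (Resolution.isSmooth_FA A smA) smC

include smA in
/-- A level acting trivially on `FA A` (hence on `RA A`). -/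
lemma exists_level_trivial :
    ∃ U₀ ∈ 𝒰.sets, (∀ u ∈ U₀, ∀ b : (Resolution.FA A).V, (Resolution.FA A).ρ u b = b) ∧
      ∀ u ∈ U₀, ∀ b : (Resolution.RA A).V, (Resolution.RA A).ρ u b = b := by
  obtain ⟨U₀, hU₀, hFtriv⟩ := PermH1.exists_level_trivial (Resolution.basisFA A)
    (Resolution.FA_ρ_basis A) 𝒰 (Resolution.isOpen_stabilizer A smA)
  exact ⟨U₀, hU₀, hFtriv, fun u hu b => Subtype.ext (hFtriv u hu b.1)⟩

include hR cf smC hdivC smA hpA in
/-- `H²(Hom(A, C)) → H²(Hom(FA, C))` is injective (`H¹(Hom(RA, C)) = 0` by (TN-11)). -/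
lemma eq_zero_of_mapId_homRes_piA (w : H 𝒰 (homRep A C) 2)
    (hw : mapId (𝒰 := 𝒰) (homRes (Resolution.piA A) C) 2 w = 0) : w = 0 := by
  obtain ⟨U₀, hU₀, -, hRtriv⟩ := exists_level_trivial (𝒰 := 𝒰) A smA
  have hfreeR : Module.Free k (Resolution.RA A).V := Resolution.free_RA A
  have hfinR : Module.Finite k (Resolution.RA A).V := Resolution.finite_RA A
  obtain ⟨z, rfl⟩ := exists_lcδ_eq (X := homSC (Resolution.SA A) C)
    (row_shortExact p hdivC A hpA) (isSmooth_row smC A smA) 1 2 rfl w hw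
  have hz : z = 0 := Tail.tnc11_zero hR cf (Resolution.RA A) U₀ hU₀ hRtriv
    (fun y => Tail.eq_zero_of_H1_RA A smA y) z
  subst hz
  exact map_zero _

end Main

section Bij

variable [IsDomain k] [IsPrincipalIdealRing k] [CharZero k] {𝒰 : Levels G} [𝒰.IsFin]
  {C : Rep.{0} k G} (hR : AddHomsLinear k) (cf : ClassFormation 𝒰 C) (smC : IsSmooth 𝒰 C)
  (p : ℕ) [Fact p.Prime] (hdivC : ∀ x : C.V, ∃ y : C.V, (p : k) • y = x)
  (A : Rep.{0} k G) [Finite A.V] (smA : IsSmooth 𝒰 A) (hpA : ∀ a : A.V, (p : k) • a = 0)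

/-- `FA^G → A^G`, additively. -/
def piInv : (Resolution.FA A).ρ.invariants →+ A.ρ.invariants where
  toFun b := ⟨(Resolution.piA A).hom b.1, hom_invariant (Resolution.piA A) b.1 b.2⟩
  map_zero' := Subtype.ext (map_zero _)
  map_add' _ _ := Subtype.ext (map_add _ _ _)

lemma piInv_apply_coe (b : (Resolution.FA A).ρ.invariants) :
    ((piInv A b : A.ρ.invariants) : A.V) = (Resolution.piA A).hom b.1 := rfl

omit [IsDomain k] [IsPrincipalIdealRing k] [CharZero k] [𝒰.IsFin] in
/-- Elementwise form of `evMap x = 0`. -/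
lemma evMap_eq_zero_apply (B : Rep.{0} k G) (x : H 𝒰 (homRep B C) 2) (h : evMap 𝒰 B C x = 0)
    (b : B.V) (hb : ∀ g : G, B.ρ g b = b) :
    mapId (𝒰 := 𝒰) (HomSplit.evHom B C b hb) 2 x = 0 := by
  have h1 := DFunLike.congr_fun h ⟨b, hb⟩
  rw [evMap_apply] at h1
  exact h1

include hR cf smC hdivC smA hpA in
/-- **(TN-20) injectivity for a finite module killed by `p`.** -/
theorem evMap_injective : Function.Injective (evMap 𝒰 A C) := by
  rw [injective_iff_map_eq_zero]
  intro w hw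
  obtain ⟨U₀, hU₀, hFtriv, -⟩ := exists_level_trivial (𝒰 := 𝒰) A smA
  have h2 : mapId (𝒰 := 𝒰) (homRes (Resolution.piA A) C) 2 w = 0 := by
    refine TNLC.tnc20_injective hR cf (Resolution.FA A) U₀ hU₀ hFtriv _ (fun b hb => ?_)
    rw [mapId_mapId_apply, homRes_piA_evHom A C b hb (hom_invariant (Resolution.piA A) b hb)]
    exact evMap_eq_zero_apply A w hw _ _
  exact eq_zero_of_mapId_homRes_piA hR cf smC p hdivC A smA hpA w h2

include hR cf smC hdivC smA hpA in
/-- **(TN-20) surjectivity for a finite module killed by `p`**, when `p` divides relative indices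
cofinally. -/
theorem evMap_surjective
    (hdiv : ∀ V₀ ∈ 𝒰.sets, ∃ V ∈ 𝒰.sets, V ≤ V₀ ∧ p ∣ V.relIndex V₀) :
    Function.Surjective (evMap 𝒰 A C) := by
  intro χ
  obtain ⟨U₀, hU₀, hFtriv, hRtriv⟩ := exists_level_trivial (𝒰 := 𝒰) A smA
  have hfreeR : Module.Free k (Resolution.RA A).V := Resolution.free_RA A
  have hfinR : Module.Finite k (Resolution.RA A).V := Resolution.finite_RA A
  obtain ⟨z, hz⟩ := exists_class_of_functional hR cf (Resolution.FA A) p U₀ hU₀ hFtriv hdiv
    (χ.comp (piInv A)) (fun b => by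
      have h0 : p • piInv A b = 0 := by
        apply Subtype.ext
        change p • (Resolution.piA A).hom b.1 = 0
        rw [← Nat.cast_smul_eq_nsmul k]
        exact hpA _
      rw [AddMonoidHom.comp_apply, ← map_nsmul, h0, map_zero])
  -- the image of `z` in `H²(Hom(RA, C))` vanishes
  have hρ : mapId (𝒰 := 𝒰) (homRes (Resolution.incl A) C) 2 z = 0 := by
    apply TNLC.tnc20_injective hR cf (Resolution.RA A) U₀ hU₀ hRtriv
    intro r hr
    rw [mapId_mapId_apply,
      homRes_incl_evHom A C r hr (hom_invariant (Resolution.incl A) r hr)]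
    refine (hz _ _).trans ?_
    have h0 : piInv A ⟨(Resolution.incl A).hom r, hom_invariant (Resolution.incl A) r hr⟩ = 0 :=
      Subtype.ext r.2
    rw [AddMonoidHom.comp_apply, h0, map_zero]
  obtain ⟨w, hw⟩ : ∃ w : H 𝒰 (homRep A C) 2,
      mapId (𝒰 := 𝒰) (homRes (Resolution.piA A) C) 2 w = z :=
    exists_mapId_f_eq (X := homSC (Resolution.SA A) C)
      (row_shortExact p hdivC A hpA) (isSmooth_row smC A smA) 2 z hρ
  refine ⟨w, ?_⟩
  ext a
  change mapId (𝒰 := 𝒰) (HomSplit.evHom A C a.1 a.2) 2 w = χ a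
  have hbinv : ∀ g : G, (Resolution.FA A).ρ g (Resolution.basisFA A ⟨a.1⟩) =
      Resolution.basisFA A ⟨a.1⟩ := fun g => Tail.FA_basis_invariant A a.1 g (a.2 g)
  have e1 : HomSplit.evHom A C a.1 a.2 =
      homRes (Resolution.piA A) C ≫
        HomSplit.evHom (Resolution.FA A) C (Resolution.basisFA A ⟨a.1⟩) hbinv := by
    ext φ
    change toLin φ a.1 = toLin φ ((Resolution.piA A).hom (Resolution.basisFA A ⟨a.1⟩))
    rw [Resolution.piA_basis]
  rw [e1, ← mapId_mapId_apply]
  rw [hw]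
  refine (hz _ hbinv).trans ?_
  rw [AddMonoidHom.comp_apply]
  congr 1
  exact Subtype.ext (Resolution.piA_basis A ⟨a.1⟩)

end Bij

section Card

variable [IsDomain k] [IsPrincipalIdealRing k] [CharZero k] {𝒰 : Levels G} [𝒰.IsFin]
  {C : Rep.{0} k G} (hR : AddHomsLinear k) (cf : ClassFormation 𝒰 C) (smC : IsSmooth 𝒰 C)
  (p : ℕ) [Fact p.Prime] (hdivC : ∀ x : C.V, ∃ y : C.V, (p : k) • y = x)
  (hdiv : ∀ V₀ ∈ 𝒰.sets, ∃ V ∈ 𝒰.sets, V ≤ V₀ ∧ p ∣ V.relIndex V₀)
  (hk : Nat.card (k ⧸ Ideal.span {(p : k)}) = p)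
  (A : Rep.{0} k G) [Finite A.V] (smA : IsSmooth 𝒰 A) (hpA : ∀ a : A.V, (p : k) • a = 0)

include hR cf smC hdivC hdiv smA hpA in
/-- **Local duality in degree `(2, 0)` for a class formation**: for a finite smooth `A` killed by
`p`, the evaluation map `H²(G, Hom(A, C)) → Hom(A^G, H²(G, C))` is an isomorphism. -/
def evEquiv : H 𝒰 (homRep A C) 2 ≃+ (A.ρ.invariants →+ H 𝒰 C 2) :=
  AddEquiv.ofBijective (evMap 𝒰 A C)
    ⟨evMap_injective hR cf smC p hdivC A smA hpA, evMap_surjective hR cf smC p hdivC A smA hpA hdiv⟩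

include hR cf smC hdivC hdiv hk smA hpA in
/-- **`#H²(G, Hom(A, C)) = #H⁰(G, A)`** for a finite smooth `A` killed by `p`, `C` the
(`p`-divisible, smooth) module of a class formation in which `p` divides relative indices
cofinally. -/
theorem card_H2_homRep_eq :
    Finite (H 𝒰 (homRep A C) 2) ∧ Nat.card (H 𝒰 (homRep A C) 2) = Nat.card (H 𝒰 A 0) := by
  obtain ⟨U₀, hU₀, -, -⟩ := exists_level_trivial (𝒰 := 𝒰) A smA
  obtain ⟨V, hV, hle, hpV⟩ := hdiv U₀ hU₀
  have hVn := 𝒰.normal V hV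
  have hpV' : p ∣ Nat.card (G ⧸ V) := by
    rw [← Subgroup.index_eq_card, ← Subgroup.relIndex_mul_index hle]
    exact Dvd.dvd.mul_right hpV _
  have hT : Nat.card (torsionP p (H 𝒰 C 2)) = p :=
    cf.card_torsionP p V hV hpV' (Fact.out : p.Prime).ne_zero hk
  have hQ : ∀ x : A.ρ.invariants, p • x = 0 := fun x => by
    apply Subtype.ext
    change p • x.1 = 0
    rw [← Nat.cast_smul_eq_nsmul k]
    exact hpA _
  have hfin : Finite A.ρ.invariants := inferInstance
  have hcard : Nat.card (A.ρ.invariants →+ H 𝒰 C 2) = Nat.card A.ρ.invariants :=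
    card_addMonoidHom_eq p hQ hT
  have hc2 : Nat.card (H 𝒰 (homRep A C) 2) = Nat.card A.ρ.invariants :=
    (Nat.card_congr (evEquiv hR cf smC p hdivC hdiv A smA hpA).toEquiv).trans hcard
  have hc0 : Nat.card (H 𝒰 A 0) = Nat.card A.ρ.invariants :=
    Nat.card_congr (h0Equiv 𝒰 A).toEquiv
  refine ⟨Nat.finite_of_card_ne_zero ?_, hc2.trans hc0.symm⟩
  rw [hc2]
  exact Nat.card_pos.ne'

end Card

/-! ### The local Galois groups -/

section Local

open ExtCitation Fermat.Agent.CFT.Bridge Fermat.Agent.CFT.LocalBridge Fermat.Agent.CFT.D.Reduce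
  Fermat.Agent.CFT.D.ZpModel Fermat.Agent.CFT.D.DatumBuild Fermat.Agent.CFT.A7.BaseChange
  Fermat.Agent.CFT.Idele

variable (p : ℕ) [Fact p.Prime]

/-- **`#H²(G_q, Hom(A, D_q)) = #H⁰(G_q, A)`** for the local datum of `D/Datum/Local`
(`D_q = Q̄_q^× ⊗ ℤ_(p)`), `A` finite smooth killed by `p`; `hdiv`: `p` divides relative indices
cofinally in the family of levels `Uv S q`. -/
theorem card_H2_hom_Dloc_eq (S : Finset Nat.Primes) (q : ↥S)
    (hdiv : ∀ V₀ ∈ (Uv S q).sets, ∃ V ∈ (Uv S q).sets, V ≤ V₀ ∧ p ∣ V.relIndex V₀)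
    (A : Rep.{0} (Zp p) (Gv S q)) [Finite A.V] (smA : IsSmooth (Uv S q) A)
    (hpA : ∀ a : A.V, ((p : ℕ) : Zp p) • a = 0) :
    Finite (H (Uv S q) (homRep A (Dloc p S q)) 2) ∧
      Nat.card (H (Uv S q) (homRep A (Dloc p S q)) 2) = Nat.card (H (Uv S q) A 0) :=
  card_H2_homRep_eq (addHomsLinear p) (cfDloc p S q) (isSmooth_Dloc p S q) p (div_Dloc p S q) hdiv
    (card_quotient_span_p p) A smA hpA

/-- The same per prime, without `S` (literal shape of helper23, `𝒰q := levelsOf
(localGaloisToGlobal q)`, `Dq := tensorRep (unitsQ q)`). -/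
theorem card_H2_hom_eq (q : Nat.Primes)
    (hdiv : ∀ V₀ ∈ (levelsOf (localGaloisToGlobal (q : ℕ))).sets,
      ∃ V ∈ (levelsOf (localGaloisToGlobal (q : ℕ))).sets, V ≤ V₀ ∧ p ∣ V.relIndex V₀)
    (A : Rep.{0} (Zp p) (LocGal (q : ℕ))) [Finite A.V]
    (smA : IsSmooth (levelsOf (localGaloisToGlobal (q : ℕ))) A)
    (hpA : ∀ a : A.V, ((p : ℕ) : Zp p) • a = 0) :
    Finite (H (levelsOf (localGaloisToGlobal (q : ℕ)))
        (homRep A (tensorRep (k := Zp p) (unitsQ q) : Rep.{0} (Zp p) (LocGal (q : ℕ)))) 2) ∧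
      Nat.card (H (levelsOf (localGaloisToGlobal (q : ℕ)))
        (homRep A (tensorRep (k := Zp p) (unitsQ q) : Rep.{0} (Zp p) (LocGal (q : ℕ)))) 2) =
        Nat.card (H (levelsOf (localGaloisToGlobal (q : ℕ))) A 0) :=
  card_H2_hom_Dloc_eq p ({q} : Finset Nat.Primes) ⟨q, Finset.mem_singleton_self q⟩ hdiv A smA hpA

end Local

end Fermat.Agent.S56.Base.LocalH2
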