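/-
PROJECT T (S56), block (a1-II) `S56/Base` (chief helper8): THE EULER CHARACTERISTIC INPUT `hEC` OF THE
TURNED COUNT, in the D-layer.

For `A := ad⁰ρ̄` and `A' := ad⁰ρ̄(1)` (as `ℤ_(p)[G_ℚ]`-modules, `S ∋ p`):

  `card H²(G_S, A') = card Ш¹_S(A) * ∏_{q ∈ S} card H⁰(G_q, A)`                    (`card_H2_Tw_eq`)

from `TwistDict.eTw` (`A' ≅ Hom(A, E)`), `H2Count.card_H2_eq` (Poitou–Tate count + the end of the
Poitou–Tate sequence `Tail.Final.tail0_theDatum`) and `LocalH2.card_H2_hom_Dloc_eq` (local duality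
in degree `(2, 0)`); with the global Euler characteristic inequality in the form
`card k * card H²(G_S, A') ≤ card H¹(G_S, A')` this is

  `card k * (card Ш¹_S(A) * ∏_q card H⁰(G_q, A)) ≤ card H¹(G_S, A')`                (`card_H1_Tw_ge`).
-/
import Fermat.Agent.S56.Base.H2Count
import Fermat.Agent.S56.Base.TwistDict
import Fermat.Agent.S56.Base.LocalH2
import Fermat.Agent.S56.Base.Pairing.LocalN3.Div
import Fermat.Agent.S56.Base.Tail.Final
import Fermat.Agent.S56.Base.EC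

set_option autoImplicit false

namespace Fermat.Agent.S56.Base.ECMain

open CategoryTheory groupCohomology ExtCitation
open Fermat.Agent.CFT.LC Fermat.Agent.CFT.LC.El Fermat.Agent.CFT.Bridge
open Fermat.Agent.CFT.D Fermat.Agent.CFT.D.Main Fermat.Agent.CFT.D.CoeffChange
open Fermat.Agent.CFT.A7.HomRep Fermat.Agent.CFT.D.Reduce Fermat.Agent.CFT.A7
open Fermat.Agent.CFT.A5 Fermat.Agent.CFT.D.ZpModel Fermat.Agent.CFT.D.DatumBuild
open Fermat.Agent.S56.Coh.CocDefs Fermat.Agent.S56.Base.TwistDict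

/-- an isomorphism of coefficients induces a bijection on level-constant cohomology -/
theorem card_H_congr {k G : Type} [CommRing k] [Group G] (𝒰 : Levels G) {X Y : Rep.{0} k G}
    (e : X ≅ Y) (n : ℕ) : Nat.card (H 𝒰 X n) = Nat.card (H 𝒰 Y n) :=
  Nat.card_congr
    { toFun := fun x => mapId (𝒰 := 𝒰) e.hom n x
      invFun := fun y => mapId (𝒰 := 𝒰) e.inv n y
      left_inv := fun x => by
        show mapId (𝒰 := 𝒰) e.inv n (mapId (𝒰 := 𝒰) e.hom n x) = x
        rw [mapId_mapId_apply, e.hom_inv_id]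
        exact mapId_one_apply n x
      right_inv := fun y => by
        show mapId (𝒰 := 𝒰) e.hom n (mapId (𝒰 := 𝒰) e.inv n y) = y
        rw [mapId_mapId_apply, e.inv_hom_id]
        exact mapId_one_apply n y }

/-! ### The modules `ad⁰ρ̄`, `ad⁰ρ̄(1)` over `ℤ_(p)` -/

section AK

variable {k : Type} [Field k] [Finite k] (p : ℕ) [Fact p.Prime] [Algebra (ZMod p) k]

/-- the D-layer form of a `k[G_ℚ]`-module: scalars restricted along `ℤ_(p) → 𝔽_p → k` -/
noncomputable abbrev AK (X : Rep.{0} k GQ) : Rep.{0} (Zp p) GQ :=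
  resScalars (TwistDict.phiK k p (ZpModel.phi p)) X

variable (rbar : GQ →* GL (Fin 2) k)

theorem finite_AK_Mrep : Finite (AK p (Mrep rbar)).V := inferInstanceAs (Finite (sl2 k))

theorem finite_AK_MrepTw : Finite (AK p (MrepTw rbar)).V := inferInstanceAs (Finite (sl2 k))

/-- `AK X` is killed by `p` -/
theorem natCast_smul_AK (X : Rep.{0} k GQ) (a : (AK p X).V) : ((p : ℕ) : Zp p) • a = 0 := by
  obtain ⟨x, rfl⟩ := (toRes (TwistDict.phiK k p (ZpModel.phi p)) X).surjective a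
  rw [← toRes_smul]
  have h : TwistDict.phiK k p (ZpModel.phi p) ((p : ℕ) : Zp p) = 0 := by
    rw [map_natCast]
    have h1 : ((p : ℕ) : ZMod p) = 0 := ZMod.natCast_self p
    have h2 := congrArg (algebraMap (ZMod p) k) h1
    rw [map_natCast, map_zero] at h2
    exact h2
  rw [h, zero_smul, map_zero]

variable {rbar}

/-- `rbar` trivial on a level ⟹ `ad⁰` smooth -/
theorem isSmooth_AK_Mrep {S : Finset Nat.Primes}
    (hlev : ∃ U ∈ (levelsS S).sets, ∀ s ∈ U, rbar s = 1) :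
    IsSmooth (levelsS S) (AK p (Mrep rbar)) := by
  obtain ⟨U, hU, h⟩ := hlev
  intro a
  refine ⟨U, hU, fun s hs => ?_⟩
  obtain ⟨x, rfl⟩ := (toRes (TwistDict.phiK k p (ZpModel.phi p)) (Mrep rbar)).surjective a
  rw [← toRes_ρ]
  congr 1
  apply Subtype.ext
  rw [Mrep_ρ_coe, h s hs, inv_one, Units.val_one, Matrix.one_mul, Matrix.mul_one]

end AK

/-! ### The chain -/

section Chain

variable {k : Type} [Field k] [Finite k] {p : ℕ} [Fact p.Prime] [Algebra (ZMod p) k]
  {S : Finset Nat.Primes} {rbar : GQ →* GL (Fin 2) k}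

/-- **`card H²(G_S, ad⁰(1)) = card Ш¹_S(ad⁰) * ∏_q card H⁰(G_q, ad⁰)`.** -/
theorem card_H2_Tw_eq (h2 : (2 : k) ≠ 0) (hpS : pPrime p ∈ S) (g : GlobalInputs p S)
    (hdet : TwistDict.DetCyclo p rbar)
    (hlev : ∃ U ∈ (levelsS S).sets, ∀ s ∈ U, rbar s = 1)
    (hA0 : ∀ X : Mrep rbar, (∀ s : GQ, (Mrep rbar).ρ s X = X) → X = 0) :
    Nat.card (H (levelsS S) (AK p (MrepTw rbar)) 2) =
      Nat.card (sha1 (rv S) (hrv S) (AK p (Mrep rbar))) *
        ∏ q : ↥S, Nat.card (H (Uv S q) (Rep.res (rv S q) (AK p (Mrep rbar))) 0) := by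
  haveI := finite_AK_Mrep p rbar
  have smA := isSmooth_AK_Mrep p (S := S) hlev
  have hpA := natCast_smul_AK p (Mrep rbar)
  have hA0' : ∀ a : (AK p (Mrep rbar)).V, (∀ s : GQ, (AK p (Mrep rbar)).ρ s a = a) → a = 0 :=
    hA0
  have e := TwistDict.eTw p (ZpModel.phi p) (theDatum hpS g).ι h2 hdet (theDatum hpS g).ι_inj
    (theDatum hpS g).ι_range
  rw [card_H_congr (levelsS S) e 2,
    H2Count.card_H2_eq S (ZpModel.phi p) (addHomsLinear p) (theDatum hpS g)
      (ShaCount.finite_quotient_span_natCast p) _ smA hpA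
      (fun z => Tail.Final.tail0_theDatum hpS g _ smA hpA hA0' z)]
  congr 1
  refine Finset.prod_congr rfl fun q _ => ?_
  haveI : Finite (Rep.res (rv S q) (AK p (Mrep rbar))).V := finite_AK_Mrep p rbar
  exact (LocalH2.card_H2_hom_Dloc_eq p S q
    (Pairing.LocalN3.Div.exists_level_dvd_relIndex_Uv p S q)
    (Rep.res (rv S q) (AK p (Mrep rbar))) (IsSmooth.res_of_continuous (hrv S q) smA)
    (fun a => hpA a)).2

/-- the `𝔽_p`-form of `ad⁰ρ̄(1)` on which the Euler characteristic is computed -/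
noncomputable abbrev NTw (p : ℕ) [Fact p.Prime] [Algebra (ZMod p) k] (rbar : GQ →* GL (Fin 2) k) :
    Rep.{0} (ZMod p) GQ :=
  resScalars (TwistDict.phi k p) (MrepTw rbar)

/-- cardinality of a finite-dimensional `𝔽_p`-space -/
theorem card_eq_pow_finrank' (V : Type*) [AddCommGroup V] [Module (ZMod p) V]
    [Module.Finite (ZMod p) V] : Nat.card V = p ^ Module.finrank (ZMod p) V := by
  haveI : Finite V := Module.finite_of_finite (ZMod p)
  rw [Module.natCard_eq_pow_finrank (K := ZMod p), Nat.card_zmod]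

/-- **The Euler characteristic inequality in cardinalities**: from `χ_S(ad⁰(1)) ≤ -[k : 𝔽_p]`
(`= defect ≤ 0` + the archimedean term), `card k * card H²(G_S, ad⁰(1)) ≤ card H¹(G_S, ad⁰(1))`. -/
theorem card_mul_H2_le_H1 (hchi : EC.chi S (NTw p rbar) ≤ -(Module.finrank (ZMod p) k : ℤ))
    [hf1 : Module.Finite (ZMod p) (H (levelsS S) (NTw p rbar) 1)]
    [hf2 : Module.Finite (ZMod p) (H (levelsS S) (NTw p rbar) 2)] :
    Nat.card k * Nat.card (H (levelsS S) (AK p (MrepTw rbar)) 2) ≤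
      Nat.card (H (levelsS S) (AK p (MrepTw rbar)) 1) := by
  have e1 : Nat.card (H (levelsS S) (AK p (MrepTw rbar)) 1) =
      Nat.card (H (levelsS S) (NTw p rbar) 1) :=
    (Nat.card_congr (hEquiv (ZpModel.phi p) (levelsS S) (NTw p rbar) 1).toEquiv).symm
  have e2 : Nat.card (H (levelsS S) (AK p (MrepTw rbar)) 2) =
      Nat.card (H (levelsS S) (NTw p rbar) 2) :=
    (Nat.card_congr (hEquiv (ZpModel.phi p) (levelsS S) (NTw p rbar) 2).toEquiv).symm
  rw [e1, e2, card_eq_pow_finrank' (p := p) k, card_eq_pow_finrank' (p := p) _,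
    card_eq_pow_finrank' (p := p) _, ← pow_add]
  refine Nat.pow_le_pow_right (Fact.out : p.Prime).pos ?_
  have h := hchi
  rw [EC.chi_def] at h
  unfold EC.h at h
  have h0 : (0 : ℤ) ≤ (Module.finrank (ZMod p) (H (levelsS S) (NTw p rbar) 0) : ℤ) :=
    Int.natCast_nonneg _
  omega

/-- the same from `defect ≤ 0` and the value of the archimedean term -/
theorem chi_le_of_defect (hdefect : EC.defect S (NTw p rbar) ≤ 0)
    (hinf : EC.chiInf (NTw p rbar) = -(Module.finrank (ZMod p) k : ℤ)) :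
    EC.chi S (NTw p rbar) ≤ -(Module.finrank (ZMod p) k : ℤ) := by
  rw [EC.defect_def, hinf] at hdefect
  omega

/-- **THE EULER CHARACTERISTIC INPUT OF THE TURNED COUNT, D-layer form.** -/
theorem card_H1_Tw_ge (h2 : (2 : k) ≠ 0) (hpS : pPrime p ∈ S) (g : GlobalInputs p S)
    (hdet : TwistDict.DetCyclo p rbar)
    (hlev : ∃ U ∈ (levelsS S).sets, ∀ s ∈ U, rbar s = 1)
    (hA0 : ∀ X : Mrep rbar, (∀ s : GQ, (Mrep rbar).ρ s X = X) → X = 0)
    (hchi : EC.chi S (NTw p rbar) ≤ -(Module.finrank (ZMod p) k : ℤ))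
    [hf1 : Module.Finite (ZMod p) (H (levelsS S) (NTw p rbar) 1)]
    [hf2 : Module.Finite (ZMod p) (H (levelsS S) (NTw p rbar) 2)] :
    Nat.card k * (Nat.card (sha1 (rv S) (hrv S) (AK p (Mrep rbar))) *
        ∏ q : ↥S, Nat.card (H (Uv S q) (Rep.res (rv S q) (AK p (Mrep rbar))) 0)) ≤
      Nat.card (H (levelsS S) (AK p (MrepTw rbar)) 1) := by
  rw [← card_H2_Tw_eq h2 hpS g hdet hlev hA0]
  exact card_mul_H2_le_H1 hchi

end Chain

end Fermat.Agent.S56.Base.ECMain
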