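/-
PROJECT T (S56), block (a1-II) `S56/Base` (chief helper8): THE EULER CHARACTERISTIC INPUT `hEC` IN THE
COCYCLE MODEL, from its D-layer form `Base/ECMain.card_H1_Tw_ge` and three cardinalities of the
dictionary `S56/Base/Dict`:

* `hDb` : `card Sel(Smin, full, ad⁰(1)) = card H¹(G_S, AK ad⁰(1))`,
* `hDc` : `card Sel(Smin, strict, ad⁰) = card Ш¹_S(AK ad⁰)`,
* `hDd` : `card H⁰(D_q, ad⁰) = card H⁰(G_q, Res_q AK ad⁰)` for `q ∈ S`,

where `S : Finset Nat.Primes` is `Smin` (`hS`).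
-/
import Fermat.Agent.S56.Base.ECMain
import Fermat.Agent.S56.Base.Main

set_option autoImplicit false

namespace Fermat.Agent.S56.Base.MainEC

open CategoryTheory ExtCitation
open Fermat.Agent.CFT.LC Fermat.Agent.CFT.Bridge Fermat.Agent.CFT.D Fermat.Agent.CFT.D.Reduce
open Fermat.Agent.CFT.D.DatumBuild
open Fermat.Agent.S56.Coh Fermat.Agent.S56.Coh.CocDefs
open Fermat.Agent.S56.Base.Count Fermat.Agent.S56.Base.Main Fermat.Agent.S56.Base.ECMain

variable {k : Type} [Field k] [Finite k] {p : ℕ} [Fact p.Prime] [Algebra (ZMod p) k]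
  {S : Finset Nat.Primes} {rbar : GQ →* GL (Fin 2) k}

/-- a product over `S : Finset Nat.Primes` as a product over the finset `Smin` of its values -/
theorem prod_coe_eq (Smin : Finset ℕ) (hSmin : ∀ q ∈ Smin, q.Prime)
    (hS : ∀ q : Nat.Primes, q ∈ S ↔ (q : ℕ) ∈ Smin) (f : ℕ → ℕ) :
    ∏ q : ↥S, f ((q : Nat.Primes) : ℕ) = ∏ n ∈ Smin, f n := by
  rw [Finset.prod_coe_sort S (fun q : Nat.Primes => f (q : ℕ))]
  refine Finset.prod_bij (fun (q : Nat.Primes) _ => (q : ℕ)) (fun q hq => (hS q).1 hq)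
    (fun a _ b _ hab => Subtype.ext hab) (fun n hn => ⟨⟨n, hSmin n hn⟩, (hS _).2 hn, rfl⟩)
    (fun _ _ => rfl)

/-- **`hEC` in the cocycle model.** -/
theorem ecInput_of_dict (h2 : (2 : k) ≠ 0) (hpS : pPrime p ∈ S) (g : GlobalInputs p S)
    (hdet : TwistDict.DetCyclo p rbar)
    (hlev : ∃ U ∈ (levelsS S).sets, ∀ s ∈ U, rbar s = 1)
    (hA0 : ∀ X : Mrep rbar, (∀ s : GQ, (Mrep rbar).ρ s X = X) → X = 0)
    (hchi : EC.chi S (NTw p rbar) ≤ -(Module.finrank (ZMod p) k : ℤ))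
    [hf1 : Module.Finite (ZMod p) (H (levelsS S) (NTw p rbar) 1)]
    [hf2 : Module.Finite (ZMod p) (H (levelsS S) (NTw p rbar) 2)]
    (Smin : Finset ℕ) (hSmin : ∀ q ∈ Smin, q.Prime)
    (hS : ∀ q : Nat.Primes, q ∈ S ↔ (q : ℕ) ∈ Smin)
    (hDb : Nat.card (Sel Smin (LocCond.ofLocal (fullFam (MrepTw rbar)))) =
      Nat.card (H (levelsS S) (AK p (MrepTw rbar)) 1))
    (hDc : Nat.card (Sel Smin (LocCond.ofLocal (strictFam (Mrep rbar)))) =
      Nat.card (sha1 (rv S) (hrv S) (AK p (Mrep rbar))))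
    (hDd : ∀ q : ↥S, fixCard (Mrep rbar) ((q : Nat.Primes) : ℕ) =
      Nat.card (H (Uv S q) (Rep.res (rv S q) (AK p (Mrep rbar))) 0)) :
    Nat.card (Sel Smin (LocCond.ofLocal (strictFam (Mrep rbar)))) *
        (Nat.card k * ∏ q ∈ Smin, fixCard (Mrep rbar) q) ≤
      Nat.card (Sel Smin (LocCond.ofLocal (fullFam (MrepTw rbar)))) := by
  have hge := card_H1_Tw_ge h2 hpS g hdet hlev hA0 hchi
  rw [hDb, hDc, ← prod_coe_eq Smin hSmin hS (fixCard (Mrep rbar))]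
  have hprod : ∏ q : ↥S, fixCard (Mrep rbar) ((q : Nat.Primes) : ℕ) =
      ∏ q : ↥S, Nat.card (H (Uv S q) (Rep.res (rv S q) (AK p (Mrep rbar))) 0) :=
    Finset.prod_congr rfl fun q _ => hDd q
  rw [hprod]
  calc _ = Nat.card k * (Nat.card (sha1 (rv S) (hrv S) (AK p (Mrep rbar))) *
        ∏ q : ↥S, Nat.card (H (Uv S q) (Rep.res (rv S q) (AK p (Mrep rbar))) 0)) := by ring
    _ ≤ _ := hge

end Fermat.Agent.S56.Base.MainEC
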