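/-
PROJECT T (S56), block (a1-II) Base (chief helper8): THE EXPORT OF `S56/Base`, MODULO ITS INPUTS.

`Count/Halves.halves_of_exports` consumes, for every matrix form `rbar` of `ρ̄`,

  `BaseExport p Smin rbar (Pso p) ∧ BaseExport p Smin rbar (Pfl p) ∧ FinExport rbar`.

This file proves that conjunction from

* `DIn p rbar S` : the D-layer inputs at a finite set `S ∋ p` outside which `rbar` is unramified
  (the cocycle/class dictionary `Sel ≃ H¹`, `Sel(strict) ≃ Ш¹`, `Fix ≃ H⁰_q`, finiteness of the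
  `H^i(G_S, -)`, the level of `rbar`, and the Euler characteristic inequality for `ad⁰ρ̄(1)`),
* the local pairing `LP`, the local bounds at `p` (blocks (a2), (a3)), finiteness of the local
  `H¹`, and the comparison of Selmer groups `hFS`.

Everything else (Schur, the archimedean/global bookkeeping, the unipotent bounds (a4), the count
spine) is consumed here from `Base/Main`, `Base/MainEC`, `Base/SchurAd`, `Base/GlobalIn`.
-/
import Fermat.Agent.S56.Base.MainEC
import Fermat.Agent.S56.Base.SchurAd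
import Fermat.Agent.S56.Base.GlobalIn
import Fermat.Agent.S56.Count.Halves

set_option autoImplicit false

namespace Fermat.Agent.S56.Base.Export

open CategoryTheory ExtCitation
open Fermat.Agent.CFT.LC Fermat.Agent.CFT.Bridge Fermat.Agent.CFT.D Fermat.Agent.CFT.D.Reduce
open Fermat.Agent.CFT.D.DatumBuild Fermat.Agent.CFT.D.CoeffChange
open Fermat.Agent.S56.Coh Fermat.Agent.S56.Coh.CocDefs
open Fermat.Agent.S56.Count.Main Fermat.Agent.S56.Count.Halves
open Fermat.Agent.S56.Base.Count Fermat.Agent.S56.Base.Main Fermat.Agent.S56.Base.ECMain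
open Fermat.Agent.S56.Base.MainEC Fermat.Agent.S56.Base.GlobalIn
open Fermat.Agent.S56.Tan.Cocycle
open Fermat.Agent.S53.Dictionary hiding GQ

variable {k : Type} [Field k]

/-! ### Preliminaries on a matrix form of `ρ̄` -/

section Prelim

variable (ρbar : ResidualGaloisRep k) (b : Module.Basis (Fin 2) k ρbar.V)
  (rbar : GQ →* GL (Fin 2) k)
  (hb : ∀ g, (rbar g : Matrix (Fin 2) (Fin 2) k) = LinearMap.toMatrix b b (ρbar.ρ g))

include hb in
/-- the finite level and the equivalence `ρ̄ ≃ resOfMat rbar` of `Tan/Final.exists_rbar`, for ANY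
basis -/
theorem exists_factors_of_hb :
    ∃ hrbar : GaloisFactorsThroughFiniteLevel (rbarM rbar),
      ρbar.IsEquiv (resOfMat (rbarM rbar) hrbar) := by
  have hr : rbarM rbar = resMatOf ρbar b := by
    ext σ : 1
    rw [rbarM_apply, hb, resMatOf_apply]
  rw [hr]
  exact ⟨factors_resMatOf ρbar b, ⟨resEquivOfMatMatOf ρbar b⟩⟩

include hb in
/-- `rbar` is trivial on a level of `G_ℚ` -/
theorem exists_levelAll_le_ker : ∃ U ∈ levelsAll.sets, U ≤ rbar.ker := by
  obtain ⟨hrbar, -⟩ := exists_factors_of_hb ρbar b rbar hb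
  obtain ⟨F, hF, h1⟩ := hrbar
  haveI := hF
  obtain ⟨U, hU, hUF⟩ := exists_levelAll_le F
  refine ⟨U, hU, fun s hs => MonoidHom.mem_ker.2 ?_⟩
  have h2 : rbarM rbar s = 1 := h1 s fun x hx => hUF hs ⟨x, hx⟩
  apply Units.ext
  rw [Units.val_one, ← h2, rbarM_apply]

include hb in
/-- `det rbar` is the mod `p` cyclotomic character -/
theorem detCyclo_of_hb (p : ℕ) [Fact p.Prime] [Algebra (ZMod p) k]
    (hdet : (GaloisRepAdic.ofResidualGaloisRep ρbar).DetIsCyclotomic p) :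
    TwistDict.DetCyclo p rbar := by
  refine TwistDict.detCyclo_of_forall p fun σ a ha => ?_
  obtain ⟨hp, h1⟩ := hdet
  have hp0 : (p : k) = 0 := by
    rw [IsLocalRing.maximalIdeal_eq_bot] at hp
    exact hp
  have h2 := h1 1 σ a (fun μ hμ => ha μ (by rwa [pow_one] at hμ))
  rw [pow_one, hp0, Ideal.span_singleton_eq_bot.2 rfl, Ideal.mem_bot, sub_eq_zero] at h2
  rw [← h2, hb σ]
  exact LinearMap.det_toMatrix b (ρbar.ρ σ)

end Prelim

/-! ### The D-layer inputs -/

section DIn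

variable [Finite k]

/-- **The inputs of the D-layer at a finite set `S` of primes**, for one matrix form `rbar`:
the dictionary between the cocycle model and the level-constant cohomology of `G_{ℚ,S}`, finiteness,
the level of `rbar`, and the Euler characteristic inequality. -/
def DIn (p : ℕ) [Fact p.Prime] [Algebra (ZMod p) k] (rbar : GQ →* GL (Fin 2) k)
    (S : Finset Nat.Primes) : Prop :=
  ∀ Sg : Finset ℕ, (∀ q ∈ Sg, q.Prime) → (∀ q : Nat.Primes, q ∈ S ↔ (q : ℕ) ∈ Sg) →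
    Nonempty (Sel Sg (LocCond.ofLocal (fullFam (Mrep rbar))) ≃
      H (levelsS S) (AK p (Mrep rbar)) 1) ∧
    Nonempty (Sel Sg (LocCond.ofLocal (fullFam (MrepTw rbar))) ≃
      H (levelsS S) (AK p (MrepTw rbar)) 1) ∧
    Nonempty (Sel Sg (LocCond.ofLocal (strictFam (Mrep rbar))) ≃
      ↥(sha1 (rv S) (hrv S) (AK p (Mrep rbar)))) ∧
    Finite (H (levelsS S) (AK p (Mrep rbar)) 1) ∧
    Module.Finite (ZMod p) (H (levelsS S) (NTw p rbar) 1) ∧
    Module.Finite (ZMod p) (H (levelsS S) (NTw p rbar) 2) ∧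
    EC.chi S (NTw p rbar) ≤ -(Module.finrank (ZMod p) k : ℤ) ∧
    (∃ U ∈ (levelsS S).sets, ∀ s ∈ U, rbar s = 1) ∧
    ∀ q : ↥S, fixCard (Mrep rbar) ((q : Nat.Primes) : ℕ) =
      Nat.card (H (Uv S q) (Rep.res (rv S q) (AK p (Mrep rbar))) 0)

variable {p : ℕ} [Fact p.Prime] [Algebra (ZMod p) k] {rbar : GQ →* GL (Fin 2) k}
  {S : Finset Nat.Primes}

/-- finiteness of `H¹(G_S, AK X)` from `𝔽_p`-finiteness of `H¹(G_S, X|_{𝔽_p})` -/
theorem finite_H_AK (X : Rep.{0} k GQ) (i : ℕ)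
    (h : Module.Finite (ZMod p) (H (levelsS S) (resScalars (TwistDict.phi k p) X) i)) :
    Finite (H (levelsS S) (AK p X) i) := by
  haveI : Finite (H (levelsS S) (resScalars (TwistDict.phi k p) X) i) :=
    Module.finite_of_finite (ZMod p)
  have e : H (levelsS S) (resScalars (TwistDict.phi k p) X) i ≃ H (levelsS S) (AK p X) i :=
    (hEquiv (ZpModel.phi p) (levelsS S) (resScalars (TwistDict.phi k p) X) i).toEquiv
  exact Finite.of_equiv _ e

end DIn

/-! ### The exports -/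

section Main

variable [Finite k] (p : ℕ) [Fact p.Prime] [Algebra (ZMod p) k]

/-- the primes of a finite set of natural numbers, as a `Finset Nat.Primes` -/
noncomputable def primesOf (Sg : Finset ℕ) : Finset Nat.Primes := Sg.subtype Nat.Prime

theorem mem_primesOf (Sg : Finset ℕ) (q : Nat.Primes) : q ∈ primesOf Sg ↔ (q : ℕ) ∈ Sg :=
  Finset.mem_subtype

/-- **(X2) the base inequality**, for a local condition `Pp` at `p` with its local bound. -/
theorem baseExport_of_DIn (hp2 : p ≠ 2) (ρbar : ResidualGaloisRep k)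
    (habs : ρbar.IsAbsolutelyIrreducible)
    (hdet : (GaloisRepAdic.ofResidualGaloisRep ρbar).DetIsCyclotomic p)
    (b : Module.Basis (Fin 2) k ρbar.V) (rbar : GQ →* GL (Fin 2) k)
    (hb : ∀ g, (rbar g : Matrix (Fin 2) (Fin 2) k) = LinearMap.toMatrix b b (ρbar.ρ g))
    (Smin : Finset ℕ) (hSmin : ∀ q ∈ Smin, q.Prime) (hpS : p ∈ Smin)
    (hmin : ∀ q : ℕ, q.Prime → q ≠ p → (q ∈ Smin ↔ ¬ ρbar.IsUnramifiedAt q))
    (hD : DIn p rbar (primesOf Smin))
    (LP : LocPairing p (Mrep rbar) (MrepTw rbar))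
    (hloc : ∀ (q : ℕ) [Fact q.Prime], q ∈ Smin → Finite (H1loc q (Mrep rbar)))
    (hloc' : ∀ (q : ℕ) [Fact q.Prime], q ∈ Smin → Finite (H1loc q (MrepTw rbar)))
    (Pp : GaloisRepAdic (DualNumber k) → Prop)
    (hlocp : Finite (LocQ p (Mrep rbar) (LcOf rbar Pp p)) ∧
      Nat.card (LocQ p (Mrep rbar) (LcOf rbar Pp p)) ≤
        Nat.card k * Nat.card (Fix p (Mrep rbar))) :
    BaseExport p Smin rbar Pp := by
  classical
  haveI : CharP k p := charP_of_injective_algebraMap (algebraMap (ZMod p) k).injective p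
  have h2 : (2 : k) ≠ 0 := by
    intro h
    have h1 : ((2 : ℕ) : k) = 0 := by exact_mod_cast h
    rw [CharP.cast_eq_zero_iff k p] at h1
    exact hp2 ((Nat.prime_dvd_prime_iff_eq (Fact.out : p.Prime) Nat.prime_two).1 h1)
  obtain ⟨hrbar, e0⟩ := exists_factors_of_hb ρbar b rbar hb
  have hdetc := detCyclo_of_hb ρbar b rbar hb p hdet
  have hS : ∀ q : Nat.Primes, q ∈ primesOf Smin ↔ (q : ℕ) ∈ Smin := mem_primesOf Smin
  have hpS' : pPrime p ∈ primesOf Smin := (hS _).2 hpS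
  obtain ⟨⟨eM⟩, ⟨eTw⟩, ⟨eStr⟩, hfM, hf1, hf2, hchi, hlev, hDd⟩ := hD Smin hSmin hS
  have hfin : Finite (Sel Smin (LocCond.ofLocal (fullFam (Mrep rbar)))) := by
    haveI := hfM
    exact Finite.of_equiv _ eM.symm
  have hfin' : Finite (Sel Smin (LocCond.ofLocal (fullFam (MrepTw rbar)))) := by
    haveI := finite_H_AK (MrepTw rbar) 1 hf1
    exact Finite.of_equiv _ eTw.symm
  refine ⟨LP, card_sel_LcFam_le p hp2 ρbar b rbar hb hrbar e0 Smin hSmin hpS hmin Pp LP hlocp
    hfin hfin' hloc hloc' ?_⟩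
  exact ecInput_of_dict h2 hpS' (globalInputs p (primesOf Smin) hp2 hpS') hdetc hlev
    (fun X hX => SchurAd.eq_zero_of_forall_ρ_eq h2 ρbar habs b rbar hb X hX) hchi
    (hf1 := hf1) (hf2 := hf2) Smin hSmin hS (Nat.card_congr eTw) (Nat.card_congr eStr) hDd

/-- **(X3) finiteness of all Selmer groups.** -/
theorem finExport_of_DIn (rbar : GQ →* GL (Fin 2) k) (Smin : Finset ℕ)
    (hSmin : ∀ q ∈ Smin, q.Prime)
    (hD : ∀ S : Finset Nat.Primes, (∀ q : Nat.Primes, (q : ℕ) ∈ Smin → q ∈ S) → DIn p rbar S)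
    (hFS : ∀ (X : Rep.{0} k GQ) (Sg S' : Finset ℕ), (∀ q ∈ Sg, q.Prime → q ∈ S') →
      ∀ Lc : LocCond X, Finite (Sel S' (LocCond.ofLocal (fullFam X))) → Finite (Sel Sg Lc)) :
    FinExport rbar := by
  classical
  have key : ∀ Sg : Finset ℕ,
      Finite (Sel (Sg.filter Nat.Prime ∪ Smin) (LocCond.ofLocal (fullFam (Mrep rbar)))) ∧
      Finite (Sel (Sg.filter Nat.Prime ∪ Smin) (LocCond.ofLocal (fullFam (MrepTw rbar)))) := by
    intro Sg
    have hS'prime : ∀ q ∈ Sg.filter Nat.Prime ∪ Smin, q.Prime := by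
      intro q hq
      rcases Finset.mem_union.1 hq with h | h
      · exact (Finset.mem_filter.1 h).2
      · exact hSmin q h
    obtain ⟨⟨eM⟩, ⟨eTw⟩, -, hfM, hf1, -⟩ :=
      hD (primesOf (Sg.filter Nat.Prime ∪ Smin))
        (fun q hq => (mem_primesOf _ q).2 (Finset.mem_union_right _ hq))
        (Sg.filter Nat.Prime ∪ Smin) hS'prime (mem_primesOf _)
    refine ⟨?_, ?_⟩
    · haveI := hfM
      exact Finite.of_equiv _ eM.symm
    · haveI := finite_H_AK (MrepTw rbar) 1 hf1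
      exact Finite.of_equiv _ eTw.symm
  refine ⟨fun Sg Lc => ?_, fun Sg Lc => ?_⟩
  · exact hFS (Mrep rbar) Sg (Sg.filter Nat.Prime ∪ Smin)
      (fun q hq hqp => Finset.mem_union_left _ (Finset.mem_filter.2 ⟨hq, hqp⟩)) Lc (key Sg).1
  · exact hFS (MrepTw rbar) Sg (Sg.filter Nat.Prime ∪ Smin)
      (fun q hq hqp => Finset.mem_union_left _ (Finset.mem_filter.2 ⟨hq, hqp⟩)) Lc (key Sg).2

/-- **THE EXPORT OF `S56/Base`**, in the shape consumed by `Count/Halves.halves_of_exports`. -/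
theorem exports_of_inputs (hp2 : p ≠ 2) (ρbar : ResidualGaloisRep k)
    (habs : ρbar.IsAbsolutelyIrreducible)
    (hdet : (GaloisRepAdic.ofResidualGaloisRep ρbar).DetIsCyclotomic p)
    (b : Module.Basis (Fin 2) k ρbar.V) (rbar : GQ →* GL (Fin 2) k)
    (hb : ∀ g, (rbar g : Matrix (Fin 2) (Fin 2) k) = LinearMap.toMatrix b b (ρbar.ρ g))
    (Smin : Finset ℕ) (hSmin : ∀ q ∈ Smin, q.Prime) (hpS : p ∈ Smin)
    (hmin : ∀ q : ℕ, q.Prime → q ≠ p → (q ∈ Smin ↔ ¬ ρbar.IsUnramifiedAt q))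
    (hD : ∀ S : Finset Nat.Primes, (∀ q : Nat.Primes, (q : ℕ) ∈ Smin → q ∈ S) → DIn p rbar S)
    (hFS : ∀ (X : Rep.{0} k GQ) (Sg S' : Finset ℕ), (∀ q ∈ Sg, q.Prime → q ∈ S') →
      ∀ Lc : LocCond X, Finite (Sel S' (LocCond.ofLocal (fullFam X))) → Finite (Sel Sg Lc))
    (LP : LocPairing p (Mrep rbar) (MrepTw rbar))
    (hloc : ∀ (q : ℕ) [Fact q.Prime], q ∈ Smin → Finite (H1loc q (Mrep rbar)))
    (hloc' : ∀ (q : ℕ) [Fact q.Prime], q ∈ Smin → Finite (H1loc q (MrepTw rbar)))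
    (hso : Finite (LocQ p (Mrep rbar) (LcOf rbar (Pso p) p)) ∧
      Nat.card (LocQ p (Mrep rbar) (LcOf rbar (Pso p) p)) ≤
        Nat.card k * Nat.card (Fix p (Mrep rbar)))
    (hfl : Finite (LocQ p (Mrep rbar) (LcOf rbar (Pfl p) p)) ∧
      Nat.card (LocQ p (Mrep rbar) (LcOf rbar (Pfl p) p)) ≤
        Nat.card k * Nat.card (Fix p (Mrep rbar))) :
    BaseExport p Smin rbar (Pso p) ∧ BaseExport p Smin rbar (Pfl p) ∧ FinExport rbar :=
  ⟨baseExport_of_DIn p hp2 ρbar habs hdet b rbar hb Smin hSmin hpS hmin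
      (hD _ fun q hq => (mem_primesOf Smin q).2 hq) LP hloc hloc' (Pso p) hso,
    baseExport_of_DIn p hp2 ρbar habs hdet b rbar hb Smin hSmin hpS hmin
      (hD _ fun q hq => (mem_primesOf Smin q).2 hq) LP hloc hloc' (Pfl p) hfl,
    finExport_of_DIn p rbar Smin hSmin hD hFS⟩

end Main

end Fermat.Agent.S56.Base.Export
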