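/-
PROJECT T (S56), block (a1-II) `S56/Base`, leaf (FS) of the chief's final glue `Base/Export`
(typed by helper13): FINITENESS OF EVERY SELMER GROUP FROM THE FULL ONE.

For `Sg ⊆ S'` (on primes) and ANY local condition `Lc`, the Selmer cocycles `SelZ Sg Lc` are
Selmer cocycles for `S'` with no local condition (`fullFam X`): a cocycle unramified outside `Sg`
is unramified outside `S'`, and the full condition `resFun (Dq q) c ∈ Z1 (Dq q) X` holds for every
global cocycle.  Both Selmer groups are quotients by the same `B1g X`, so the induced map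
`Sel Sg Lc → Sel S' full` is injective.
-/
import Fermat.Agent.S56.Base.Count

set_option autoImplicit false

namespace Fermat.Agent.S56.Base.FinSel

open Fermat.Agent.CFT.LC Fermat.Agent.CFT.Bridge Fermat.Agent.S56.Coh
open Fermat.Agent.S56.Base.Count

/-- Selmer cocycles for `(Sg, Lc)` are Selmer cocycles for `(S', full)` as soon as the primes of
`Sg` lie in `S'`. -/
theorem selZ_le_selZ_full {k : Type} [Field k] (X : Rep.{0} k GQ) (Sg S' : Finset ℕ)
    (hsub : ∀ q ∈ Sg, q.Prime → q ∈ S') (Lc : LocCond X) :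
    SelZ Sg Lc ≤ SelZ S' (LocCond.ofLocal (fullFam X)) := by
  rintro c ⟨hc, hu, -⟩
  refine ⟨hc, fun q hq hqS' => hu q fun hqSg => hqS' (hsub q hqSg hq.out), fun q _ => ?_⟩
  by_cases hqp : q.Prime
  · have : Fact q.Prime := ⟨hqp⟩
    rw [mem_ofLocal_L_iff]
    exact resFun_mem_Z1 (Dq q) hc
  · rw [ofLocal_L_of_not_prime _ hqp]
    exact Submodule.mem_top

/-- The comparison map `Sel Sg Lc → Sel S' full`. -/
noncomputable def toFull {k : Type} [Field k] (X : Rep.{0} k GQ) (Sg S' : Finset ℕ)
    (hsub : ∀ q ∈ Sg, q.Prime → q ∈ S') (Lc : LocCond X) :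
    Sel Sg Lc →ₗ[k] Sel S' (LocCond.ofLocal (fullFam X)) :=
  Submodule.mapQ _ _ (Submodule.inclusion (selZ_le_selZ_full X Sg S' hsub Lc))
    (fun _ hx => hx)

theorem toFull_injective {k : Type} [Field k] (X : Rep.{0} k GQ) (Sg S' : Finset ℕ)
    (hsub : ∀ q ∈ Sg, q.Prime → q ∈ S') (Lc : LocCond X) :
    Function.Injective (toFull X Sg S' hsub Lc) := by
  rw [← LinearMap.ker_eq_bot, LinearMap.ker_eq_bot']
  intro x hx
  obtain ⟨x, rfl⟩ := Submodule.Quotient.mk_surjective _ x
  rw [toFull, Submodule.mapQ_apply, Submodule.Quotient.mk_eq_zero] at hx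
  rw [Submodule.Quotient.mk_eq_zero]
  exact hx

/-- **(FS)** every Selmer group whose primes lie in `S'` is finite as soon as the full Selmer group
of `S'` (`= H¹(G_{S'}, X)`) is. -/
theorem finite_sel_of_finite_full {k : Type} [Field k] (X : Rep.{0} k GQ) (Sg S' : Finset ℕ)
    (hsub : ∀ q ∈ Sg, q.Prime → q ∈ S') (Lc : LocCond X)
    (h : Finite (Sel S' (LocCond.ofLocal (fullFam X)))) : Finite (Sel Sg Lc) :=
  Finite.of_injective _ (toFull_injective X Sg S' hsub Lc)

end Fermat.Agent.S56.Base.FinSel
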