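/-
PROJECT T (S56), block (a1-II) = S56/Base (helper23): TATE DUALITY IN DEGREE ONE for a class formation,
in the push-forward (resolution) model of the D-layer of S55.

`cf : ClassFormation 𝒰 C` over a PID `k` of characteristic zero with `AddHomsLinear` (`k = ℤ_(p)`),
`A` a finite smooth representation killed by `m`, `RA → FA → A` its canonical permutation resolution.
With the cofinal exponent-`m` existence statement `N3Cofinal`:

* `theta`            : `H¹(A) →+ Hom(Hom_G(RA, C), H²(C))`, `y ↦ (φ ↦ φ_* (δ y))`;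
* `theta_injective`  : left non-degeneracy;
* `exists_theta_eq`  : every character of `Hom_G(RA, C)` killing the image of `Hom_G(FA, C)` is a `theta y`;
* `sep`              : (`m = p` prime, `H²(C)` has an element of order `p`) a morphism `ψ : RA ⟶ C`
                       with `ψ_* (δ y) = 0` for all `y ∈ H¹(A)` extends to `FA`  (right non-degeneracy).

This is `D/ShaOne` (THEOREM II) with NO local conditions; the hypotheses are discharged exactly as in
`D/Main.result_of_datum`.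
-/
import Fermat.Agent.CFT.D.Main

set_option autoImplicit false
set_option linter.unusedSectionVars false

noncomputable section

namespace Fermat.Agent.S56.Base.TateDual

open CategoryTheory groupCohomology
open Fermat.Agent.CFT.LC Fermat.Agent.CFT.LC.El Fermat.Agent.CFT.A7 Fermat.Agent.CFT.A5
  Fermat.Agent.CFT.D Fermat.Agent.CFT.D.Realize

variable {k G : Type} [CommRing k] [Group G]

/-- **(N3) cofinally**: below every level there is a level of index divisible by `m` whose norms are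
`m`-th multiples. (The shape of the field `n3` of `D.Main.Datum`.) -/
def N3Cofinal (𝒰 : Levels G) (C : Rep.{0} k G) (m : ℕ) : Prop :=
  ∀ U₀ ∈ 𝒰.sets, ∃ U' : Subgroup G, ∃ _ : U'.Normal,
    U' ∈ 𝒰.sets ∧ U' ≤ U₀ ∧ ((m : ℕ) : k) ∣ ((Nat.card (G ⧸ U') : ℕ) : k) ∧
      ∀ [Fintype (layerSub U₀ U')], N3 C ((m : ℕ) : k) U₀ U'

variable [IsDomain k] [IsPrincipalIdealRing k] [CharZero k] {𝒰 : Levels G} [𝒰.IsFin]
  {C : Rep.{0} k G}

section Main

variable (hR : AddHomsLinear k) (cf : ClassFormation 𝒰 C)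
  (A : Rep.{0} k G) [Finite A.V] (smA : IsSmooth 𝒰 A)

/-- The pairing map `H¹(A) →+ Hom(Hom_G(RA, C), H²(C))`, `y ↦ (φ ↦ φ_* (δ y))`. -/
def theta : H 𝒰 A 1 →+ ((Resolution.RA A ⟶ C) →+ H 𝒰 C 2) :=
  Fermat.Agent.CFT.D.theta (SA := Resolution.SA A) (Resolution.SA_shortExact A) (Resolution.isSmooth_FA A smA)
    (push 𝒰 (Resolution.RA A) C 2)

lemma theta_apply (y : H 𝒰 A 1) (φ : Resolution.RA A ⟶ C) :
    theta A smA y φ = mapId φ 2 (lcδ (X := Resolution.SA A) (Resolution.SA_shortExact A)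
      (Resolution.isSmooth_FA A smA) 1 2 rfl y) := rfl

include smA in
/-- A level acting trivially on `FA A`. -/
lemma exists_level_trivial :
    ∃ U₀ ∈ 𝒰.sets, ∀ u ∈ U₀, ∀ b : (Resolution.FA A).V, (Resolution.FA A).ρ u b = b :=
  PermH1.exists_level_trivial (Resolution.basisFA A) (Resolution.FA_ρ_basis A) 𝒰
    (Resolution.isOpen_stabilizer A smA)

include hR cf smA in
/-- Right non-degeneracy of the push-forward pairing on `H²(FA)`. -/
lemma hcF (y : H 𝒰 (Resolution.FA A) 2)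
    (hy : ∀ ψ : Resolution.FA A ⟶ C, mapId ψ 2 y = 0) : y = 0 := by
  obtain ⟨U₀, hU₀, hFtriv⟩ := exists_level_trivial A smA
  exact cf.eq_zero_of_forall_mapId_eq_zero U₀ hU₀ hFtriv
    (NTGlue.ntb_of_pid hR cf U₀ (Resolution.FA A) hFtriv) y hy

include hR cf smA in
/-- Right non-degeneracy of the push-forward pairing on `H²(RA)`. -/
lemma hfR (x : H 𝒰 (Resolution.RA A) 2)
    (hx : ∀ φ : Resolution.RA A ⟶ C, mapId φ 2 x = 0) : x = 0 := by
  obtain ⟨U₀, hU₀, hFtriv⟩ := exists_level_trivial A smA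
  have hRtriv : ∀ u ∈ U₀, ∀ b : (Resolution.RA A).V, (Resolution.RA A).ρ u b = b :=
    fun u hu b => Subtype.ext (hFtriv u hu b.1)
  have hfreeR : Module.Free k (Resolution.RA A).V := Resolution.free_RA A
  have hfinR : Module.Finite k (Resolution.RA A).V := Resolution.finite_RA A
  exact cf.eq_zero_of_forall_mapId_eq_zero U₀ hU₀ hRtriv
    (NTGlue.ntb_of_pid hR cf U₀ (Resolution.RA A) hRtriv) x hx

include hR cf in
/-- **Left non-degeneracy**: `theta` is injective. -/
theorem theta_injective (y : H 𝒰 A 1) (hy : theta (C := C) A smA y = 0) : y = 0 :=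
  Fermat.Agent.CFT.D.theta_injective (SA := Resolution.SA A) (Resolution.SA_shortExact A)
    (Resolution.isSmooth_FA A smA) (push 𝒰 (Resolution.RA A) C 2)
    (fun x => Resolution.eq_zero_of_H1_FA A smA x) (hfR hR cf A smA) y hy

variable (m : ℕ) (hm0 : m ≠ 0) (hmA : ∀ a : A.V, ((m : ℕ) : k) • a = 0)
  (hn3 : N3Cofinal 𝒰 C m)

include hR cf smA hm0 hmA hn3 in
/-- **Realizability**: a character of `Hom_G(RA, C)` killing the image of `Hom_G(FA, C)` is
`φ ↦ φ_* x` for a class `x ∈ H²(RA)`. -/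
theorem exists_mapId_eq_of_kills (χ : (Resolution.RA A ⟶ C) →+ H 𝒰 C 2)
    (hχ : ∀ ψ : Resolution.FA A ⟶ C, χ (Resolution.incl A ≫ ψ) = 0) :
    ∃ x : H 𝒰 (Resolution.RA A) 2, ∀ φ : Resolution.RA A ⟶ C, mapId φ 2 x = χ φ := by
  obtain ⟨U₀, hU₀, hFtriv⟩ := exists_level_trivial A smA
  have hRtriv : ∀ u ∈ U₀, ∀ b : (Resolution.RA A).V, (Resolution.RA A).ρ u b = b :=
    fun u hu b => Subtype.ext (hFtriv u hu b.1)
  have hprojR : Module.Projective k (Resolution.RA A).V := Resolution.projective_RA A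
  have hfreeR : Module.Free k (Resolution.RA A).V := Resolution.free_RA A
  have hfinR : Module.Finite k (Resolution.RA A).V := Resolution.finite_RA A
  obtain ⟨U', hU'n, hU', hle, hdvd, hN3⟩ := hn3 U₀ hU₀
  have hfi : U'.FiniteIndex := cf.finiteIndex U' hU'
  have hfq : Finite (G ⧸ U') := Subgroup.finite_quotient_of_finiteIndex
  let _ : Fintype (G ⧸ U') := Fintype.ofFinite _
  let _ : Fintype (layerSub U₀ U') := Fintype.ofFinite _
  exact exists_mapId_eq cf (Resolution.incl A) (Resolution.incl_injective A) m hm0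
    (Resolution.exists_incl_eq_smul A ((m : ℕ) : k) hmA) U₀ U' hU' hle hRtriv hdvd hN3
    (NTGlue.ntc_of_pid hR cf U' hU' (Resolution.RA A) (fun u hu b => hRtriv u (hle hu) b)) χ hχ

include hR cf hm0 hmA hn3 in
/-- **Surjectivity of `theta`** onto the characters killing the image of `Hom_G(FA, C)`. -/
theorem exists_theta_eq (χ : (Resolution.RA A ⟶ C) →+ H 𝒰 C 2)
    (hχ : ∀ ψ : Resolution.FA A ⟶ C, χ (Resolution.incl A ≫ ψ) = 0) :
    ∃ y : H 𝒰 A 1, theta A smA y = χ := by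
  obtain ⟨x, hx⟩ := exists_mapId_eq_of_kills hR cf A smA m hm0 hmA hn3 χ hχ
  have hx0 : mapId (Resolution.incl A) 2 x = 0 := by
    apply hcF hR cf A smA
    intro ψ
    rw [mapId_mapId_apply]
    exact (hx _).trans (hχ ψ)
  obtain ⟨y, hy⟩ := exists_lcδ_eq (X := Resolution.SA A) (Resolution.SA_shortExact A)
    (Resolution.isSmooth_FA A smA) 1 2 rfl x hx0
  refine ⟨y, ?_⟩
  ext φ
  refine (theta_apply A smA y φ).trans ?_
  rw [hy]
  exact hx φ

end Main

section Sep

variable (hR : AddHomsLinear k) (cf : ClassFormation 𝒰 C)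
  (A : Rep.{0} k G) [Finite A.V] (smA : IsSmooth 𝒰 A)
  (p : ℕ) [Fact p.Prime] (hpA : ∀ a : A.V, ((p : ℕ) : k) • a = 0) (hn3 : N3Cofinal 𝒰 C p)

/-- The image of `Hom_G(FA, C)` in `Hom_G(RA, C)`. -/
def imF : AddSubgroup (Resolution.RA A ⟶ C) :=
  (Preadditive.leftComp C (Resolution.incl A)).range

lemma mem_imF {φ : Resolution.RA A ⟶ C} :
    φ ∈ imF (C := C) A ↔ ∃ ψ : Resolution.FA A ⟶ C, Resolution.incl A ≫ ψ = φ := Iff.rfl

include hpA in
/-- `Hom_G(RA, C) / im Hom_G(FA, C)` is killed by `p`. -/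
lemma nsmul_mem_imF (φ : Resolution.RA A ⟶ C) : p • φ ∈ imF (C := C) A := by
  obtain ⟨ψ, hψ⟩ := exists_comp_eq_smul (Resolution.incl A) (Resolution.incl_injective A)
    ((p : ℕ) : k) (Resolution.exists_incl_eq_smul A ((p : ℕ) : k) hpA) φ
  refine (mem_imF A).2 ⟨ψ, ?_⟩
  rw [hψ, Nat.cast_smul_eq_nsmul]

/-- `Hom_G(RA, C) / im Hom_G(FA, C)` (this is `H¹(Hom(A, C))` when `H¹(Hom(FA, C)) = 0`). -/
abbrev Quo (C : Rep.{0} k G) : Type := (Resolution.RA A ⟶ C) ⧸ imF (C := C) A

include hpA in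
lemma nsmul_quo (q : Quo A C) : p • q = 0 := by
  induction q using QuotientAddGroup.induction_on with
  | H φ =>
    rw [← QuotientAddGroup.mk_nsmul]
    exact (QuotientAddGroup.eq_zero_iff _).2 (nsmul_mem_imF A p hpA φ)

/-- The `𝔽_p`-vector space structure of `Quo`. -/
@[reducible] def quoModule : Module (ZMod p) (Quo A C) := AddCommGroup.zmodModule (nsmul_quo A p hpA)

include hR cf smA hpA hn3 in
/-- **Right non-degeneracy (separation)**: a morphism `ψ : RA ⟶ C` whose push-forward kills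
`δ(H¹(A))` is the restriction of a morphism `FA ⟶ C`. Needs one element of order `p` in
`H²(C)`. -/
theorem sep (t : H 𝒰 C 2) (ht0 : t ≠ 0) (htp : p • t = 0)
    (ψ : Resolution.RA A ⟶ C) (h : ∀ y : H 𝒰 A 1, theta A smA y ψ = 0) :
    ∃ θ' : Resolution.FA A ⟶ C, Resolution.incl A ≫ θ' = ψ := by
  classical
  have hp : p.Prime := Fact.out
  by_contra hne
  have hψ : ψ ∉ imF (C := C) A := fun hmem => hne ((mem_imF A).1 hmem)
  haveI : Module (ZMod p) (Quo A C) := quoModule A p hpA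
  have hq0 : (QuotientAddGroup.mk ψ : Quo A C) ≠ 0 :=
    fun h0 => hψ ((QuotientAddGroup.eq_zero_iff _).1 h0)
  -- a linear functional not vanishing at the class of `ψ`
  obtain ⟨f, hf⟩ : ∃ f : Quo A C →ₗ[ZMod p] ZMod p, f (QuotientAddGroup.mk ψ) ≠ 0 := by
    by_contra hall
    push Not at hall
    exact hq0 ((Module.forall_dual_apply_eq_zero_iff (ZMod p) _).1 hall)
  -- the character `ZMod p →+ H²(C)`, `1 ↦ t`
  let g : ZMod p →+ H 𝒰 C 2 := ZMod.lift p ⟨zmultiplesHom _ t, by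
    change ((p : ℕ) : ℤ) • t = 0
    rw [natCast_zsmul]
    exact htp⟩
  have hg1 : g 1 = t := by
    have h1 := ZMod.lift_coe p (⟨zmultiplesHom _ t, by
      change ((p : ℕ) : ℤ) • t = 0
      rw [natCast_zsmul]
      exact htp⟩ : {f : ℤ →+ H 𝒰 C 2 // f p = 0}) 1
    simpa using h1
  have hg_ne : ∀ a : ZMod p, a ≠ 0 → g a ≠ 0 := by
    intro a ha hga
    apply ht0
    have h1 : a⁻¹ * a = 1 := inv_mul_cancel₀ ha
    have h2 : a⁻¹ * a = (a⁻¹).val • a := by rw [nsmul_eq_mul, ZMod.natCast_zmod_val]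
    rw [← hg1, ← h1, h2, map_nsmul, hga, smul_zero]
  let χ : (Resolution.RA A ⟶ C) →+ H 𝒰 C 2 :=
    g.comp (f.toAddMonoidHom.comp (QuotientAddGroup.mk' (imF (C := C) A)))
  have hχ : ∀ ψ' : Resolution.FA A ⟶ C, χ (Resolution.incl A ≫ ψ') = 0 := by
    intro ψ'
    change g (f (QuotientAddGroup.mk (Resolution.incl A ≫ ψ'))) = 0
    rw [(QuotientAddGroup.eq_zero_iff _).2 ((mem_imF A).2 ⟨ψ', rfl⟩), map_zero, map_zero]
  obtain ⟨y, hy⟩ := exists_theta_eq hR cf A smA p hp.ne_zero hpA hn3 χ hχ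
  have h0 := h y
  rw [hy] at h0
  exact hg_ne _ hf h0

end Sep

end Fermat.Agent.S56.Base.TateDual
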