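/-
PROJECT T (S56), block (a1-II) Base (chief helper8): THE EXPORT OF `S56/Base`, INPUTS DISCHARGED.

`dIn` : the D-layer inputs `Export.DIn p rbar S` at every finite set `S ∋ p` outside which `rbar` is
unramified, from

* the cocycle/class dictionary (helper24 `Base/Dict/Global`, helper18 `Base/DictCard`,
  `Base/DictFin`, helper21 `Base/Pairing/Dict/Level`),
* the Euler characteristic of `ad⁰ρ̄(1)` (helper26 `Base/EC/ChiAdTw`, helper11 `Base/EC/E3Final`,
  helper10 `Base/Arch`).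

`exports_of_fl` : `BaseExport (Pso) ∧ BaseExport (Pfl) ∧ FinExport`, the hypothesis `hBase` of
`Count/Halves.halves_of_exports`, from the local bound of block (a3) at `p` alone (the local pairing
is helper23's `Base/Pairing/Export.localPairing`, the ordinary bound is (a2) `Ord/Main`).
-/
import Fermat.Agent.S56.Base.Export
import Fermat.Agent.S56.Base.EC.ChiAdTw
import Fermat.Agent.S56.Base.EC.E3Final
import Fermat.Agent.S56.Base.Dict.Global
import Fermat.Agent.S56.Base.DictLocFin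
import Fermat.Agent.S56.Base.Pairing.Dict.Level
import Fermat.Agent.S56.Base.Pairing.Export
import Fermat.Agent.S56.Base.FinSel
import Fermat.Agent.S56.Ord.Main

set_option autoImplicit false

namespace Fermat.Agent.S56.Base.Final

open CategoryTheory ExtCitation
open Fermat.Agent.CFT.LC Fermat.Agent.CFT.Bridge Fermat.Agent.CFT.D Fermat.Agent.CFT.D.Reduce
open Fermat.Agent.S56.Coh Fermat.Agent.S56.Coh.CocDefs
open Fermat.Agent.S56.Count.Main Fermat.Agent.S56.Count.Halves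
open Fermat.Agent.S56.Base.Count Fermat.Agent.S56.Base.Main Fermat.Agent.S56.Base.ECMain
open Fermat.Agent.S56.Base.Export

variable {k : Type} [Field k] [Finite k] (p : ℕ) [Fact p.Prime] [Algebra (ZMod p) k]

/-- **The D-layer inputs hold** at every `S ∋ p` outside which `rbar` is unramified. -/
theorem dIn (hp2 : p ≠ 2) (rbar : GQ →* GL (Fin 2) k) (hdetc : TwistDict.DetCyclo p rbar)
    (hopen : ∃ U ∈ levelsAll.sets, U ≤ rbar.ker) (S : Finset Nat.Primes) (hpS : pPrime p ∈ S)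
    (hunr : ∀ (q : ℕ) [Fact q.Prime], (⟨q, Fact.out⟩ : Nat.Primes) ∉ S →
      ∀ s ∈ Iq q, rbar s = 1) :
    DIn p rbar S := by
  intro Sg _ hS
  have hker : rbar.ker ∈ (levelsS S).sets :=
    Pairing.Dict.Level.mem_levelsS_of_inertia_le S rbar.ker hopen
      (fun q _ hq s hs => MonoidHom.mem_ker.2 (hunr q hq s hs))
  have hlev : ∃ U ∈ (levelsS S).sets, ∀ s ∈ U, rbar s = 1 :=
    ⟨rbar.ker, hker, fun s hs => MonoidHom.mem_ker.1 hs⟩
  have hSS : Dict.Global.SameSet S Sg := fun q hq => (hS ⟨q, hq⟩).symm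
  have hLT : Dict.Global.LevelTriv S (Mrep rbar) :=
    ⟨rbar.ker, hker, fun s hs =>
      (Fermat.Agent.S56.TW.TWPrime.unr_of_rbar_eq_one rbar (MonoidHom.mem_ker.1 hs)).1⟩
  have hLT' : Dict.Global.LevelTriv S (MrepTw rbar) :=
    ⟨rbar.ker, hker, fun s hs =>
      (Fermat.Agent.S56.TW.TWPrime.unr_of_rbar_eq_one rbar (MonoidHom.mem_ker.1 hs)).2⟩
  have hE3 : EC.Reduce.E3Hyp p S := EC.e3_export hp2 hpS
  refine ⟨⟨(Dict.Global.selFullEquiv _ hSS hLT).toEquiv⟩,
    ⟨(Dict.Global.selFullEquiv _ hSS hLT').toEquiv⟩,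
    ⟨(Dict.Global.selStrictEquiv _ hSS hLT).toEquiv⟩, ?_,
    EC.ChiAdTw.finite_H1_adTw_of_E3 p rbar hp2 S hE3 hdetc hker,
    EC.ChiAdTw.finite_H2_adTw_of_E3 p rbar hp2 S hE3 hdetc hker,
    EC.ChiAdTw.chi_adTw_le_of_E3 p rbar hp2 S hE3 hdetc hker, hlev, ?_⟩
  · haveI := finite_AK_Mrep p rbar
    exact DictFin.finite_H1_levelsS S hp2 hpS (AK p (Mrep rbar)) (isSmooth_AK_Mrep p hlev)
      (natCast_smul_AK p (Mrep rbar))
  · intro q
    haveI : Fact ((q : Nat.Primes) : ℕ).Prime := ⟨(q : Nat.Primes).2⟩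
    rw [fixCard_of_prime]
    exact DictCard.card_fix _ S (Mrep rbar) q

/-- **THE EXPORT OF `S56/Base`** (`hBase` of `Count/Halves.halves_of_exports`), from the flat local
bound (a3) at `p`. -/
theorem exports_of_fl (hp2 : p ≠ 2) (ρbar : ResidualGaloisRep k)
    (habs : ρbar.IsAbsolutelyIrreducible)
    (hdet : (GaloisRepAdic.ofResidualGaloisRep ρbar).DetIsCyclotomic p)
    (b : Module.Basis (Fin 2) k ρbar.V) (rbar : GQ →* GL (Fin 2) k)
    (hb : ∀ g, (rbar g : Matrix (Fin 2) (Fin 2) k) = LinearMap.toMatrix b b (ρbar.ρ g))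
    (Smin : Finset ℕ) (hSmin : ∀ q ∈ Smin, q.Prime) (hpS : p ∈ Smin)
    (hmin : ∀ q : ℕ, q.Prime → q ≠ p → (q ∈ Smin ↔ ¬ ρbar.IsUnramifiedAt q))
    (hfl : Finite (LocQ p (Mrep rbar) (LcOf rbar (Pfl p) p)) ∧
      Nat.card (LocQ p (Mrep rbar) (LcOf rbar (Pfl p) p)) ≤
        Nat.card k * Nat.card (Fix p (Mrep rbar))) :
    BaseExport p Smin rbar (Pso p) ∧ BaseExport p Smin rbar (Pfl p) ∧ FinExport rbar := by
  haveI : CharP k p := charP_of_injective_algebraMap (algebraMap (ZMod p) k).injective p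
  have hdetc := detCyclo_of_hb ρbar b rbar hb p hdet
  have hopen := exists_levelAll_le_ker ρbar b rbar hb
  have hunr := Fermat.Agent.S56.TW.OfResidual.rbar_unr_of_hmin ρbar b rbar hb hpS hmin
  have hD : ∀ S : Finset Nat.Primes, (∀ q : Nat.Primes, (q : ℕ) ∈ Smin → q ∈ S) →
      DIn p rbar S := fun S hS =>
    dIn p hp2 rbar hdetc hopen S (hS (pPrime p) hpS)
      (fun q _ hq s hs => hunr q (fun h => hq (hS ⟨q, Fact.out⟩ h)) s hs)
  haveI : Finite (Mrep rbar) := inferInstanceAs (Finite ↥(sl2 k))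
  haveI : Finite (MrepTw rbar) := inferInstanceAs (Finite ↥(sl2 k))
  have hp0 : ((p : ℕ) : k) = 0 := CharP.cast_eq_zero k p
  obtain ⟨U, hU, hUk⟩ := hopen
  have hsm : ∃ U ∈ levelsAll.sets, ∀ s ∈ U, ∀ m : Mrep rbar, (Mrep rbar).ρ s m = m :=
    ⟨U, hU, fun s hs =>
      (Fermat.Agent.S56.TW.TWPrime.unr_of_rbar_eq_one rbar (MonoidHom.mem_ker.1 (hUk hs))).1⟩
  have hsm' : ∃ U ∈ levelsAll.sets, ∀ s ∈ U, ∀ m : MrepTw rbar, (MrepTw rbar).ρ s m = m :=
    ⟨U, hU, fun s hs =>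
      (Fermat.Agent.S56.TW.TWPrime.unr_of_rbar_eq_one rbar (MonoidHom.mem_ker.1 (hUk hs))).2⟩
  exact exports_of_inputs p hp2 ρbar habs hdet b rbar hb Smin hSmin hpS hmin hD
    FinSel.finite_sel_of_finite_full
    (Pairing.Export.localPairing p hp2 rbar hdetc ⟨U, hU, hUk⟩)
    (fun q _ _ => DictLocFin.finite_H1loc (TwistDict.phiK k p (ZpModel.phi p)) (Mrep rbar) q hsm
      (fun x => by rw [hp0, zero_smul]))
    (fun q _ _ => DictLocFin.finite_H1loc (TwistDict.phiK k p (ZpModel.phi p)) (MrepTw rbar) q hsm'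
      (fun x => by rw [hp0, zero_smul]))
    (Fermat.Agent.S56.Ord.Main.card_LcOf_so_le hp2 rbar) hfl

end Fermat.Agent.S56.Base.Final
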