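/-
PROJECT T (S56), block (a1-II) Base, file B0 (helper18): DICTIONARY between the cocycle model of
`S56/Coh/Defs` (`Z1g`, `B1g`, `IsUnramAt`, `Z1 (Dq q)`, `Sel`) and main's level-constant
cohomology of the D-layer (`LC.H (levelsS S) A 1`, `LC.H (Uv S q) (Rep.res (rv S q) A) 1`,
`LC.map (hrv S q) (𝟙 _) 1`).

* `[D1]` global: for a level `U₀ ∈ levelsS S` acting trivially on `A`,
  `Z₁ (levelsS S) A = {c ∈ Z1g A | c unramified at every prime outside S}` and
  `B₁ (levelsS S) A = B1g A`;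
* `[D2]` local: `Z1 (Dq q) A ≃ Z₁ (Uv S q) (Rep.res (rv S q) A)` and the same for `B1`
  (`Dq q = range (primeLocalToGlobal q)`);
* `[D3]` the Selmer group as a subspace of `H (levelsS S) A 1` cut out by local conditions.
-/
import Fermat.Agent.S56.Coh.Lemmas
import Fermat.Agent.CFT.D.Reduce
import Fermat.Agent.CFT.LocalBridge.Conjugacy

set_option autoImplicit false

namespace Fermat.Agent.S56.Base.Dict

open CategoryTheory groupCohomology ExtCitation
open Fermat.Agent.CFT.LC Fermat.Agent.CFT.Bridge Fermat.Agent.CFT.LocalBridge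
open Fermat.Agent.S56.Coh
open scoped Pointwise

variable {k : Type} [CommRing k] {A : Rep.{0} k GQ}

/-! ### Elementary cocycle identities -/

lemma coc_one {c : GQ → A} (hc : ∀ g h : GQ, c (g * h) = A.ρ g (c h) + c g) : c 1 = 0 := by
  have h := hc 1 1
  rw [mul_one, map_one, Module.End.one_apply] at h
  exact left_eq_add.mp h

lemma coc_inv {c : GQ → A} (hc : ∀ g h : GQ, c (g * h) = A.ρ g (c h) + c g) (g : GQ) :
    A.ρ g (c g⁻¹) + c g = 0 := by
  rw [← hc g g⁻¹, mul_inv_cancel, coc_one hc]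

/-- The subgroup `{g ∈ U₀ | c g = 0}` attached to a cocycle `c` and a normal subgroup `U₀` acting
trivially on `A`. -/
def zeroSub (U₀ : Subgroup GQ) (htriv : ∀ s ∈ U₀, ∀ m : A, A.ρ s m = m) (c : GQ → A)
    (hc : ∀ g h : GQ, c (g * h) = A.ρ g (c h) + c g) : Subgroup GQ where
  carrier := {g | g ∈ U₀ ∧ c g = 0}
  mul_mem' := by
    rintro g h ⟨hg, hg0⟩ ⟨hh, hh0⟩
    exact ⟨U₀.mul_mem hg hh, by rw [hc, hh0, hg0, map_zero, add_zero]⟩
  one_mem' := ⟨U₀.one_mem, coc_one hc⟩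
  inv_mem' := by
    rintro g ⟨hg, hg0⟩
    refine ⟨U₀.inv_mem hg, ?_⟩
    have h := coc_inv hc g
    rwa [hg0, add_zero, htriv g hg] at h

lemma mem_zeroSub_iff {U₀ : Subgroup GQ} {htriv : ∀ s ∈ U₀, ∀ m : A, A.ρ s m = m} {c : GQ → A}
    {hc : ∀ g h : GQ, c (g * h) = A.ρ g (c h) + c g} {g : GQ} :
    g ∈ zeroSub U₀ htriv c hc ↔ g ∈ U₀ ∧ c g = 0 := Iff.rfl

lemma zeroSub_le {U₀ : Subgroup GQ} {htriv : ∀ s ∈ U₀, ∀ m : A, A.ρ s m = m} {c : GQ → A}
    {hc : ∀ g h : GQ, c (g * h) = A.ρ g (c h) + c g} : zeroSub U₀ htriv c hc ≤ U₀ :=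
  fun _ h => h.1

instance zeroSub_normal {U₀ : Subgroup GQ} [hn : U₀.Normal]
    {htriv : ∀ s ∈ U₀, ∀ m : A, A.ρ s m = m} {c : GQ → A}
    {hc : ∀ g h : GQ, c (g * h) = A.ρ g (c h) + c g} : (zeroSub U₀ htriv c hc).Normal := by
  refine ⟨fun s hs g => ?_⟩
  obtain ⟨hs, hs0⟩ := hs
  refine ⟨hn.conj_mem s hs g, ?_⟩
  rw [mul_assoc, hc, hc, hs0, add_zero, htriv s hs]
  exact coc_inv hc g

/-- A cocycle is constant on the cosets of `zeroSub`, with values fixed by it. -/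
lemma isLCAt₁_zeroSub {U₀ : Subgroup GQ} {htriv : ∀ s ∈ U₀, ∀ m : A, A.ρ s m = m} {c : GQ → A}
    {hc : ∀ g h : GQ, c (g * h) = A.ρ g (c h) + c g} :
    IsLCAt₁ (zeroSub U₀ htriv c hc) A c :=
  ⟨fun g s hs => by rw [hc, hs.2, map_zero, zero_add], fun g s hs => htriv s hs.1 _⟩

/-! ### [D1] The global dictionary -/

/-- `c` is unramified (in the sense of `Coh.IsUnramAt`, at the fixed places `padicPlace q`) at every
prime outside `S`. -/
def UnrOutside (S : Finset Nat.Primes) (c : GQ → A) : Prop :=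
  ∀ (q : ℕ) [Fact q.Prime], (⟨q, Fact.out⟩ : Nat.Primes) ∉ S → IsUnramAt q c

/-- The cocycles unramified outside `S`, as a submodule of all functions. -/
def unrOutside (S : Finset Nat.Primes) (A : Rep.{0} k GQ) : Submodule k (GQ → A) where
  carrier := {c | UnrOutside S c}
  add_mem' := fun {a b} ha hb q _ hq => (ha q hq).add (hb q hq)
  zero_mem' := fun q _ _ => isUnramAt_zero q
  smul_mem' := fun r a ha q _ hq => (ha q hq).smul r

lemma mem_unrOutside_iff {S : Finset Nat.Primes} {c : GQ → A} :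
    c ∈ unrOutside S A ↔ UnrOutside S c := Iff.rfl

/-- **Key lemma.** For a cocycle `c`, locally constant for the family of all levels and unramified
outside `S`, and a level `U₀` of `levelsS S` acting trivially on `A`, the subgroup
`{g ∈ U₀ | c g = 0}` is a level of `levelsS S`. -/
lemma zeroSub_mem_levelsS (S : Finset Nat.Primes) {U₀ : Subgroup GQ}
    (hU₀ : U₀ ∈ (levelsS S).sets) (htriv : ∀ s ∈ U₀, ∀ m : A, A.ρ s m = m) {c : GQ → A}
    (hc : ∀ g h : GQ, c (g * h) = A.ρ g (c h) + c g) (hlc : IsLC₁ levelsAll A c)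
    (hur : UnrOutside S c) : zeroSub U₀ htriv c hc ∈ (levelsS S).sets := by
  haveI hn : U₀.Normal := (levelsS S).normal U₀ hU₀
  obtain ⟨-, F₀, hF₀, hF₀U⟩ := hU₀
  obtain ⟨Uc, ⟨-, Fc, hFc, hFcU⟩, hcU⟩ := hlc
  haveI := hF₀.1
  haveI := hFc
  set V := zeroSub U₀ htriv c hc with hV
  have hle : (F₀ ⊔ Fc).fixingSubgroup ≤ V := by
    intro s hs
    rw [IntermediateField.fixingSubgroup_sup] at hs
    refine ⟨hF₀U ▸ hs.1, ?_⟩
    have h1 := hcU.1 1 s (hFcU ▸ hs.2)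
    rwa [one_mul, coc_one hc] at h1
  haveI : FiniteDimensional ℚ (F₀ ⊔ Fc : IntermediateField ℚ Qbar) :=
    IntermediateField.finiteDimensional_sup F₀ Fc
  have hopen : IsOpen ((V : Subgroup GQ) : Set GQ) :=
    Subgroup.isOpen_mono hle (F₀ ⊔ Fc).fixingSubgroup_isOpen
  have hclosed : IsClosed ((V : Subgroup GQ) : Set GQ) := Subgroup.isClosed_of_isOpen _ hopen
  set F := IntermediateField.fixedField V with hF
  have hFfix : F.fixingSubgroup = V := InfiniteGalois.fixingSubgroup_fixedField ⟨V, hclosed⟩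
  have hFle : F ≤ F₀ ⊔ Fc := by
    rw [← InfiniteGalois.fixedField_fixingSubgroup (F₀ ⊔ Fc)]
    exact IntermediateField.fixedField_antitone hle
  have hFfin : FiniteDimensional ℚ F :=
    FiniteDimensional.of_injective (IntermediateField.inclusion hFle).toLinearMap
      (IntermediateField.inclusion_injective hFle)
  refine ⟨inferInstance, F, ⟨hFfin, fun q hq P hP g hg => ?_⟩, hFfix⟩
  rw [hFfix]
  haveI : Fact (q : ℕ).Prime := ⟨q.2⟩
  obtain ⟨σ, rfl⟩ := exists_smul_padicPlace_eq (q : ℕ) hP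
  rw [mem_inertiaSubgroupIn_smul_iff] at hg
  have hsU : σ⁻¹ * g * σ ∈ U₀ :=
    hF₀U ▸ hF₀.2 q hq (padicPlace (q : ℕ)) (liesOverPrime_padicPlace (q : ℕ)) hg
  obtain ⟨a, ha⟩ := hur (q : ℕ) hq
  have hs0 : c (σ⁻¹ * g * σ) = 0 := by
    rw [ha _ hg, htriv _ hsU, sub_self]
  have hmem : σ⁻¹ * g * σ ∈ V := ⟨hsU, hs0⟩
  have := (inferInstance : V.Normal).conj_mem _ hmem σ
  simpa [mul_assoc] using this

section Global

variable (S : Finset Nat.Primes) {U₀ : Subgroup GQ} (hU₀ : U₀ ∈ (levelsS S).sets)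
  (htriv : ∀ s ∈ U₀, ∀ m : A, A.ρ s m = m)

include hU₀ htriv in
/-- **[D1]** The `levelsS S`-constant cocycles are the locally constant cocycles unramified
outside `S`. -/
theorem mem_Z₁_levelsS_iff (c : GQ → A) :
    c ∈ Z₁ (levelsS S) A ↔ c ∈ Z1g A ∧ UnrOutside S c := by
  constructor
  · intro h
    rw [mem_Z₁_iff] at h
    obtain ⟨hc, U, hU, hcU⟩ := h
    refine ⟨(mem_Z₁_iff c).2 ⟨hc, U, mem_levelsAll_of_mem_levelsS S hU, hcU⟩, ?_⟩
    intro q _ hq
    refine ⟨0, fun s hs => ?_⟩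
    obtain ⟨-, F, hF, rfl⟩ := hU
    have hsF : s ∈ F.fixingSubgroup :=
      hF.2 ⟨q, Fact.out⟩ hq (padicPlace q) (liesOverPrime_padicPlace q) hs
    have h1 := hcU.1 1 s hsF
    rw [one_mul, coc_one ((mem_cocycles₁_iff c).1 hc)] at h1
    rw [h1, map_zero, sub_zero]
  · rintro ⟨h, hur⟩
    rw [mem_Z₁_iff] at h ⊢
    obtain ⟨hc, hlc⟩ := h
    have hc' := (mem_cocycles₁_iff c).1 hc
    exact ⟨hc, _, zeroSub_mem_levelsS S hU₀ htriv hc' hlc hur, isLCAt₁_zeroSub⟩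

include hU₀ htriv in
theorem Z₁_levelsS_eq : Z₁ (levelsS S) A = Z1g A ⊓ unrOutside S A := by
  ext c
  rw [mem_Z₁_levelsS_iff S hU₀ htriv, Submodule.mem_inf, mem_unrOutside_iff]

include hU₀ htriv in
/-- **[D1]** Coboundaries agree. -/
theorem B₁_levelsS_eq : B₁ (levelsS S) A = B1g A := by
  ext f
  rw [mem_B₁_iff, mem_B₁_iff]
  constructor
  · rintro ⟨a, -, rfl⟩
    exact ⟨a, ⟨U₀, mem_levelsAll_of_mem_levelsS S hU₀, fun s hs => htriv s hs a⟩, rfl⟩
  · rintro ⟨a, -, rfl⟩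
    exact ⟨a, ⟨U₀, hU₀, fun s hs => htriv s hs a⟩, rfl⟩

end Global

/-! ### Functoriality of `H1π'` -/

section MapH1

universe u

variable {k₀ G G' : Type u} [CommRing k₀] [Group G] [Group G'] {𝒰 : Levels G} {𝒰' : Levels G'}
  {X : Rep.{u} k₀ G} {Y : Rep.{u} k₀ G'}

lemma comp_mem_Z₁ {φ : G' →* G} (hφ : Levels.Continuous φ 𝒰' 𝒰) (ψ : Rep.res φ X ⟶ Y)
    {f : G → X} (hf : f ∈ Z₁ 𝒰 X) : (fun g' => ψ.hom (f (φ g'))) ∈ Z₁ 𝒰' Y := by
  rw [mem_Z₁_iff] at hf ⊢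
  obtain ⟨hc, U, hU, hfU⟩ := hf
  rw [mem_cocycles₁_iff] at hc
  refine ⟨(mem_cocycles₁_iff _).2 fun g h => ?_, ?_⟩
  · change ψ.hom (f (φ (g * h))) = Y.ρ g (ψ.hom (f (φ h))) + ψ.hom (f (φ g))
    rw [map_mul, hc, map_add]
    congr 1
    exact (Rep.hom_comm_apply ψ g (f (φ h)))
  · obtain ⟨U', hU', hle⟩ := hφ U hU
    refine ⟨U', hU', fun g s hs => ?_, fun g s hs => ?_⟩
    · change ψ.hom (f (φ (g * s))) = ψ.hom (f (φ g))
      rw [map_mul, hfU.1 _ _ (hle hs)]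
    · change Y.ρ s (ψ.hom (f (φ g))) = ψ.hom (f (φ g))
      rw [← Rep.hom_comm_apply ψ s (f (φ g))]
      congr 1
      exact hfU.2 _ _ (hle hs)

/-- Elementwise description of `LC.map` in degree one, on explicit cocycles. -/
lemma map_H1π' {φ : G' →* G} (hφ : Levels.Continuous φ 𝒰' 𝒰) (ψ : Rep.res φ X ⟶ Y)
    (f : Z₁ 𝒰 X) :
    map hφ ψ 1 (H1π' 𝒰 X f) = H1π' 𝒰' Y ⟨fun g' => ψ.hom (f.1 (φ g')), comp_mem_Z₁ hφ ψ f.2⟩ := by
  change map hφ ψ 1 (Hπ 𝒰 X 1 (toCocyclesLC₁ 𝒰 X f)) = Hπ 𝒰' Y 1 (toCocyclesLC₁ 𝒰' Y _)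
  rw [map_Hπ]
  congr 1

end MapH1

/-! ### [D2] The local dictionary: cocycles on a subgroup `D = range r` versus cocycles on the
source of `r` -/

section Local

variable {Γ : Type} [Group Γ] (r : Γ →* GQ) (D : Subgroup GQ) (hD : r.range = D)

/-- `r`, corestricted to `D = range r`. -/
noncomputable def corange : Γ →* ↥D :=
  r.codRestrict D fun g => hD ▸ ⟨g, rfl⟩

@[simp] lemma corange_coe (g : Γ) : ((corange r D hD g : ↥D) : GQ) = r g := rfl

lemma corange_surjective : Function.Surjective (corange r D hD) := by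
  rintro ⟨x, hx⟩
  obtain ⟨g, rfl⟩ : x ∈ r.range := hD ▸ hx
  exact ⟨g, rfl⟩

/-- Pull back a function on `D` to the source of `r`. -/
noncomputable def pullFun (A : Rep.{0} k GQ) : (↥D → resRep D A) →ₗ[k] (Γ → Rep.res r A) where
  toFun c := fun g => c (corange r D hD g)
  map_add' _ _ := rfl
  map_smul' _ _ := rfl

@[simp] lemma pullFun_apply (c : ↥D → resRep D A) (g : Γ) :
    pullFun r D hD A c g = c (corange r D hD g) := rfl

lemma pullFun_injective : Function.Injective (pullFun r D hD A) := by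
  intro c c' h
  funext x
  obtain ⟨g, rfl⟩ := corange_surjective r D hD x
  exact congrFun h g

lemma pullFun_mem_Z₁_iff (c : ↥D → resRep D A) :
    pullFun r D hD A c ∈ Z₁ (levelsOf r) (Rep.res r A) ↔ c ∈ Z1 D A := by
  rw [mem_Z₁_iff, mem_Z₁_iff, mem_cocycles₁_iff, mem_cocycles₁_iff]
  constructor
  · rintro ⟨hc, U', ⟨U, hU, rfl⟩, hcU⟩
    refine ⟨fun x y => ?_, U.comap D.subtype, Levels.mem_comap_sets hU, fun x s hs => ?_,
      fun x s hs => ?_⟩
    · obtain ⟨g, rfl⟩ := corange_surjective r D hD x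
      obtain ⟨h, rfl⟩ := corange_surjective r D hD y
      have := hc g h
      rw [pullFun_apply, map_mul] at this
      exact this
    · obtain ⟨g, rfl⟩ := corange_surjective r D hD x
      obtain ⟨t, rfl⟩ := corange_surjective r D hD s
      have := hcU.1 g t hs
      rw [pullFun_apply, map_mul] at this
      exact this
    · obtain ⟨g, rfl⟩ := corange_surjective r D hD x
      obtain ⟨t, rfl⟩ := corange_surjective r D hD s
      exact hcU.2 g t hs
  · rintro ⟨hc, U', ⟨U, hU, rfl⟩, hcU⟩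
    refine ⟨fun g h => ?_, U.comap r, Levels.mem_comap_sets hU, fun g s hs => ?_,
      fun g s hs => ?_⟩
    · rw [pullFun_apply, map_mul]
      exact hc _ _
    · rw [pullFun_apply, map_mul]
      exact hcU.1 _ (corange r D hD s) hs
    · exact hcU.2 _ (corange r D hD s) hs

lemma pullFun_mem_B₁_iff (c : ↥D → resRep D A) :
    pullFun r D hD A c ∈ B₁ (levelsOf r) (Rep.res r A) ↔ c ∈ B1 D A := by
  rw [mem_B₁_iff, mem_B₁_iff]
  constructor
  · rintro ⟨a, ⟨U', ⟨U, hU, rfl⟩, ha⟩, hac⟩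
    refine ⟨a, ⟨U.comap D.subtype, Levels.mem_comap_sets hU, fun s hs => ?_⟩, ?_⟩
    · obtain ⟨t, rfl⟩ := corange_surjective r D hD s
      exact ha t hs
    · funext x
      obtain ⟨g, rfl⟩ := corange_surjective r D hD x
      have := congrFun hac g
      rw [d₀₁_hom_apply] at this ⊢
      exact this
  · rintro ⟨a, ⟨U', ⟨U, hU, rfl⟩, ha⟩, rfl⟩
    refine ⟨a, ⟨U.comap r, Levels.mem_comap_sets hU, fun s hs => ?_⟩, ?_⟩
    · exact ha (corange r D hD s) hs
    · funext g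
      rw [pullFun_apply, d₀₁_hom_apply, d₀₁_hom_apply]
      rfl

/-- Every level-constant cocycle on the source of `r` is pulled back from `D = range r`. -/
lemma exists_pullFun_eq {c' : Γ → Rep.res r A} (hc' : c' ∈ Z₁ (levelsOf r) (Rep.res r A)) :
    ∃ c : ↥D → resRep D A, pullFun r D hD A c = c' := by
  classical
  obtain ⟨hc, U', ⟨U, hU, rfl⟩, hcU⟩ := (mem_Z₁_iff c').1 hc'
  have hwd : ∀ g g' : Γ, r g = r g' → c' g = c' g' := by
    intro g g' hgg
    have hs : g⁻¹ * g' ∈ U.comap r := by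
      rw [Subgroup.mem_comap, map_mul, map_inv, hgg, inv_mul_cancel]
      exact U.one_mem
    have := hcU.1 g (g⁻¹ * g') hs
    rw [mul_inv_cancel_left] at this
    exact this.symm
  choose s hs using corange_surjective r D hD
  refine ⟨fun x => c' (s x), ?_⟩
  funext g
  rw [pullFun_apply]
  refine hwd _ _ ?_
  have := congrArg (fun x : ↥D => (x : GQ)) (hs (corange r D hD g))
  exact this

/-- **[D2]** `Z1 D A ≃ Z₁ (levelsOf r) (Rep.res r A)` for `D = range r`. -/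
noncomputable def pullZ (A : Rep.{0} k GQ) :
    ↥(Z1 D A) ≃ₗ[k] ↥(Z₁ (levelsOf r) (Rep.res r A)) :=
  LinearEquiv.ofBijective
    ((pullFun r D hD A ∘ₗ (Z1 D A).subtype).codRestrict (Z₁ (levelsOf r) (Rep.res r A))
      fun c => (pullFun_mem_Z₁_iff r D hD c.1).2 c.2)
    ⟨fun c c' h => Subtype.ext (pullFun_injective r D hD (congrArg Subtype.val h)),
     fun c' => by
      obtain ⟨c, hc⟩ := exists_pullFun_eq r D hD c'.2
      exact ⟨⟨c, (pullFun_mem_Z₁_iff r D hD c).1 (hc ▸ c'.2)⟩, Subtype.ext hc⟩⟩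

@[simp] lemma pullZ_apply_coe (c : ↥(Z1 D A)) (g : Γ) :
    (pullZ r D hD A c).1 g = c.1 (corange r D hD g) := rfl

/-- The class in `H (levelsOf r) (Rep.res r A) 1` of a cocycle on `D = range r`. -/
noncomputable def locClass (A : Rep.{0} k GQ) :
    ↥(Z1 D A) →ₗ[k] H (levelsOf r) (Rep.res r A) 1 :=
  H1π' (levelsOf r) (Rep.res r A) ∘ₗ (pullZ r D hD A).toLinearMap

lemma locClass_surjective : Function.Surjective (locClass r D hD A) :=
  (H1π'_surjective _ _).comp (pullZ r D hD A).surjective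

lemma locClass_eq_zero_iff (c : ↥(Z1 D A)) : locClass r D hD A c = 0 ↔ c.1 ∈ B1 D A := by
  change H1π' _ _ (pullZ r D hD A c) = 0 ↔ _
  rw [H1π'_eq_zero_iff]
  exact pullFun_mem_B₁_iff r D hD c.1

lemma ker_locClass :
    LinearMap.ker (locClass r D hD A) = (B1 D A).comap (Z1 D A).subtype := by
  ext c
  rw [LinearMap.mem_ker, locClass_eq_zero_iff]
  rfl

/-- **[D2]** `Z1 D A / B1 D A ≃ H (levelsOf r) (Rep.res r A) 1` for `D = range r`. -/
noncomputable def h1locEquiv (A : Rep.{0} k GQ) :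
    (↥(Z1 D A) ⧸ (B1 D A).comap (Z1 D A).subtype) ≃ₗ[k] H (levelsOf r) (Rep.res r A) 1 :=
  (Submodule.quotEquivOfEq _ _ (ker_locClass r D hD).symm).trans
    ((locClass r D hD A).quotKerEquivOfSurjective (locClass_surjective r D hD))

@[simp] lemma h1locEquiv_mk (c : ↥(Z1 D A)) :
    h1locEquiv r D hD A (Submodule.Quotient.mk c) = locClass r D hD A c := rfl

end Local

/-! ### The primes: `Dq q = range (primeLocalToGlobal q)` -/

section Primes

lemma range_primeLocalToGlobal (q : Nat.Primes) [Fact (q : ℕ).Prime] :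
    (primeLocalToGlobal q).range = Dq (q : ℕ) :=
  range_localGaloisToGlobal (q : ℕ)

/-- The set of primes of `S`, as natural numbers (the index set of `Coh.SelZ`). -/
def natSet (S : Finset Nat.Primes) : Finset ℕ := S.image fun q : Nat.Primes => (q : ℕ)

lemma mem_natSet_iff {S : Finset Nat.Primes} {q : ℕ} :
    q ∈ natSet S ↔ ∃ h : q.Prime, (⟨q, h⟩ : Nat.Primes) ∈ S := by
  unfold natSet
  rw [Finset.mem_image]
  constructor
  · rintro ⟨q', hq', rfl⟩
    exact ⟨q'.2, hq'⟩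
  · rintro ⟨h, hq⟩
    exact ⟨⟨q, h⟩, hq, rfl⟩

lemma prime_of_mem_natSet {S : Finset Nat.Primes} {q : ℕ} (h : q ∈ natSet S) : q.Prime :=
  (mem_natSet_iff.1 h).1

lemma coe_mem_natSet {S : Finset Nat.Primes} (q : ↥S) : ((q : Nat.Primes) : ℕ) ∈ natSet S :=
  mem_natSet_iff.2 ⟨q.1.2, q.2⟩

lemma unrOutside_of_natSet {S : Finset Nat.Primes} {c : GQ → A}
    (h : ∀ (q : ℕ) [Fact q.Prime], q ∉ natSet S → IsUnramAt q c) : UnrOutside S c :=
  fun q _ hq => h q fun hq' => hq (by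
    obtain ⟨_, h2⟩ := mem_natSet_iff.1 hq'
    exact h2)

lemma UnrOutside.natSet {S : Finset Nat.Primes} {c : GQ → A} (h : UnrOutside S c)
    (q : ℕ) [Fact q.Prime] (hq : q ∉ natSet S) : IsUnramAt q c :=
  h q fun hq' => hq (mem_natSet_iff.2 ⟨Fact.out, hq'⟩)

end Primes

/-! ### [D3] The Selmer group inside `H (levelsS S) A 1` -/

section Selmer

open Fermat.Agent.CFT.D.Reduce

/-- The `Fact` instance of a bundled prime (all instances of this proposition are equal). -/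
def factPrimes (q : Nat.Primes) : Fact (q : ℕ).Prime := ⟨q.2⟩

attribute [local instance] factPrimes

variable (S : Finset Nat.Primes)

/-- Localisation at `q ∈ S` in degree one, as a linear map (`= LC.map (hrv S q) (𝟙 _) 1`). -/
noncomputable def resq (A : Rep.{0} k GQ) (q : ↥S) :
    H (levelsS S) A 1 →ₗ[k] H (Uv S q) (Rep.res (rv S q) A) 1 :=
  (map (A := A) (B := Rep.res (rv S q) A) (hrv S q) (𝟙 _) 1).hom

lemma resq_apply (q : ↥S) (x : H (levelsS S) A 1) :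
    resq S A q x = map (A := A) (B := Rep.res (rv S q) A) (hrv S q) (𝟙 _) 1 x := rfl

/-- The class at `q ∈ S` of a cocycle on `D_q`. -/
noncomputable def locClassq (A : Rep.{0} k GQ) (q : ↥S) :
    ↥(Z1 (Dq (q.1 : ℕ)) A) →ₗ[k] H (Uv S q) (Rep.res (rv S q) A) 1 :=
  locClass (rv S q) (Dq (q.1 : ℕ)) (range_primeLocalToGlobal q.1) A

/-- `Z1 (D_q) / B1 (D_q) ≃ H¹_q`. -/
noncomputable def h1qEquiv (A : Rep.{0} k GQ) (q : ↥S) :
    (↥(Z1 (Dq (q.1 : ℕ)) A) ⧸ (B1 (Dq (q.1 : ℕ)) A).comap (Z1 (Dq (q.1 : ℕ)) A).subtype) ≃ₗ[k]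
      H (Uv S q) (Rep.res (rv S q) A) 1 :=
  h1locEquiv (rv S q) (Dq (q.1 : ℕ)) (range_primeLocalToGlobal q.1) A

@[simp] lemma h1qEquiv_mk (q : ↥S) (c : ↥(Z1 (Dq (q.1 : ℕ)) A)) :
    h1qEquiv S A q (Submodule.Quotient.mk c) = locClassq S A q c := rfl

lemma locClassq_eq_zero_iff (q : ↥S) (c : ↥(Z1 (Dq (q.1 : ℕ)) A)) :
    locClassq S A q c = 0 ↔ c.1 ∈ B1 (Dq (q.1 : ℕ)) A :=
  locClass_eq_zero_iff _ _ _ c

lemma locClassq_surjective (q : ↥S) : Function.Surjective (locClassq S A q) :=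
  locClass_surjective _ _ _

/-- **Localisation of an explicit class**: `res_q [c] = [c|_{D_q}]`. -/
lemma resq_H1π' (q : ↥S) (c : ↥(Z₁ (levelsS S) A)) (hc : c.1 ∈ Z1g A) :
    resq S A q (H1π' (levelsS S) A c) =
      locClassq S A q ⟨resFun (Dq (q.1 : ℕ)) c.1, resFun_mem_Z1 _ hc⟩ := by
  rw [resq_apply, map_H1π']
  rfl

variable {U₀ : Subgroup GQ} (hU₀ : U₀ ∈ (levelsS S).sets)
  (htriv : ∀ s ∈ U₀, ∀ m : A, A.ρ s m = m)
  (Lq : ∀ (q : ℕ) [Fact q.Prime], Submodule k (↥(Dq q) → resRep (Dq q) A))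

/-- The local condition at `q ∈ S`, as a subspace of `H¹_q = H (Uv S q) (Rep.res (rv S q) A) 1`:
the classes of the cocycles of `Lq q`. -/
noncomputable def LcH (q : ↥S) : Submodule k (H (Uv S q) (Rep.res (rv S q) A) 1) :=
  ((Lq (q.1 : ℕ)).comap (Z1 (Dq (q.1 : ℕ)) A).subtype).map (locClassq S A q)

lemma mem_LcH_iff (q : ↥S) (x : H (Uv S q) (Rep.res (rv S q) A) 1) :
    x ∈ LcH S Lq q ↔ ∃ c : ↥(Z1 (Dq (q.1 : ℕ)) A), c.1 ∈ Lq (q.1 : ℕ) ∧ locClassq S A q c = x := by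
  unfold LcH
  rw [Submodule.mem_map]
  rfl

/-- For a condition containing the coboundaries, membership of a class is membership of any
representing cocycle. -/
lemma locClassq_mem_LcH_iff (q : ↥S) (hB : B1 (Dq (q.1 : ℕ)) A ≤ Lq (q.1 : ℕ))
    (c : ↥(Z1 (Dq (q.1 : ℕ)) A)) : locClassq S A q c ∈ LcH S Lq q ↔ c.1 ∈ Lq (q.1 : ℕ) := by
  rw [mem_LcH_iff]
  constructor
  · rintro ⟨c', hc', h⟩
    have h0 : locClassq S A q (c - c') = 0 := by rw [map_sub, h, sub_self]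
    rw [locClassq_eq_zero_iff] at h0
    have : c.1 = (c - c').1 + c'.1 := by
      change c.1 = (c.1 - c'.1) + c'.1
      abel
    rw [this]
    exact Submodule.add_mem _ (hB h0) hc'
  · intro h
    exact ⟨c, h, rfl⟩

/-- The Selmer subspace of `H (levelsS S) A 1`: classes whose localisation at every `q ∈ S` lies
in `LcH q`. -/
noncomputable def selLC : Submodule k (H (levelsS S) A 1) :=
  ⨅ q : ↥S, (LcH S Lq q).comap (resq S A q)

lemma mem_selLC_iff (x : H (levelsS S) A 1) :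
    x ∈ selLC S Lq ↔ ∀ q : ↥S,
      map (A := A) (B := Rep.res (rv S q) A) (hrv S q) (𝟙 _) 1 x ∈ LcH S Lq q := by
  unfold selLC
  simp only [Submodule.mem_iInf, Submodule.mem_comap]
  rfl

include hU₀ htriv in
lemma SelZ_le_Z₁_levelsS : SelZ (natSet S) (LocCond.ofLocal Lq) ≤ Z₁ (levelsS S) A := by
  intro c hc
  rw [mem_Z₁_levelsS_iff S hU₀ htriv]
  exact ⟨hc.1, unrOutside_of_natSet hc.2.1⟩

/-- The class map on Selmer cocycles. -/
noncomputable def selClass :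
    ↥(SelZ (natSet S) (LocCond.ofLocal Lq)) →ₗ[k] H (levelsS S) A 1 :=
  H1π' (levelsS S) A ∘ₗ Submodule.inclusion (SelZ_le_Z₁_levelsS S hU₀ htriv Lq)

lemma selClass_apply (c : ↥(SelZ (natSet S) (LocCond.ofLocal Lq))) :
    selClass S hU₀ htriv Lq c =
      H1π' (levelsS S) A ⟨c.1, SelZ_le_Z₁_levelsS S hU₀ htriv Lq c.2⟩ := rfl

lemma ker_selClass :
    LinearMap.ker (selClass S hU₀ htriv Lq) =
      (B1g A).comap (SelZ (natSet S) (LocCond.ofLocal Lq)).subtype := by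
  ext c
  rw [LinearMap.mem_ker, selClass_apply, H1π'_eq_zero_iff, B₁_levelsS_eq S hU₀ htriv]
  rfl

lemma selClass_mem_selLC
    (hB : ∀ (q : ℕ) [Fact q.Prime], q ∈ natSet S → B1 (Dq q) A ≤ Lq q)
    (c : ↥(SelZ (natSet S) (LocCond.ofLocal Lq))) : selClass S hU₀ htriv Lq c ∈ selLC S Lq := by
  rw [mem_selLC_iff]
  intro q
  have h1 := resq_H1π' S q ⟨c.1, SelZ_le_Z₁_levelsS S hU₀ htriv Lq c.2⟩ c.2.1
  have h2 : resFun (Dq (q.1 : ℕ)) c.1 ∈ Lq (q.1 : ℕ) :=
    (mem_ofLocal_L_iff Lq (q.1 : ℕ) c.1).1 (c.2.2.2 _ (coe_mem_natSet q))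
  have h3 := (locClassq_mem_LcH_iff S Lq q (hB _ (coe_mem_natSet q))
    ⟨resFun (Dq (q.1 : ℕ)) c.1, resFun_mem_Z1 _ c.2.1⟩).2 h2
  rw [← h1] at h3
  exact h3

include hU₀ htriv in
lemma mem_SelZ_of_class_mem
    (hB : ∀ (q : ℕ) [Fact q.Prime], q ∈ natSet S → B1 (Dq q) A ≤ Lq q)
    (c : ↥(Z₁ (levelsS S) A)) (h : H1π' (levelsS S) A c ∈ selLC S Lq) :
    c.1 ∈ SelZ (natSet S) (LocCond.ofLocal Lq) := by
  have hc := (mem_Z₁_levelsS_iff S hU₀ htriv c.1).1 c.2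
  have key : ∀ q' : ↥S, c.1 ∈ (LocCond.ofLocal Lq).L (q'.1 : ℕ) := by
    intro q'
    rw [mem_ofLocal_L_iff]
    have h1 := (mem_selLC_iff S Lq _).1 h q'
    have h2 := resq_H1π' S q' c hc.1
    rw [resq_apply] at h2
    rw [h2] at h1
    exact (locClassq_mem_LcH_iff S Lq q' (hB _ (coe_mem_natSet q')) _).1 h1
  refine ⟨hc.1, fun q _ hq => hc.2.natSet q hq, fun q hq => ?_⟩
  obtain ⟨hqp, hqS⟩ := mem_natSet_iff.1 hq
  exact key ⟨⟨q, hqp⟩, hqS⟩

lemma range_selClass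
    (hB : ∀ (q : ℕ) [Fact q.Prime], q ∈ natSet S → B1 (Dq q) A ≤ Lq q) :
    LinearMap.range (selClass S hU₀ htriv Lq) = selLC S Lq := by
  ext x
  rw [LinearMap.mem_range]
  constructor
  · rintro ⟨c, rfl⟩
    exact selClass_mem_selLC S hU₀ htriv Lq hB c
  · intro h
    obtain ⟨c, rfl⟩ := H1π'_surjective (levelsS S) A x
    exact ⟨⟨c.1, mem_SelZ_of_class_mem S hU₀ htriv Lq hB c h⟩, rfl⟩

/-- **[D3]** The Selmer group of `S56/Coh` is the subspace of `H (levelsS S) A 1` cut out by the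
local conditions `LcH q`, `q ∈ S`. -/
noncomputable def selEquivLC
    (hB : ∀ (q : ℕ) [Fact q.Prime], q ∈ natSet S → B1 (Dq q) A ≤ Lq q) :
    Sel (natSet S) (LocCond.ofLocal Lq) ≃ₗ[k] ↥(selLC S Lq) :=
  (Submodule.quotEquivOfEq _ _ (ker_selClass S hU₀ htriv Lq).symm).trans
    ((selClass S hU₀ htriv Lq).quotKerEquivRange.trans
      (LinearEquiv.ofEq _ _ (range_selClass S hU₀ htriv Lq hB)))

lemma selEquivLC_mk (hB : ∀ (q : ℕ) [Fact q.Prime], q ∈ natSet S → B1 (Dq q) A ≤ Lq q)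
    (c : ↥(SelZ (natSet S) (LocCond.ofLocal Lq))) :
    (selEquivLC S hU₀ htriv Lq hB (Submodule.Quotient.mk c) : H (levelsS S) A 1) =
      selClass S hU₀ htriv Lq c := rfl

include hU₀ htriv in
/-- **[D4]** (conditional form) The Selmer group is finite as soon as `H (levelsS S) A 1` is. -/
lemma finite_sel_of_finite_H [Finite (H (levelsS S) A 1)]
    (hB : ∀ (q : ℕ) [Fact q.Prime], q ∈ natSet S → B1 (Dq q) A ≤ Lq q) :
    Finite (Sel (natSet S) (LocCond.ofLocal Lq)) :=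
  Finite.of_equiv _ (selEquivLC S hU₀ htriv Lq hB).symm.toEquiv

end Selmer

end Fermat.Agent.S56.Base.Dict
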