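/-
PROJECT T (S56), block (a1-II) Base, file B0-K (helper18): the dictionary of `Base/Dict` after the
CHANGE OF COEFFICIENT RING `φ : k₀ →+* k` of the D-layer (`AK X := CoeffChange.resScalars φ X`;
in the application `k₀ = Zp p`, `k` the finite residue field), PER PRIME and `S`-free, in the
literal shapes consumed by `Base/Pairing/Export` (helper23 #4161 (5)).

* `clsq φ q X : ↥(Z1 (Dq q) X) →+ H (levelsOf rq) (Rep.res rq (resScalars φ X)) 1`
  (`rq = localGaloisToGlobal q`): surjective, kernel `B1 (Dq q) X`, natural in `X`, with explicit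
  representatives;
* `clsS φ S X : ↥(Z₁ (levelsS S) X) →+ H (levelsS S) (resScalars φ X) 1`: surjective, kernel
  `B₁ (levelsS S) X`, compatible with `clsq` through restriction to `D_q`.
-/
import Fermat.Agent.S56.Base.Dict

set_option autoImplicit false
set_option maxHeartbeats 400000

namespace Fermat.Agent.S56.Base.DictK

open CategoryTheory groupCohomology ExtCitation
open Fermat.Agent.CFT.LC Fermat.Agent.CFT.Bridge Fermat.Agent.CFT.LocalBridge
open Fermat.Agent.CFT.D.CoeffChange Fermat.Agent.CFT.D.Reduce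
open Fermat.Agent.S56.Coh Fermat.Agent.S56.Base.Dict

variable {k₀ k : Type} [CommRing k₀] [CommRing k] (φ : k₀ →+* k)

/-! ### Per prime -/

section Local

variable (q : ℕ) [Fact q.Prime] (X : Rep.{0} k GQ)

lemma range_eq_Dq : (localGaloisToGlobal q).range = Dq q := range_localGaloisToGlobal q

/-- The class in `H¹_q(AK X)` of a cocycle on `D_q`. -/
noncomputable def clsq :
    ↥(Z1 (Dq q) X) →+
      H (levelsOf (localGaloisToGlobal q)) (Rep.res (localGaloisToGlobal q) (resScalars φ X)) 1 :=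
  (hEquiv φ (levelsOf (localGaloisToGlobal q)) (Rep.res (localGaloisToGlobal q) X)
      1).toAddMonoidHom.comp
    (locClass (localGaloisToGlobal q) (Dq q) (range_eq_Dq q) X).toAddMonoidHom

lemma clsq_apply (x : ↥(Z1 (Dq q) X)) :
    clsq φ q X x = hEquiv φ (levelsOf (localGaloisToGlobal q)) (Rep.res (localGaloisToGlobal q) X) 1
      (locClass (localGaloisToGlobal q) (Dq q) (range_eq_Dq q) X x) := rfl

lemma clsq_surjective : Function.Surjective (clsq φ q X) :=
  (hEquiv φ _ _ 1).surjective.comp (locClass_surjective _ _ _)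

lemma clsq_eq_zero_iff (x : ↥(Z1 (Dq q) X)) : clsq φ q X x = 0 ↔ x.1 ∈ B1 (Dq q) X := by
  rw [clsq_apply]
  exact (AddEquiv.map_eq_zero_iff _).trans (locClass_eq_zero_iff _ _ _ x)

end Local

/-! ### Naturality and representatives -/

section Natural

variable (q : ℕ) [Fact q.Prime] {X Y : Rep.{0} k GQ}

/-- Composition with a morphism of coefficients preserves cocycles on a subgroup. -/
lemma comp_mem_Z1 (f : X ⟶ Y) (D : Subgroup GQ) {x : ↥D → resRep D X} (hx : x ∈ Z1 D X) :
    (fun s => f.hom (x s) : ↥D → resRep D Y) ∈ Z1 D Y :=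
  comp_mem_Z₁ (X := resRep D X) (Y := resRep D Y) (φ := MonoidHom.id ↥D)
    (Levels.continuous_id (levelsOf D.subtype)) ((Rep.resFunctor D.subtype).map f) hx

/-- Push-forward of cocycles on `D_q` along a morphism of coefficients. -/
noncomputable def pushZ1 (f : X ⟶ Y) (x : ↥(Z1 (Dq q) X)) : ↥(Z1 (Dq q) Y) :=
  ⟨fun s => f.hom (x.1 s), comp_mem_Z1 f (Dq q) x.2⟩

@[simp] lemma pushZ1_coe (f : X ⟶ Y) (x : ↥(Z1 (Dq q) X)) (s : ↥(Dq q)) :
    (pushZ1 q f x).1 s = f.hom (x.1 s) := rfl

/-- **(D2b)** Naturality of `clsq` in the coefficients. -/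
theorem clsq_pushZ1 (f : X ⟶ Y) (x : ↥(Z1 (Dq q) X)) :
    clsq φ q Y (pushZ1 q f x) =
      mapId (𝒰 := levelsOf (localGaloisToGlobal q))
        ((Rep.resFunctor (localGaloisToGlobal q)).map (resScalarsMap φ f)) 1 (clsq φ q X x) := by
  rw [clsq_apply, clsq_apply]
  have h1 := hEquiv_mapId φ (𝒰 := levelsOf (localGaloisToGlobal q))
    ((Rep.resFunctor (localGaloisToGlobal q)).map f) 1
    (locClass (localGaloisToGlobal q) (Dq q) (range_eq_Dq q) X x)
  refine Eq.trans ?_ h1
  congr 1
  change H1π' _ _ _ = mapId _ 1 (H1π' _ _ _)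
  rw [map_H1π']
  rfl

/-- **(D2c)** An explicit representative of `clsq x`: the cocycle `g ↦ x (r_q g)`. -/
theorem exists_rep_clsq (x : ↥(Z1 (Dq q) X)) :
    ∃ z : cocyclesLC (levelsOf (localGaloisToGlobal q))
        (Rep.res (localGaloisToGlobal q) (resScalars φ X)) 1,
      Hπ (levelsOf (localGaloisToGlobal q)) (Rep.res (localGaloisToGlobal q) (resScalars φ X)) 1 z =
          clsq φ q X x ∧
        ∀ g : LocGal q, z.1.1 (fun _ => g) =
          toRes φ X (x.1 (corange (localGaloisToGlobal q) (Dq q) (range_eq_Dq q) g)) := by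
  set z₀ := toCocyclesLC₁ (levelsOf (localGaloisToGlobal q)) (Rep.res (localGaloisToGlobal q) X)
    (pullZ (localGaloisToGlobal q) (Dq q) (range_eq_Dq q) X x) with hz₀
  refine ⟨cocyclesEquiv φ (levelsOf (localGaloisToGlobal q)) (Rep.res (localGaloisToGlobal q) X) 1
    z₀, ?_, fun g => ?_⟩
  · rw [clsq_apply]
    exact (hEquiv_Hπ φ (levelsOf (localGaloisToGlobal q)) (Rep.res (localGaloisToGlobal q) X) 1
      z₀).symm
  · have h1 : (cocyclesEquiv φ (levelsOf (localGaloisToGlobal q))
        (Rep.res (localGaloisToGlobal q) X) 1 z₀).1.1 (fun _ => g) =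
        toRes φ (Rep.res (localGaloisToGlobal q) X) (z₀.1.1 (fun _ => g)) := rfl
    refine h1.trans ?_
    rw [hz₀, toCocyclesLC₁_coe, cochainsIso₁_inv_apply, pullZ_apply_coe]
    rfl

end Natural

/-! ### Global classes -/

section Global

attribute [local instance] factPrimes

variable (S : Finset Nat.Primes) (X : Rep.{0} k GQ)

/-- The class in `H¹(G_S, AK X)` of a `levelsS S`-constant cocycle (by `Dict.mem_Z₁_levelsS_iff`
these are the locally constant cocycles unramified outside `S`). -/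
noncomputable def clsS : ↥(Z₁ (levelsS S) X) →+ H (levelsS S) (resScalars φ X) 1 :=
  (hEquiv φ (levelsS S) X 1).toAddMonoidHom.comp (H1π' (levelsS S) X).toAddMonoidHom

lemma clsS_apply (x : ↥(Z₁ (levelsS S) X)) :
    clsS φ S X x = hEquiv φ (levelsS S) X 1 (H1π' (levelsS S) X x) := rfl

lemma clsS_surjective : Function.Surjective (clsS φ S X) := by
  intro y
  obtain ⟨z, hz⟩ := (hEquiv φ (levelsS S) X 1).surjective y
  obtain ⟨x, rfl⟩ := H1π'_surjective (levelsS S) X z
  exact ⟨x, hz⟩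

lemma clsS_eq_zero_iff (x : ↥(Z₁ (levelsS S) X)) :
    clsS φ S X x = 0 ↔ x.1 ∈ B₁ (levelsS S) X := by
  rw [clsS_apply]
  exact (AddEquiv.map_eq_zero_iff _).trans (H1π'_eq_zero_iff _ _ x)

/-- **(D1)** Compatibility of the global and local class maps: `res_q (clsS x) = clsq (x|_{D_q})`. -/
theorem map_clsS (q : ↥S) (x : ↥(Z₁ (levelsS S) X)) (hx : x.1 ∈ Z1g X) :
    map (A := resScalars φ X) (B := Rep.res (rv S q) (resScalars φ X)) (hrv S q) (𝟙 _) 1
        (clsS φ S X x) =
      clsq φ (q.1 : ℕ) X ⟨resFun (Dq (q.1 : ℕ)) x.1, resFun_mem_Z1 _ hx⟩ := by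
  rw [clsS_apply]
  have h1 := hEquiv_map φ (hrv S q) (A := X) (B := Rep.res (rv S q) X) (𝟙 _) 1
    (H1π' (levelsS S) X x)
  have h2 := resq_H1π' S q x hx
  rw [resq_apply] at h2
  rw [h2] at h1
  exact h1.symm.trans rfl

end Global

end Fermat.Agent.S56.Base.DictK
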