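/-
PROJECT T (S56), block (a1-II) Base, file B0-card (helper18): the CARDINALITY forms of the
dictionary `Base/Dict` + `Base/DictK`, in the literal shapes consumed by `Base/ECMain` and
`Base/Main` (chief helper8 #4258 (4)).  `φ : k₀ →+* k` is the change of coefficient ring of the
D-layer (`AK X := CoeffChange.resScalars φ X`).

* (D-a) `primesOf Sg : Finset Nat.Primes` (`= Sg.subtype Nat.Prime`) and `natSet (primesOf Sg) = Sg`
  for a set of primes `Sg : Finset ℕ`;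
* (D-b) `selFullEquiv`, `card_sel_full` :
  `Sel (natSet S) (ofLocal fun q _ => Z1 (Dq q) X) ≃+ H (levelsS S) (resScalars φ X) 1`;
* (D-c) `selStrictEquiv`, `card_sel_strict` :
  `Sel (natSet S) (ofLocal fun q _ => B1 (Dq q) X) ≃+ ↥(sha1 (rv S) (hrv S) (resScalars φ X))`;
* (D-d) `fixEquiv`, `card_fix` :
  `Coh.Fix q X ≃ H (Uv S q) (Rep.res (rv S q) (resScalars φ X)) 0`;
* `h1locEquivK`, `card_H1loc` : `Z1 (Dq q) X / B1 ≃+ H (Uv S q) (Rep.res (rv S q) (resScalars φ X)) 1`.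
-/
import Fermat.Agent.S56.Base.DictK
import Fermat.Agent.CFT.A7.HomRepLC

set_option autoImplicit false

namespace Fermat.Agent.S56.Base.DictCard

open CategoryTheory groupCohomology ExtCitation
open Fermat.Agent.CFT.LC Fermat.Agent.CFT.Bridge Fermat.Agent.CFT.LocalBridge
open Fermat.Agent.CFT.D.CoeffChange Fermat.Agent.CFT.D.Reduce
open Fermat.Agent.S56.Coh Fermat.Agent.S56.Base.Dict

/-! ### (D-a) Sets of primes: `Finset ℕ` versus `Finset Nat.Primes` -/

section Primes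

/-- The bundled primes of a finite set of natural numbers. -/
def primesOf (Sg : Finset ℕ) : Finset Nat.Primes := Sg.subtype Nat.Prime

lemma mem_primesOf_iff {Sg : Finset ℕ} {q : Nat.Primes} : q ∈ primesOf Sg ↔ (q : ℕ) ∈ Sg :=
  Finset.mem_subtype

/-- **(D-a)** A finite set of primes is the `natSet` of its set of bundled primes. -/
theorem natSet_primesOf {Sg : Finset ℕ} (hSg : ∀ q ∈ Sg, q.Prime) :
    natSet (primesOf Sg) = Sg := by
  ext q
  rw [mem_natSet_iff]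
  constructor
  · rintro ⟨_, h⟩
    exact mem_primesOf_iff.1 h
  · intro h
    exact ⟨hSg q h, mem_primesOf_iff.2 h⟩

lemma mem_natSet_primesOf_iff {Sg : Finset ℕ} (hSg : ∀ q ∈ Sg, q.Prime) {q : ℕ} :
    q ∈ natSet (primesOf Sg) ↔ q ∈ Sg := by
  rw [natSet_primesOf hSg]

lemma pPrime_mem_primesOf {p : ℕ} [Fact p.Prime] {Sg : Finset ℕ} (hp : p ∈ Sg) :
    pPrime p ∈ primesOf Sg :=
  mem_primesOf_iff.2 hp

lemma mk_mem_primesOf {Sg : Finset ℕ} {q : ℕ} (hq : q.Prime) (h : q ∈ Sg) :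
    (⟨q, hq⟩ : Nat.Primes) ∈ primesOf Sg :=
  mem_primesOf_iff.2 h

lemma not_mem_of_not_mem_primesOf {Sg : Finset ℕ} {q : ℕ} (hq : q.Prime)
    (h : (⟨q, hq⟩ : Nat.Primes) ∉ primesOf Sg) : q ∉ Sg :=
  fun h' => h (mk_mem_primesOf hq h')

/-- Products over the bundled primes of `Sg` are products over `Sg`. -/
lemma prod_primesOf {M : Type*} [CommMonoid M] {Sg : Finset ℕ} (hSg : ∀ q ∈ Sg, q.Prime)
    (f : ℕ → M) : ∏ q : ↥(primesOf Sg), f ((q : Nat.Primes) : ℕ) = ∏ q ∈ Sg, f q := by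
  rw [Finset.prod_coe_sort (primesOf Sg) (fun q : Nat.Primes => f (q : ℕ))]
  conv_rhs => rw [← natSet_primesOf hSg]
  unfold natSet
  rw [Finset.prod_image]
  intro a _ b _ hab
  exact Subtype.ext hab

end Primes

variable {k₀ k : Type} [CommRing k₀] [CommRing k] (φ : k₀ →+* k)

attribute [local instance] factPrimes

/-! ### (D-b) No local condition: the full `H¹(G_S, -)` -/

section Full

variable (S : Finset Nat.Primes) (X : Rep.{0} k GQ) {U₀ : Subgroup GQ}
  (hU₀ : U₀ ∈ (levelsS S).sets) (htriv : ∀ s ∈ U₀, ∀ m : X, X.ρ s m = m)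

lemma LcH_full (q : ↥S) : LcH S (fun q _ => Z1 (Dq q) X) q = ⊤ := by
  rw [eq_top_iff]
  intro x _
  obtain ⟨c, rfl⟩ := locClassq_surjective S (A := X) q x
  exact (mem_LcH_iff S _ q _).2 ⟨c, c.2, rfl⟩

lemma selLC_full : selLC S (fun q _ => Z1 (Dq q) X) = ⊤ := by
  rw [eq_top_iff]
  intro x _
  rw [mem_selLC_iff]
  intro q
  rw [LcH_full]
  exact Submodule.mem_top

/-- **(D-b)** The Selmer group with no condition at the primes of `S` is `H¹(G_S, AK X)`. -/
noncomputable def selFullEquiv :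
    Sel (natSet S) (LocCond.ofLocal (fun q _ => Z1 (Dq q) X)) ≃+
      H (levelsS S) (resScalars φ X) 1 :=
  ((selEquivLC S hU₀ htriv (fun q _ => Z1 (Dq q) X)
      (fun q _ _ => B1_le_Z1 (Dq q))).toAddEquiv.trans
    ((LinearEquiv.ofEq _ _ (selLC_full S X)).trans Submodule.topEquiv).toAddEquiv).trans
    (hEquiv φ (levelsS S) X 1)

lemma selFullEquiv_mk (c : ↥(SelZ (natSet S) (LocCond.ofLocal (fun q _ => Z1 (Dq q) X)))) :
    selFullEquiv φ S X hU₀ htriv (Submodule.Quotient.mk c) =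
      DictK.clsS φ S X ⟨c.1, SelZ_le_Z₁_levelsS S hU₀ htriv _ c.2⟩ := rfl

include hU₀ htriv in
/-- **(D-b)**, cardinality form. -/
theorem card_sel_full :
    Nat.card (Sel (natSet S) (LocCond.ofLocal (fun q _ => Z1 (Dq q) X))) =
      Nat.card (H (levelsS S) (resScalars φ X) 1) :=
  Nat.card_congr (selFullEquiv φ S X hU₀ htriv).toEquiv

end Full

/-! ### (D-c) Locally trivial classes: `Ш¹_S` -/

section Strict

open Fermat.Agent.CFT.D

variable (S : Finset Nat.Primes) (X : Rep.{0} k GQ) {U₀ : Subgroup GQ}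
  (hU₀ : U₀ ∈ (levelsS S).sets) (htriv : ∀ s ∈ U₀, ∀ m : X, X.ρ s m = m)

lemma LcH_strict (q : ↥S) : LcH S (fun q _ => B1 (Dq q) X) q = ⊥ := by
  rw [eq_bot_iff]
  intro x hx
  obtain ⟨c, hc, rfl⟩ := (mem_LcH_iff S _ q x).1 hx
  exact (Submodule.mem_bot k).2 ((locClassq_eq_zero_iff S q c).2 hc)

lemma mem_selLC_strict_iff (x : H (levelsS S) X 1) :
    x ∈ selLC S (fun q _ => B1 (Dq q) X) ↔
      hEquiv φ (levelsS S) X 1 x ∈ sha1 (rv S) (hrv S) (resScalars φ X) := by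
  rw [mem_selLC_iff, mem_sha1_iff]
  refine forall_congr' fun q => ?_
  rw [LcH_strict, Submodule.mem_bot]
  exact map_eq_zero_iff φ (hrv S q) (𝟙 (Rep.res (rv S q) X)) 1 x

/-- The locally trivial classes of `H¹(G_S, X)` and of `H¹(G_S, AK X)` correspond. -/
noncomputable def selLCStrictEquiv :
    ↥(selLC S (fun q _ => B1 (Dq q) X)) ≃+ ↥(sha1 (rv S) (hrv S) (resScalars φ X)) where
  toFun x := ⟨hEquiv φ (levelsS S) X 1 x.1, (mem_selLC_strict_iff φ S X x.1).1 x.2⟩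
  invFun y := ⟨(hEquiv φ (levelsS S) X 1).symm y.1, by
    rw [mem_selLC_strict_iff φ, AddEquiv.apply_symm_apply]
    exact y.2⟩
  left_inv x := Subtype.ext ((hEquiv φ (levelsS S) X 1).symm_apply_apply x.1)
  right_inv y := Subtype.ext ((hEquiv φ (levelsS S) X 1).apply_symm_apply y.1)
  map_add' x y := Subtype.ext (map_add (hEquiv φ (levelsS S) X 1) x.1 y.1)

/-- **(D-c)** The Selmer group with the strict condition at the primes of `S` is `Ш¹_S(AK X)`. -/
noncomputable def selStrictEquiv :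
    Sel (natSet S) (LocCond.ofLocal (fun q _ => B1 (Dq q) X)) ≃+
      ↥(sha1 (rv S) (hrv S) (resScalars φ X)) :=
  (selEquivLC S hU₀ htriv (fun q _ => B1 (Dq q) X) (fun q _ _ => le_rfl)).toAddEquiv.trans
    (selLCStrictEquiv φ S X)

lemma selStrictEquiv_mk (c : ↥(SelZ (natSet S) (LocCond.ofLocal (fun q _ => B1 (Dq q) X)))) :
    (selStrictEquiv φ S X hU₀ htriv (Submodule.Quotient.mk c) : H (levelsS S) (resScalars φ X) 1) =
      DictK.clsS φ S X ⟨c.1, SelZ_le_Z₁_levelsS S hU₀ htriv _ c.2⟩ := rfl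

include hU₀ htriv in
/-- **(D-c)**, cardinality form. -/
theorem card_sel_strict :
    Nat.card (Sel (natSet S) (LocCond.ofLocal (fun q _ => B1 (Dq q) X))) =
      Nat.card ↥(sha1 (rv S) (hrv S) (resScalars φ X)) :=
  Nat.card_congr (selStrictEquiv φ S X hU₀ htriv).toEquiv

end Strict

/-! ### (D-d) Local invariants, and the local `H¹` after the change of coefficient ring -/

section Fix

open Fermat.Agent.CFT.A7.HomRep

variable (S : Finset Nat.Primes) (X : Rep.{0} k GQ) (q : ↥S)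

/-- The `D_q`-invariants of `X` are the invariants of `Res_q (AK X)`. -/
noncomputable def fixEquivInv :
    Fix (q.1 : ℕ) X ≃ ↥(Rep.res (rv S q) (resScalars φ X)).ρ.invariants where
  toFun m := ⟨toRes φ X m.1, fun g =>
    m.2 (corange (rv S q) (Dq (q.1 : ℕ)) (range_primeLocalToGlobal q.1) g)⟩
  invFun v := ⟨(toRes φ X).symm v.1, fun s => by
    obtain ⟨g, rfl⟩ := corange_surjective (rv S q) (Dq (q.1 : ℕ)) (range_primeLocalToGlobal q.1) s
    exact v.2 g⟩
  left_inv _ := rfl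
  right_inv _ := rfl

/-- **(D-d)** `X^{D_q} ≃ H⁰(G_q, Res_q (AK X))`. -/
noncomputable def fixEquiv :
    Fix (q.1 : ℕ) X ≃ H (Uv S q) (Rep.res (rv S q) (resScalars φ X)) 0 :=
  (fixEquivInv φ S X q).trans
    (h0Equiv (Uv S q) (Rep.res (rv S q) (resScalars φ X))).symm.toEquiv

/-- **(D-d)**, cardinality form. -/
theorem card_fix :
    Nat.card (Fix (q.1 : ℕ) X) =
      Nat.card (H (Uv S q) (Rep.res (rv S q) (resScalars φ X)) 0) :=
  Nat.card_congr (fixEquiv φ S X q)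

/-- `Z1 (D_q) / B1 (D_q) ≃ H¹(G_q, Res_q (AK X))`. -/
noncomputable def h1locEquivK :
    (↥(Z1 (Dq (q.1 : ℕ)) X) ⧸ (B1 (Dq (q.1 : ℕ)) X).comap (Z1 (Dq (q.1 : ℕ)) X).subtype) ≃+
      H (Uv S q) (Rep.res (rv S q) (resScalars φ X)) 1 :=
  (h1qEquiv S X q).toAddEquiv.trans (hEquiv φ (Uv S q) (Rep.res (rv S q) X) 1)

lemma h1locEquivK_mk (c : ↥(Z1 (Dq (q.1 : ℕ)) X)) :
    h1locEquivK φ S X q (Submodule.Quotient.mk c) = DictK.clsq φ (q.1 : ℕ) X c := rfl

theorem card_H1loc :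
    Nat.card (↥(Z1 (Dq (q.1 : ℕ)) X) ⧸
        (B1 (Dq (q.1 : ℕ)) X).comap (Z1 (Dq (q.1 : ℕ)) X).subtype) =
      Nat.card (H (Uv S q) (Rep.res (rv S q) (resScalars φ X)) 1) :=
  Nat.card_congr (h1locEquivK φ S X q).toEquiv

/-- Finiteness of the local `H¹` in the two models. -/
theorem finite_H1loc_iff :
    Finite (↥(Z1 (Dq (q.1 : ℕ)) X) ⧸
        (B1 (Dq (q.1 : ℕ)) X).comap (Z1 (Dq (q.1 : ℕ)) X).subtype) ↔
      Finite (H (Uv S q) (Rep.res (rv S q) (resScalars φ X)) 1) :=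
  (h1locEquivK φ S X q).toEquiv.finite_iff

end Fix

end Fermat.Agent.S56.Base.DictCard
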