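/-
PROJECT T (S56), block (a1-II) Base, file B0-fin (helper18): FINITENESS of the level-constant `H¹`.

* `finite_H1` (generic): for a class formation `cf : ClassFormation 𝒰 C` over a PID `k` of
  characteristic zero with `AddHomsLinear`, the cofinal exponent-`p` existence statement (N3) and
  finite `p`-torsion in `H²(C)`, the group `H 𝒰 A 1` is finite for every finite smooth
  representation `A` killed by `p`.  Proof: left non-degeneracy of the push-forward pairing of
  THEOREM II with no places (`D/ShaOne.theta_injective`) embeds `H¹(A)` into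
  `Hom(Hom_G(RA, C) / im Hom_G(FA, C), H²(C)[p])`, and the quotient is finite
  (`D/RealizeFinite.finite_quotient`).
* `finite_H1_levelsS` : the global case `G = GQ`, `𝒰 = levelsS S`, `k = ℤ_(p)`, `p ∈ S`, `p ≠ 2`.
-/
import Fermat.Agent.CFT.D.Main
import Fermat.Agent.CFT.D.RealizeFinite
import Fermat.Agent.CFT.D.NTGlueA
import Fermat.Agent.CFT.D.Datum.Build
import Fermat.Agent.CFT.C7.GlobalCF
import Fermat.Agent.CFT.C7.F2Final

set_option autoImplicit false

noncomputable section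

namespace Fermat.Agent.S56.Base.DictFin

open CategoryTheory groupCohomology
open Fermat.Agent.CFT.LC Fermat.Agent.CFT.LC.El Fermat.Agent.CFT.A7 Fermat.Agent.CFT.A5
  Fermat.Agent.CFT.D Fermat.Agent.CFT.D.Realize

/-! ### Scalars killing the coefficients kill the cohomology -/

section Kill

variable {k G : Type} [CommRing k] [Group G] {𝒰 : Levels G}

lemma smul_H1_eq_zero (A : Rep.{0} k G) (c : k) (hc : ∀ a : A.V, c • a = 0) (y : H 𝒰 A 1) :
    c • y = 0 := by
  obtain ⟨f, rfl⟩ := H1π'_surjective 𝒰 A y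
  rw [← map_smul]
  have : c • f = 0 := by
    apply Subtype.ext
    funext g
    exact hc (f.1 g)
  rw [this, map_zero]

end Kill

/-! ### The generic finiteness theorem -/

section Generic

variable {k G : Type} [CommRing k] [Group G] [IsDomain k] [IsPrincipalIdealRing k] [CharZero k]
  {𝒰 : Levels G} [𝒰.IsFin] {C : Rep.{0} k G}
  (hR : AddHomsLinear k) (cf : ClassFormation 𝒰 C)
  (A : Rep.{0} k G) [Finite A.V] (smA : IsSmooth 𝒰 A)

/-- The pairing map `H¹(A) →+ Hom(Hom_G(RA, C), H²(C))`, `y ↦ (φ ↦ φ_* (δ y))`. -/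
def thetaF : H 𝒰 A 1 →+ ((Resolution.RA A ⟶ C) →+ H 𝒰 C 2) :=
  Fermat.Agent.CFT.D.theta (SA := Resolution.SA A) (Resolution.SA_shortExact A)
    (Resolution.isSmooth_FA A smA) (push 𝒰 (Resolution.RA A) C 2)

lemma thetaF_apply (y : H 𝒰 A 1) (φ : Resolution.RA A ⟶ C) :
    thetaF (C := C) A smA y φ = mapId φ 2 (lcδ (X := Resolution.SA A) (Resolution.SA_shortExact A)
      (Resolution.isSmooth_FA A smA) 1 2 rfl y) := rfl

include smA in
lemma exists_level_trivialF :
    ∃ U₀ ∈ 𝒰.sets, ∀ u ∈ U₀, ∀ b : (Resolution.FA A).V, (Resolution.FA A).ρ u b = b :=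
  PermH1.exists_level_trivial (Resolution.basisFA A) (Resolution.FA_ρ_basis A) 𝒰
    (Resolution.isOpen_stabilizer A smA)

include hR cf in
/-- Left non-degeneracy: `thetaF` is injective. -/
theorem thetaF_injective (y : H 𝒰 A 1) (hy : thetaF (C := C) A smA y = 0) : y = 0 := by
  obtain ⟨U₀, hU₀, hFtriv⟩ := exists_level_trivialF A smA
  have hRtriv : ∀ u ∈ U₀, ∀ b : (Resolution.RA A).V, (Resolution.RA A).ρ u b = b :=
    fun u hu b => Subtype.ext (hFtriv u hu b.1)
  have hfreeR : Module.Free k (Resolution.RA A).V := Resolution.free_RA A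
  have hfinR : Module.Finite k (Resolution.RA A).V := Resolution.finite_RA A
  refine Fermat.Agent.CFT.D.theta_injective (SA := Resolution.SA A) (Resolution.SA_shortExact A)
    (Resolution.isSmooth_FA A smA) (push 𝒰 (Resolution.RA A) C 2)
    (fun x => Resolution.eq_zero_of_H1_FA A smA x) (fun x hx => ?_) y hy
  exact cf.eq_zero_of_forall_mapId_eq_zero U₀ hU₀ hRtriv
    (NTGlue.ntb_of_pid hR cf U₀ (Resolution.RA A) hRtriv) x hx

/-- The image of `Hom_G(FA, C)` in `Hom_G(RA, C)`. -/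
def imF (C : Rep.{0} k G) : AddSubgroup (Resolution.RA A ⟶ C) :=
  (Preadditive.leftComp C (Resolution.incl A)).range

/-- `thetaF y` kills the image of `Hom_G(FA, C)`. -/
lemma thetaF_imF (y : H 𝒰 A 1) {φ : Resolution.RA A ⟶ C} (hφ : φ ∈ imF A C) :
    thetaF (C := C) A smA y φ = 0 := by
  obtain ⟨ψ, rfl⟩ := hφ
  change mapId (Resolution.incl A ≫ ψ) 2 _ = 0
  rw [← mapId_mapId_apply]
  have h := mapId_f_lcδ_apply (X := Resolution.SA A) (Resolution.SA_shortExact A)
    (Resolution.isSmooth_FA A smA) 1 2 rfl y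
  exact (congrArg (mapId (𝒰 := 𝒰) ψ 2) h).trans (map_zero _)

variable (p : ℕ) [Fact p.Prime] (hpA : ∀ a : A.V, ((p : ℕ) : k) • a = 0)
  (hn3 : ∀ U₀ ∈ 𝒰.sets, ∃ U' : Subgroup G, ∃ _ : U'.Normal,
    U' ∈ 𝒰.sets ∧ U' ≤ U₀ ∧ ((p : ℕ) : k) ∣ ((Nat.card (G ⧸ U') : ℕ) : k) ∧
      ∀ [Fintype (layerSub U₀ U')], N3 C ((p : ℕ) : k) U₀ U')
  (hfin : ∀ n : ℕ, n ≠ 0 → Finite (k ⧸ Ideal.span {((n : ℕ) : k)}))

include hR cf smA hpA hn3 hfin in
/-- `Hom_G(RA, C) / im Hom_G(FA, C)` is finite. -/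
theorem finite_quotient_imF : Finite ((Resolution.RA A ⟶ C) ⧸ imF A C) := by
  obtain ⟨U₀, hU₀, hFtriv⟩ := exists_level_trivialF A smA
  have hRtriv : ∀ u ∈ U₀, ∀ b : (Resolution.RA A).V, (Resolution.RA A).ρ u b = b :=
    fun u hu b => Subtype.ext (hFtriv u hu b.1)
  have hprojR : Module.Projective k (Resolution.RA A).V := Resolution.projective_RA A
  have hfreeR : Module.Free k (Resolution.RA A).V := Resolution.free_RA A
  have hfinR : Module.Finite k (Resolution.RA A).V := Resolution.finite_RA A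
  obtain ⟨U', hU'n, hU', hle, -, hN3⟩ := hn3 U₀ hU₀
  have hfi : U'.FiniteIndex := cf.finiteIndex U' hU'
  have hfq : Finite (G ⧸ U') := Subgroup.finite_quotient_of_finiteIndex
  let _ : Fintype (G ⧸ U') := Fintype.ofFinite _
  let _ : Fintype (layerSub U₀ U') := Fintype.ofFinite _
  have hcard : Nat.card (G ⧸ U') ≠ 0 := Nat.card_pos.ne'
  have := hfin _ hcard
  have := finite_H2_layer cf U' hU'
  have := finite_H2_layer_of_trivial (R := Resolution.RA A) U'
    (fun u hu b => hRtriv u (hle hu) b)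
  exact finite_quotient (Resolution.incl A) (Resolution.incl_injective A) ((p : ℕ) : k)
    (Resolution.exists_incl_eq_smul A ((p : ℕ) : k) hpA) U₀ U' hle hRtriv hN3
    (NTGlue.nta_of_pid hR cf U' hU' (Resolution.RA A) (fun u hu b => hRtriv u (hle hu) b))
    (imF A C) (fun ψ => ⟨ψ, rfl⟩)

include hR cf smA hpA hn3 hfin in
/-- **Finiteness of `H¹`** for a class formation with (N3) and finite `p`-torsion in `H²(C)`. -/
theorem finite_H1 [Finite (torsionP p (H 𝒰 C 2))] : Finite (H 𝒰 A 1) := by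
  classical
  haveI := finite_quotient_imF hR cf A smA p hpA hn3 hfin
  -- `p` kills `H¹(A)`
  have hpy : ∀ y : H 𝒰 A 1, p • y = 0 := fun y => by
    rw [← Nat.cast_smul_eq_nsmul k]
    exact smul_H1_eq_zero A _ hpA y
  have hval : ∀ (y : H 𝒰 A 1) (φ : Resolution.RA A ⟶ C),
      thetaF (C := C) A smA y φ ∈ torsionP p (H 𝒰 C 2) := fun y φ => by
    change p • thetaF (C := C) A smA y φ = 0
    rw [← AddMonoidHom.smul_apply, ← map_nsmul, hpy, map_zero]
    rfl
  let Φ : H 𝒰 A 1 → (((Resolution.RA A ⟶ C) ⧸ imF A C) → torsionP p (H 𝒰 C 2)) :=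
    fun y q => ⟨thetaF (C := C) A smA y (Quotient.out q), hval y _⟩
  refine Finite.of_injective Φ fun y y' h => ?_
  rw [← sub_eq_zero]
  apply thetaF_injective hR cf A smA
  ext φ
  have h1 : φ - Quotient.out (QuotientAddGroup.mk φ : (Resolution.RA A ⟶ C) ⧸ imF A C) ∈
      imF A C := by
    rw [← QuotientAddGroup.eq_zero_iff, QuotientAddGroup.mk_sub, sub_eq_zero]
    exact (Quotient.out_eq _).symm
  have h2 := thetaF_imF (C := C) A smA (y - y') h1
  rw [map_sub, sub_eq_zero] at h2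
  rw [h2, map_sub, AddMonoidHom.sub_apply]
  have h3 := congrArg Subtype.val (congrFun h (QuotientAddGroup.mk φ))
  change thetaF (C := C) A smA y _ = thetaF (C := C) A smA y' _ at h3
  rw [h3, sub_self]
  rfl

end Generic

/-! ### Finite quotients of `ℤ_(p)` -/

section Zp

open Fermat.Agent.CFT.D.ZpModel

variable (p : ℕ) [hp : Fact p.Prime]

/-- `ℤ_(p) / (n)` is finite for `n ≠ 0`. -/
theorem finite_Zp_quotient (n : ℕ) (hn : n ≠ 0) :
    Finite (Zp p ⧸ Ideal.span {((n : ℕ) : Zp p)}) := by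
  obtain ⟨v, m, hm, rfl⟩ := Nat.exists_eq_pow_mul_and_not_dvd hn p hp.out.ne_one
  have hcop : m.Coprime p := ((Nat.Prime.coprime_iff_not_dvd hp.out).2 hm).symm
  obtain ⟨u, hu⟩ := isUnit_natCast_of_coprime p m hcop
  have h1 : Ideal.span {(((p ^ v * m : ℕ)) : Zp p)} = Ideal.span {(p : Zp p)} ^ v := by
    rw [Ideal.span_singleton_pow, Nat.cast_mul, Nat.cast_pow, ← hu]
    exact Ideal.span_singleton_mul_right_unit u.isUnit _
  rw [h1]
  haveI : Finite (Zp p ⧸ Ideal.span {(p : Zp p)}) :=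
    Nat.finite_of_card_ne_zero (by rw [card_quotient_span_p]; exact hp.out.ne_zero)
  exact Ideal.finite_quotient_pow ⟨{(p : Zp p)}, by simp⟩ v

end Zp

/-! ### The global case -/

section Global

open ExtCitation Fermat.Agent.CFT.Bridge Fermat.Agent.CFT.D.ZpModel Fermat.Agent.CFT.C7.SES
  Fermat.Agent.CFT.C7

variable {p : ℕ} [Fact p.Prime] (S : Finset Nat.Primes)

/-- **Finiteness of `H¹(G_{ℚ,S}, A)`** for a finite smooth `ℤ_(p)[G_{ℚ,S}]`-module killed by `p`
(`p` odd, `p ∈ S`). -/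
theorem finite_H1_levelsS (hp2 : p ≠ 2) (hpS : pPrime p ∈ S) (A : Rep.{0} (Zp p) GQ)
    [Finite A.V] (smA : IsSmooth (levelsS S) A) (hpA : ∀ a : A.V, ((p : ℕ) : Zp p) • a = 0) :
    Finite (H (levelsS S) A 1) := by
  have hp : p.Prime := Fact.out
  let cf : ClassFormation (levelsS S) (seqK S (Zp p)).X₃ := GlobalCF.globalCF S p hp2 ⟨_, hpS⟩
  have hT : Nat.card (torsionP p (H (levelsS S) (seqK S (Zp p)).X₃ 2)) = p := by
    obtain ⟨U, hU, hdvd⟩ := LevelP.exists_level_dvd_card S (pPrime p) hpS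
    have : U.Normal := (levelsS S).normal U hU
    exact cf.card_torsionP p U hU hdvd hp.ne_zero (card_quotient_span_p p)
  haveI : Finite (torsionP p (H (levelsS S) (seqK S (Zp p)).X₃ 2)) :=
    Nat.finite_of_card_ne_zero (by rw [hT]; exact hp.ne_zero)
  exact finite_H1 (addHomsLinear p) cf A smA p hpA (F2Final.n3_Zp_of_cf p S hp2 hpS cf)
    (finite_Zp_quotient p)

end Global

end Fermat.Agent.S56.Base.DictFin
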