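/-
PROJECT T (S56), block (a1-II) Base, file B0-locfin (helper18): **(D-e) FINITENESS OF THE LOCAL
`H¹`** (chief helper8 #4258 (4)).

* `finite_H1_Gv` : for the local Galois group `Gv S q` with its prelude family of levels `Uv S q`,
  `H (Uv S q) A 1` is finite for every finite smooth `ℤ_(p)[G_q]`-module `A` killed by `p`
  (`Base/DictFin.finite_H1` for the local class formation `cfDloc p S q`, with the local existence
  theorem `LocalN3.n3_Dloc` and `LocalN3.Div`);
* `finite_H1_res` : the case `A = Res_q (AK X)`, `X` a finite `k[GQ]`-module with `p = 0` in `k`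
  on which an open subgroup acts trivially;
* `finite_H1loc`, `finite_H1loc'` : `Z1 (Dq q) X / B1 (Dq q) X` is finite (`= Count.Main.H1loc q X`).
-/
import Fermat.Agent.S56.Base.DictFin
import Fermat.Agent.S56.Base.DictCard
import Fermat.Agent.S56.Base.Pairing.LocalN3.Div

set_option autoImplicit false

namespace Fermat.Agent.S56.Base.DictLocFin

open CategoryTheory groupCohomology ExtCitation
open Fermat.Agent.CFT.LC Fermat.Agent.CFT.Bridge Fermat.Agent.CFT.LocalBridge
open Fermat.Agent.CFT.A7 Fermat.Agent.CFT.D Fermat.Agent.CFT.D.Realize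
open Fermat.Agent.CFT.D.CoeffChange Fermat.Agent.CFT.D.ZpModel Fermat.Agent.CFT.D.Reduce
open Fermat.Agent.CFT.D.DatumBuild
open Fermat.Agent.S56.Coh Fermat.Agent.S56.Base.Dict Fermat.Agent.S56.Base.DictFin
open Fermat.Agent.S56.Base.Pairing.LocalN3

variable {p : ℕ} [Fact p.Prime]

/-! ### The local Galois group -/

section Gv

variable (S : Finset Nat.Primes) (q : ↥S)

/-- **Finiteness of `H¹(G_q, A)`** for a finite smooth `ℤ_(p)[G_q]`-module killed by `p`. -/
theorem finite_H1_Gv (A : Rep.{0} (Zp p) (Gv S q)) [Finite A.V] (smA : IsSmooth (Uv S q) A)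
    (hpA : ∀ a : A.V, ((p : ℕ) : Zp p) • a = 0) : Finite (H (Uv S q) A 1) := by
  have hp : p.Prime := Fact.out
  obtain ⟨U₀, hU₀⟩ := (Uv S q).nonempty
  obtain ⟨V, hV, hle, hpV⟩ := Div.exists_level_dvd_relIndex_Uv p S q U₀ hU₀
  have hVn := (Uv S q).normal V hV
  have hpV' : p ∣ Nat.card (Gv S q ⧸ V) := by
    rw [← Subgroup.index_eq_card, ← Subgroup.relIndex_mul_index hle]
    exact Dvd.dvd.mul_right hpV _
  have hT : Nat.card (torsionP p (H (Uv S q) (Dloc p S q) 2)) = p :=
    (cfDloc p S q).card_torsionP p V hV hpV' hp.ne_zero (card_quotient_span_p p)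
  haveI : Finite (torsionP p (H (Uv S q) (Dloc p S q) 2)) :=
    Nat.finite_of_card_ne_zero (by rw [hT]; exact hp.ne_zero)
  exact finite_H1 (addHomsLinear p) (cfDloc p S q) A smA p hpA (n3_Dloc p S q)
    (finite_Zp_quotient p)

end Gv

/-! ### Restrictions of global modules -/

section Res

attribute [local instance] factPrimes

variable {k : Type} [CommRing k] (φ : Zp p →+* k) (X : Rep.{0} k GQ)

/-- `Res_q (AK X)` is smooth as soon as an open subgroup of `GQ` acts trivially on `X`. -/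
lemma isSmooth_res (S : Finset Nat.Primes) (q : ↥S)
    (hsm : ∃ U ∈ levelsAll.sets, ∀ s ∈ U, ∀ m : X, X.ρ s m = m) :
    IsSmooth (Uv S q) (Rep.res (rv S q) (resScalars φ X)) := by
  obtain ⟨U, hU, hUX⟩ := hsm
  exact fun a => ⟨U.comap (rv S q), Levels.mem_comap_sets hU,
    fun s hs => hUX (rv S q s) hs ((toRes φ X).symm a)⟩

/-- **(D-e)** `H¹(G_q, Res_q (AK X))` is finite. -/
theorem finite_H1_res [Finite X] (S : Finset Nat.Primes) (q : ↥S)
    (hsm : ∃ U ∈ levelsAll.sets, ∀ s ∈ U, ∀ m : X, X.ρ s m = m)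
    (hpX : ∀ x : X, (p : k) • x = 0) :
    Finite (H (Uv S q) (Rep.res (rv S q) (resScalars φ X)) 1) := by
  haveI : Finite (Rep.res (rv S q) (resScalars φ X)).V := ‹Finite X›
  refine finite_H1_Gv S q _ (isSmooth_res φ X S q hsm) (fun a => ?_)
  have h := hpX ((toRes φ X).symm a)
  rw [← map_natCast φ] at h
  exact h

include φ in
/-- **(D-e)**, in the cocycle model, at a prime of `S`. -/
theorem finite_H1loc' [Finite X] (S : Finset Nat.Primes) (q : ↥S)
    (hsm : ∃ U ∈ levelsAll.sets, ∀ s ∈ U, ∀ m : X, X.ρ s m = m)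
    (hpX : ∀ x : X, (p : k) • x = 0) :
    Finite (↥(Z1 (Dq (q.1 : ℕ)) X) ⧸
      (B1 (Dq (q.1 : ℕ)) X).comap (Z1 (Dq (q.1 : ℕ)) X).subtype) :=
  (DictCard.finite_H1loc_iff φ S X q).2 (finite_H1_res φ X S q hsm hpX)

include φ in
/-- **(D-e)**, in the cocycle model, at any prime `q` (no `S`): `Count.Main.H1loc q X` is finite. -/
theorem finite_H1loc [Finite X] (q : ℕ) [hq : Fact q.Prime]
    (hsm : ∃ U ∈ levelsAll.sets, ∀ s ∈ U, ∀ m : X, X.ρ s m = m)
    (hpX : ∀ x : X, (p : k) • x = 0) :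
    Finite (↥(Z1 (Dq q) X) ⧸ (B1 (Dq q) X).comap (Z1 (Dq q) X).subtype) :=
  finite_H1loc' φ X {(⟨q, hq.out⟩ : Nat.Primes)}
    ⟨⟨q, hq.out⟩, Finset.mem_singleton_self _⟩ hsm hpX

end Res

end Fermat.Agent.S56.Base.DictLocFin
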