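/-
PROJECT T (S56), block (a1-II) Base, file B0-sel (helper18): **[D4] FINITENESS OF THE SELMER
GROUPS** of `S56/Coh`, and of `H¹(G_S, X)`, for a finite module `X` over a ring `k` in which
`p = 0` (`p` odd, `p ∈ S`), on which a level of `levelsS S` acts trivially.

* `finite_H1_resScalars`, `finite_H1` : `H (levelsS S) (resScalars φ X) 1` and `H (levelsS S) X 1`
  are finite (`φ : Zp p →+* k` any ring homomorphism);
* `finite_Z₁`  : the space of `levelsS S`-constant cocycles is finite;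
* `finite_sel` : `Sel (natSet S) (LocCond.ofLocal Lq)` is finite;
* `finite_sel'`: the same for a set `Sg : Finset ℕ` of primes containing `p`.
-/
import Fermat.Agent.S56.Base.DictK
import Fermat.Agent.S56.Base.DictFin

set_option autoImplicit false

namespace Fermat.Agent.S56.Base.DictSel

open CategoryTheory groupCohomology ExtCitation
open Fermat.Agent.CFT.LC Fermat.Agent.CFT.Bridge Fermat.Agent.CFT.LocalBridge
open Fermat.Agent.CFT.D.CoeffChange Fermat.Agent.CFT.D.ZpModel
open Fermat.Agent.S56.Coh Fermat.Agent.S56.Base.Dict Fermat.Agent.S56.Base.DictFin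

variable {k : Type} [CommRing k] {p : ℕ} [Fact p.Prime] (φ : Zp p →+* k)
  (S : Finset Nat.Primes) (X : Rep.{0} k GQ) {U₀ : Subgroup GQ}

section Finite

variable (hp2 : p ≠ 2) (hpS : pPrime p ∈ S) (hU₀ : U₀ ∈ (levelsS S).sets)
  (htriv : ∀ s ∈ U₀, ∀ m : X, X.ρ s m = m) (hpX : ∀ x : X, (p : k) • x = 0)

include φ hp2 hpS hU₀ htriv hpX in
/-- `H¹(G_S, AK X)` is finite. -/
theorem finite_H1_resScalars [Finite X] : Finite (H (levelsS S) (resScalars φ X) 1) := by
  haveI : Finite (resScalars φ X).V := ‹Finite X›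
  refine finite_H1_levelsS S hp2 hpS (resScalars φ X)
    (fun a => ⟨U₀, hU₀, fun s hs => htriv s hs a⟩) (fun a => ?_)
  have h := hpX ((toRes φ X).symm a)
  rw [← map_natCast φ] at h
  exact h

include φ hp2 hpS hU₀ htriv hpX in
/-- `H¹(G_S, X)` is finite. -/
theorem finite_H1 [Finite X] : Finite (H (levelsS S) X 1) := by
  haveI := finite_H1_resScalars φ S X hp2 hpS hU₀ htriv hpX
  exact Finite.of_equiv _ (hEquiv φ (levelsS S) X 1).symm.toEquiv

include φ hp2 hpS hU₀ htriv hpX in
/-- The `levelsS S`-constant cocycles form a finite set. -/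
theorem finite_Z₁ [Finite X] : Finite ↥(Z₁ (levelsS S) X) := by
  haveI := finite_H1 φ S X hp2 hpS hU₀ htriv hpX
  haveI : Finite (↥(Z₁ (levelsS S) X) ⧸ (B₁ (levelsS S) X).comap (Z₁ (levelsS S) X).subtype) :=
    Finite.of_equiv _ (H1Equiv (levelsS S) X).symm.toEquiv
  have hB : (B₁ (levelsS S) X : Set (GQ → X)) ⊆ Set.range fun a : X => (d₀₁ X).hom a := by
    intro f hf
    obtain ⟨a, _, rfl⟩ := (mem_B₁_iff f).1 hf
    exact ⟨a, rfl⟩
  haveI : Finite ↥(B₁ (levelsS S) X) := (Set.Finite.subset (Set.finite_range _) hB).to_subtype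
  haveI : Finite ↥((B₁ (levelsS S) X).comap (Z₁ (levelsS S) X).subtype) :=
    Finite.of_injective
      (fun x : ↥((B₁ (levelsS S) X).comap (Z₁ (levelsS S) X).subtype) =>
        (⟨x.1.1, x.2⟩ : ↥(B₁ (levelsS S) X)))
      fun x y hxy => Subtype.ext (Subtype.ext (by simpa using congrArg Subtype.val hxy))
  have h := Submodule.card_eq_card_quotient_mul_card
    ((B₁ (levelsS S) X).comap (Z₁ (levelsS S) X).subtype)
  have h1 : 0 < Nat.card ↥((B₁ (levelsS S) X).comap (Z₁ (levelsS S) X).subtype) := Nat.card_pos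
  have h2 : 0 < Nat.card
      (↥(Z₁ (levelsS S) X) ⧸ (B₁ (levelsS S) X).comap (Z₁ (levelsS S) X).subtype) := Nat.card_pos
  exact Nat.finite_of_card_ne_zero (by rw [h]; positivity)

include φ hp2 hpS hU₀ htriv hpX in
/-- **[D4]** The Selmer groups of `S56/Coh` are finite. -/
theorem finite_sel [Finite X]
    (Lq : ∀ (q : ℕ) [Fact q.Prime], Submodule k (↥(Dq q) → resRep (Dq q) X))
    (hB : ∀ (q : ℕ) [Fact q.Prime], q ∈ natSet S → B1 (Dq q) X ≤ Lq q) :
    Finite (Sel (natSet S) (LocCond.ofLocal Lq)) := by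
  haveI := finite_H1 φ S X hp2 hpS hU₀ htriv hpX
  exact finite_sel_of_finite_H S hU₀ htriv Lq hB

include φ hp2 hpS hU₀ htriv hpX in
/-- The Selmer cocycles form a finite set (no condition on `Lq`). -/
theorem finite_SelZ [Finite X]
    (Lq : ∀ (q : ℕ) [Fact q.Prime], Submodule k (↥(Dq q) → resRep (Dq q) X)) :
    Finite ↥(SelZ (natSet S) (LocCond.ofLocal Lq)) := by
  haveI := finite_Z₁ φ S X hp2 hpS hU₀ htriv hpX
  exact Finite.of_injective (Submodule.inclusion (SelZ_le_Z₁_levelsS S hU₀ htriv Lq))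
    (Submodule.inclusion_injective _)

end Finite

end Fermat.Agent.S56.Base.DictSel
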