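/-
PROJECT T (S56), block (a1-II) = S56/Base (owner helper23), TN side (helper10):
LOCAL DUALITY IN DEGREE `(2, 0)` for the local Galois groups, HYPOTHESIS-FREE.

`Base/LocalH2` proves `#H²(G_q, Hom(A, D_q)) = #H⁰(G_q, A)` (`D_q = Q̄_q^× ⊗ ℤ_(p)`, `A` finite smooth
killed by `p`) under the hypothesis `hdiv` that `p` divides relative indices of levels cofinally;
helper22's `Base/Pairing/LocalN3/Div` proves `hdiv` for the full local families
`levelsOf (localGaloisToGlobal q)` and `Uv S q` (every prime `q`, `q = p` included).  This file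
composes the two:

* `card_torsionP_H2_Dloc`, `card_torsionP_H2` : `H²(G_q, D_q)[p]` has `p` elements;
* `evEquivDloc`, `evEquivLoc`                : `H²(G_q, Hom(A, D_q)) ≃+ Hom(A^{G_q}, H²(G_q, D_q))`,
                                               the (TN-20) evaluation map `TNLC.evMap`;
* `card_H2_hom_Dloc_eq`, `card_H2_hom_eq`    : `#H²(G_q, Hom(A, D_q)) = #H⁰(G_q, A)`
                                               (helper23's literal #4090 (3)(c), no hypothesis left).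
-/
import Fermat.Agent.S56.Base.LocalH2
import Fermat.Agent.S56.Base.Pairing.LocalN3.Div

set_option autoImplicit false

noncomputable section

namespace Fermat.Agent.S56.Base.LocalH2Final

open CategoryTheory groupCohomology
open Fermat.Agent.CFT.LC Fermat.Agent.CFT.LC.El Fermat.Agent.CFT.A7 Fermat.Agent.CFT.A5
  Fermat.Agent.CFT.A7.HomRep Fermat.Agent.CFT.D Fermat.Agent.S56.Base.TNLC
open ExtCitation Fermat.Agent.CFT.Bridge Fermat.Agent.CFT.LocalBridge Fermat.Agent.CFT.D.Reduce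
  Fermat.Agent.CFT.D.ZpModel Fermat.Agent.CFT.D.DatumBuild Fermat.Agent.CFT.A7.BaseChange
  Fermat.Agent.CFT.Idele
open Fermat.Agent.S56.Base.Pairing.LocalN3.Div

variable (p : ℕ) [Fact p.Prime]

/-! ### The family `Uv S q` of the Datum -/

/-- `H²(G_q, D_q)[p]` has exactly `p` elements (`D_q = Q̄_q^× ⊗ ℤ_(p)`, every prime `q`). -/
theorem card_torsionP_H2_Dloc (S : Finset Nat.Primes) (q : ↥S) :
    Nat.card (torsionP p (H (Uv S q) (Dloc p S q) 2)) = p := by
  obtain ⟨U₀, hU₀⟩ := (Uv S q).nonempty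
  obtain ⟨V, hV, hle, hpV⟩ := exists_level_dvd_relIndex_Uv p S q U₀ hU₀
  have hVn := (Uv S q).normal V hV
  have hpV' : p ∣ Nat.card (Gv S q ⧸ V) := by
    rw [← Subgroup.index_eq_card, ← Subgroup.relIndex_mul_index hle]
    exact Dvd.dvd.mul_right hpV _
  exact (cfDloc p S q).card_torsionP p V hV hpV' (Fact.out : p.Prime).ne_zero
    (card_quotient_span_p p)

/-- **Local duality in degree `(2, 0)`**, the isomorphism: for a finite smooth `A` killed by `p`,
evaluation `H²(G_q, Hom(A, D_q)) → Hom(A^{G_q}, H²(G_q, D_q))` is an isomorphism. -/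
def evEquivDloc (S : Finset Nat.Primes) (q : ↥S)
    (A : Rep.{0} (Zp p) (Gv S q)) [Finite A.V] (smA : IsSmooth (Uv S q) A)
    (hpA : ∀ a : A.V, ((p : ℕ) : Zp p) • a = 0) :
    H (Uv S q) (homRep A (Dloc p S q)) 2 ≃+ (A.ρ.invariants →+ H (Uv S q) (Dloc p S q) 2) :=
  LocalH2.evEquiv (addHomsLinear p) (cfDloc p S q) (isSmooth_Dloc p S q) p (div_Dloc p S q)
    (exists_level_dvd_relIndex_Uv p S q) A smA hpA

@[simp]
theorem evEquivDloc_apply (S : Finset Nat.Primes) (q : ↥S)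
    (A : Rep.{0} (Zp p) (Gv S q)) [Finite A.V] (smA : IsSmooth (Uv S q) A)
    (hpA : ∀ a : A.V, ((p : ℕ) : Zp p) • a = 0) (x : H (Uv S q) (homRep A (Dloc p S q)) 2) :
    evEquivDloc p S q A smA hpA x = evMap (Uv S q) A (Dloc p S q) x :=
  rfl

/-- **`#H²(G_q, Hom(A, D_q)) = #H⁰(G_q, A)`** for the local datum of `D/Datum/Local`, `A` finite
smooth killed by `p`.  No hypothesis on `q` (`q = p` allowed). -/
theorem card_H2_hom_Dloc_eq (S : Finset Nat.Primes) (q : ↥S)
    (A : Rep.{0} (Zp p) (Gv S q)) [Finite A.V] (smA : IsSmooth (Uv S q) A)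
    (hpA : ∀ a : A.V, ((p : ℕ) : Zp p) • a = 0) :
    Finite (H (Uv S q) (homRep A (Dloc p S q)) 2) ∧
      Nat.card (H (Uv S q) (homRep A (Dloc p S q)) 2) = Nat.card (H (Uv S q) A 0) :=
  LocalH2.card_H2_hom_Dloc_eq p S q (exists_level_dvd_relIndex_Uv p S q) A smA hpA

/-! ### Per prime, without `S` -/

/-- `H²(G_q, D_q)[p]` has exactly `p` elements, per prime. -/
theorem card_torsionP_H2 (q : Nat.Primes) :
    Nat.card (torsionP p (H (levelsOf (localGaloisToGlobal (q : ℕ)))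
      (tensorRep (k := Zp p) (unitsQ q) : Rep.{0} (Zp p) (LocGal (q : ℕ))) 2)) = p :=
  card_torsionP_H2_Dloc p ({q} : Finset Nat.Primes) ⟨q, Finset.mem_singleton_self q⟩

/-- The evaluation isomorphism per prime. -/
def evEquivLoc (q : Nat.Primes)
    (A : Rep.{0} (Zp p) (LocGal (q : ℕ))) [Finite A.V]
    (smA : IsSmooth (levelsOf (localGaloisToGlobal (q : ℕ))) A)
    (hpA : ∀ a : A.V, ((p : ℕ) : Zp p) • a = 0) :
    H (levelsOf (localGaloisToGlobal (q : ℕ)))
        (homRep A (tensorRep (k := Zp p) (unitsQ q) : Rep.{0} (Zp p) (LocGal (q : ℕ)))) 2 ≃+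
      (A.ρ.invariants →+ H (levelsOf (localGaloisToGlobal (q : ℕ)))
        (tensorRep (k := Zp p) (unitsQ q) : Rep.{0} (Zp p) (LocGal (q : ℕ))) 2) :=
  evEquivDloc p ({q} : Finset Nat.Primes) ⟨q, Finset.mem_singleton_self q⟩ A smA hpA

@[simp]
theorem evEquivLoc_apply (q : Nat.Primes)
    (A : Rep.{0} (Zp p) (LocGal (q : ℕ))) [Finite A.V]
    (smA : IsSmooth (levelsOf (localGaloisToGlobal (q : ℕ))) A)
    (hpA : ∀ a : A.V, ((p : ℕ) : Zp p) • a = 0)
    (x : H (levelsOf (localGaloisToGlobal (q : ℕ)))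
        (homRep A (tensorRep (k := Zp p) (unitsQ q) : Rep.{0} (Zp p) (LocGal (q : ℕ)))) 2) :
    evEquivLoc p q A smA hpA x =
      evMap (levelsOf (localGaloisToGlobal (q : ℕ))) A
        (tensorRep (k := Zp p) (unitsQ q) : Rep.{0} (Zp p) (LocGal (q : ℕ))) x :=
  rfl

/-- **`#H²(G_q, Hom(A, D_q)) = #H⁰(G_q, A)`** per prime (helper23's literal #4090 (3)(c)):
`𝒰q := levelsOf (localGaloisToGlobal q)`, `Dq := tensorRep (unitsQ q)`. -/
theorem card_H2_hom_eq (q : Nat.Primes)
    (A : Rep.{0} (Zp p) (LocGal (q : ℕ))) [Finite A.V]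
    (smA : IsSmooth (levelsOf (localGaloisToGlobal (q : ℕ))) A)
    (hpA : ∀ a : A.V, ((p : ℕ) : Zp p) • a = 0) :
    Finite (H (levelsOf (localGaloisToGlobal (q : ℕ)))
        (homRep A (tensorRep (k := Zp p) (unitsQ q) : Rep.{0} (Zp p) (LocGal (q : ℕ)))) 2) ∧
      Nat.card (H (levelsOf (localGaloisToGlobal (q : ℕ)))
        (homRep A (tensorRep (k := Zp p) (unitsQ q) : Rep.{0} (Zp p) (LocGal (q : ℕ)))) 2) =
        Nat.card (H (levelsOf (localGaloisToGlobal (q : ℕ))) A 0) :=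
  LocalH2.card_H2_hom_eq p q (exists_level_dvd_relIndex p q) A smA hpA

end Fermat.Agent.S56.Base.LocalH2Final
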