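/-
PROJECT T (S56), block (a1-II) `S56/Base` (chief helper8): `H⁰(G_ℚ, ad⁰ρ̄) = 0`.

For an absolutely irreducible `ρbar` with matrix form `rbar` and `2 ≠ 0` in `k`, a trace-zero matrix
fixed by the adjoint action commutes with the image of `rbar`, hence is scalar (Schur's lemma,
`S53/SchurMat.schur_field`), hence zero.  This is the hypothesis `hA0` of
`S56/Base/Tail/Final.tail0_theDatum` and of `S56/Base/ECMain`.
-/
import Fermat.Agent.S53.SchurMat
import Fermat.Agent.S56.Coh.CocDefs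

set_option autoImplicit false

namespace Fermat.Agent.S56.Base.SchurAd

open Matrix Fermat.Agent.CFT.Bridge Fermat.Agent.S56.Coh.CocDefs

variable {k : Type} [Field k]

/-- **`(ad⁰ρ̄)^{G_ℚ} = 0`.** -/
theorem eq_zero_of_forall_ρ_eq (h2 : (2 : k) ≠ 0) (ρbar : ResidualGaloisRep k)
    (habs : ρbar.IsAbsolutelyIrreducible) (b : Module.Basis (Fin 2) k ρbar.V)
    (rbar : GQ →* GL (Fin 2) k)
    (hb : ∀ g, (rbar g : Matrix (Fin 2) (Fin 2) k) = LinearMap.toMatrix b b (ρbar.ρ g))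
    (X : Mrep rbar) (hX : ∀ s : GQ, (Mrep rbar).ρ s X = X) : X = 0 := by
  have hcomm : ∀ σ : GQ, (X : sl2 k).1 * LinearMap.toMatrix b b (ρbar.ρ σ) =
      LinearMap.toMatrix b b (ρbar.ρ σ) * (X : sl2 k).1 := by
    intro σ
    have h := congrArg (fun Y : sl2 k => (Y : Matrix (Fin 2) (Fin 2) k)) (hX σ)
    simp only at h
    rw [Mrep_ρ_coe] at h
    rw [← hb σ]
    have h3 : (rbar σ : Matrix (Fin 2) (Fin 2) k) * (X : sl2 k).1 *
        (((rbar σ)⁻¹ : GL (Fin 2) k) : Matrix (Fin 2) (Fin 2) k) *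
        (rbar σ : Matrix (Fin 2) (Fin 2) k) = (X : sl2 k).1 * (rbar σ : Matrix (Fin 2) (Fin 2) k) := by
      rw [h]
    rw [← h3, Matrix.mul_assoc, ← Units.val_mul, inv_mul_cancel, Units.val_one, Matrix.mul_one]
  obtain ⟨c, hc⟩ := Fermat.Agent.S53.SchurMat.schur_field ρbar habs b (X : sl2 k).1 hcomm
  have htr : ((X : sl2 k).1).trace = 0 := mem_sl2.1 (X : sl2 k).2
  rw [hc, Matrix.trace_smul, Matrix.trace_one, Fintype.card_fin, smul_eq_mul] at htr
  have hc0 : c = 0 := by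
    rcases mul_eq_zero.1 htr with h | h
    · exact h
    · exact absurd (by exact_mod_cast h) h2
  apply Subtype.ext
  rw [hc, hc0, zero_smul]
  rfl

end Fermat.Agent.S56.Base.SchurAd
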